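import Fermat.Agent.Ornstein.Basic
import Mathlib.MeasureTheory.Measure.Prokhorov
import Mathlib.MeasureTheory.Measure.Portmanteau
import Mathlib.Dynamics.Ergodic.Extreme

/-!
# Joinings

The joinings of two processes form a compact set of measures. Over ergodic processes, minimising
one window event and then all the others in turn over this set gives an ergodic joining.
-/

set_option autoImplicit false

noncomputable section

open MeasureTheory Filter Topology
open FA.KolmogorovSinai (shift)

namespace FA.Ornstein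

section Eval

variable {X : Type*} [TopologicalSpace X]

theorem continuous_tr (k : ℤ) : Continuous (tr k : (ℤ → X) → ℤ → X) :=
  continuous_pi fun _ => continuous_apply _

theorem continuous_fstS {Y : Type*} [TopologicalSpace Y] :
    Continuous (fstS : (ℤ → X × Y) → ℤ → X) :=
  continuous_pi fun i => (continuous_apply i).fst

theorem continuous_sndS {Y : Type*} [TopologicalSpace Y] :
    Continuous (sndS : (ℤ → X × Y) → ℤ → Y) :=
  continuous_pi fun i => (continuous_apply i).snd

theorem continuous_swapS {Y : Type*} [TopologicalSpace Y] :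
    Continuous (swapS : (ℤ → X × Y) → ℤ → Y × X) :=
  continuous_pi fun i => (continuous_apply i).snd.prodMk (continuous_apply i).fst

theorem isClopen_win [DiscreteTopology X] (r : ℕ) (S : Set (Fin (2 * r + 1) → X)) :
    IsClopen (win r ⁻¹' S : Set (ℤ → X)) :=
  (isClopen_discrete S).preimage (continuous_pi fun _ => continuous_apply _)

variable [Fintype X] [MeasurableSpace X] [MeasurableSingletonClass X] [DiscreteTopology X]

theorem continuous_eval {E : Set (ℤ → X)} (hE : IsClopen E) :
    Continuous fun m : ProbabilityMeasure (ℤ → X) => (m : Measure (ℤ → X)).real E := by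
  refine continuous_iff_continuousAt.2 fun m => ?_
  have := ProbabilityMeasure.tendsto_measure_of_isClopen_of_tendsto
    (μs := fun m : ProbabilityMeasure (ℤ → X) => m) (μ := m) (L := 𝓝 m) tendsto_id hE
  exact ((NNReal.continuous_coe.tendsto _).comp this).congr fun m => by
    simp [measureReal_def, ← ProbabilityMeasure.ennreal_coeFn_eq_coeFn_toMeasure]

end Eval

variable {A B : Type*} [MeasurableSpace A] [MeasurableSpace B]

/-- A joining of two processes: an invariant measure on pairs of sequences with these marginals. -/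
structure IsJoining (μ : Measure (ℤ → A)) (ν : Measure (ℤ → B)) (L : Measure (ℤ → A × B)) :
    Prop where
  mp : MeasurePreserving (shift (A × B)) L L
  fst : L.map fstS = μ
  snd : L.map sndS = ν

variable {μ : Measure (ℤ → A)} {ν : Measure (ℤ → B)} {L : Measure (ℤ → A × B)}

theorem IsJoining.isProb [IsProbabilityMeasure μ] (h : IsJoining μ ν L) :
    IsProbabilityMeasure L := by
  refine ⟨?_⟩
  have := congrArg (fun m : Measure (ℤ → A) => m Set.univ) h.fst
  simpa [Measure.map_apply measurable_fstS] using this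

theorem IsJoining.real_fst (h : IsJoining μ ν L) {s : Set (ℤ → A)} (hs : MeasurableSet s) :
    L.real (fstS ⁻¹' s) = μ.real s := by
  rw [← h.fst, map_measureReal_apply measurable_fstS hs]

theorem IsJoining.real_snd (h : IsJoining μ ν L) {s : Set (ℤ → B)} (hs : MeasurableSet s) :
    L.real (sndS ⁻¹' s) = ν.real s := by
  rw [← h.snd, map_measureReal_apply measurable_sndS hs]

theorem IsJoining.swap (h : IsJoining μ ν L) : IsJoining ν μ (L.map swapS) where
  mp := mp_map h.mp measurable_swapS fun _ => rfl
  fst := by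
    rw [Measure.map_map measurable_fstS measurable_swapS]
    exact h.snd
  snd := by
    rw [Measure.map_map measurable_sndS measurable_swapS]
    exact h.fst

/-- The parts of a split measure have the ergodic images of the whole. -/
theorem marginal_of_split {α : Type*} [MeasurableSpace α] {m₁ m₂ : Measure (ℤ → α)}
    [IsProbabilityMeasure m₁] [IsProbabilityMeasure m₂] [IsProbabilityMeasure μ]
    (hμ : Ergodic (shift A) μ) {F : (ℤ → α) → ℤ → A} (hF : Measurable F)
    (hcomm : ∀ z, F (tr 1 z) = tr 1 (F z)) (hm₁ : MeasurePreserving (shift α) m₁ m₁)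
    (hm₂ : MeasurePreserving (shift α) m₂ m₂) {a b : ENNReal} (ha : a ≠ 0) (hb : b ≠ 0)
    (h : (a • m₁ + b • m₂).map F = μ) : m₁.map F = μ ∧ m₂.map F = μ := by
  rw [Measure.map_add _ _ hF, Measure.map_smul, Measure.map_smul] at h
  have := Measure.isProbabilityMeasure_map (μ := m₁) hF.aemeasurable
  have := Measure.isProbabilityMeasure_map (μ := m₂) hF.aemeasurable
  refine ⟨hμ.eq_of_absolutelyContinuous (mp_map hm₁ hF hcomm) ?_,
    hμ.eq_of_absolutelyContinuous (mp_map hm₂ hF hcomm) ?_⟩
  · exact h ▸ (Measure.absolutelyContinuous_smul ha).trans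
      (Measure.le_add_right le_rfl).absolutelyContinuous
  · exact h ▸ (Measure.absolutelyContinuous_smul hb).trans
      (Measure.le_add_left le_rfl).absolutelyContinuous

/-- Two processes have a joining. -/
theorem exists_joining [IsProbabilityMeasure μ] [IsProbabilityMeasure ν]
    (hμ : MeasurePreserving (shift A) μ μ) (hν : MeasurePreserving (shift B) ν ν) :
    ∃ L : Measure (ℤ → A × B), IsJoining μ ν L := by
  have hz : Measurable fun p : (ℤ → A) × (ℤ → B) => zipS p.1 p.2 :=
    measurable_zipS measurable_fst measurable_snd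
  refine ⟨(μ.prod ν).map fun p => zipS p.1 p.2, ⟨(shift _).measurable, ?_⟩, ?_, ?_⟩
  · conv_rhs => rw [← (hμ.prod hν).map_eq, Measure.map_map hz (hμ.measurable.prodMap hν.measurable)]
    rw [Measure.map_map (shift _).measurable hz]
    rfl
  · rw [Measure.map_map measurable_fstS hz]
    exact measurePreserving_fst.map_eq
  · rw [Measure.map_map measurable_sndS hz]
    exact measurePreserving_snd.map_eq

variable [Fintype A] [MeasurableSingletonClass A] [Fintype B] [MeasurableSingletonClass B]

section Joinings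

variable [TopologicalSpace A] [DiscreteTopology A] [TopologicalSpace B] [DiscreteTopology B]

/-- The joinings as a set of probability measures. -/
def joinings (μ : Measure (ℤ → A)) (ν : Measure (ℤ → B)) :
    Set (ProbabilityMeasure (ℤ → A × B)) :=
  {L | IsJoining μ ν (L : Measure (ℤ → A × B))}

omit [TopologicalSpace A] [DiscreteTopology A] [TopologicalSpace B] [DiscreteTopology B] in
theorem isJoining_iff [IsProbabilityMeasure μ] [IsProbabilityMeasure ν]
    [IsProbabilityMeasure L] : IsJoining μ ν L ↔
      (∀ r w, L.real (fstS ⁻¹' (win r ⁻¹' {w})) = μ.real (win r ⁻¹' {w})) ∧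
      (∀ r w, L.real (sndS ⁻¹' (win r ⁻¹' {w})) = ν.real (win r ⁻¹' {w})) ∧
      ∀ r w, L.real (tr 1 ⁻¹' (win r ⁻¹' {w})) = L.real (win r ⁻¹' {w}) := by
  refine ⟨fun h => ⟨fun r w => h.real_fst (measurable_win r (measurableSet_singleton w)),
    fun r w => h.real_snd (measurable_win r (measurableSet_singleton w)), fun r w => ?_⟩,
    fun ⟨h1, h2, h3⟩ => ?_⟩
  · rw [measureReal_def, (mp_tr h.mp 1).measure_preimage
      (measurable_win r (measurableSet_singleton w)).nullMeasurableSet, measureReal_def]
  have := Measure.isProbabilityMeasure_map (μ := L) measurable_fstS.aemeasurable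
  have := Measure.isProbabilityMeasure_map (μ := L) measurable_sndS.aemeasurable
  have := Measure.isProbabilityMeasure_map (μ := L) (shift (A × B)).measurable.aemeasurable
  refine ⟨⟨(shift _).measurable, ext_of_win fun r w => ?_⟩, ext_of_win fun r w => ?_,
    ext_of_win fun r w => ?_⟩
  · rw [map_measureReal_apply (shift _).measurable (measurable_win r (measurableSet_singleton w))]
    exact h3 r w
  · rw [map_measureReal_apply measurable_fstS (measurable_win r (measurableSet_singleton w))]
    exact h1 r w
  · rw [map_measureReal_apply measurable_sndS (measurable_win r (measurableSet_singleton w))]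
    exact h2 r w

theorem isClosed_joinings [IsProbabilityMeasure μ] [IsProbabilityMeasure ν] :
    IsClosed (joinings μ ν) := by
  have e : joinings μ ν =
      (⋂ r, ⋂ w, {L : ProbabilityMeasure (ℤ → A × B) |
        (L : Measure (ℤ → A × B)).real (fstS ⁻¹' (win r ⁻¹' {w})) = μ.real (win r ⁻¹' {w})}) ∩
      ((⋂ r, ⋂ w, {L : ProbabilityMeasure (ℤ → A × B) |
        (L : Measure (ℤ → A × B)).real (sndS ⁻¹' (win r ⁻¹' {w})) = ν.real (win r ⁻¹' {w})}) ∩
      (⋂ r, ⋂ w, {L : ProbabilityMeasure (ℤ → A × B) |
        (L : Measure (ℤ → A × B)).real (tr 1 ⁻¹' (win r ⁻¹' {w})) =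
          (L : Measure (ℤ → A × B)).real (win r ⁻¹' {w})})) := by
    ext L
    simp only [Set.mem_inter_iff, Set.mem_iInter]
    exact isJoining_iff
  rw [e]
  refine IsClosed.inter (isClosed_iInter fun r => isClosed_iInter fun w => ?_)
    (IsClosed.inter (isClosed_iInter fun r => isClosed_iInter fun w => ?_)
      (isClosed_iInter fun r => isClosed_iInter fun w => ?_))
  · exact isClosed_eq (continuous_eval ((isClopen_win r _).preimage continuous_fstS))
      continuous_const
  · exact isClosed_eq (continuous_eval ((isClopen_win r _).preimage continuous_sndS))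
      continuous_const
  · exact isClosed_eq (continuous_eval ((isClopen_win r _).preimage (continuous_tr 1)))
      (continuous_eval (isClopen_win r _))

end Joinings

/-- **An ergodic joining with no more mass on a window event.** -/
theorem exists_ergodic_joining [IsProbabilityMeasure μ] [IsProbabilityMeasure ν]
    (hμ : Ergodic (shift A) μ) (hν : Ergodic (shift B) ν) (h : IsJoining μ ν L) (r : ℕ)
    (S : Set (Fin (2 * r + 1) → A × B)) :
    ∃ L' : Measure (ℤ → A × B), IsJoining μ ν L' ∧ Ergodic (shift (A × B)) L' ∧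
      L'.real (win r ⁻¹' S) ≤ L.real (win r ⁻¹' S) := by
  let : TopologicalSpace A := ⊥
  have : DiscreteTopology A := ⟨rfl⟩
  let : TopologicalSpace B := ⊥
  have : DiscreteTopology B := ⟨rfl⟩
  have := h.isProb
  obtain ⟨g, hg⟩ := exists_surjective_nat (Option (Σ m : ℕ, (Fin (2 * m + 1) → A × B)))
  let e : ℕ → Set (ℤ → A × B)
    | 0 => win r ⁻¹' S
    | k + 1 => (g k).elim ∅ fun p => win p.1 ⁻¹' {p.2}
  have he : ∀ k, IsClopen (e k) := by
    rintro (_ | k)
    · exact isClopen_win r S
    · show IsClopen ((g k).elim ∅ fun p => win p.1 ⁻¹' {p.2})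
      cases g k
      · exact isClopen_empty
      · exact isClopen_win _ _
  let v : ℕ → ProbabilityMeasure (ℤ → A × B) → ℝ :=
    fun k m => (m : Measure (ℤ → A × B)).real (e k)
  let C : ℕ → Set (ProbabilityMeasure (ℤ → A × B)) :=
    Nat.rec (joinings μ ν) fun k s => {m | m ∈ s ∧ ∀ m' ∈ s, v k m ≤ v k m'}
  have hC : ∀ k, IsClosed (C k) ∧ (C k).Nonempty := by
    intro k
    induction k with
    | zero => exact ⟨isClosed_joinings, ⟨⟨L, inferInstance⟩, h⟩⟩
    | succ k ih =>
      obtain ⟨m, hm, hmin⟩ := ih.1.isCompact.exists_isMinOn ih.2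
        (continuous_eval (he k)).continuousOn
      refine ⟨?_, ⟨m, hm, fun m' hm' => hmin hm'⟩⟩
      show IsClosed {m | m ∈ C k ∧ ∀ m' ∈ C k, v k m ≤ v k m'}
      have e' : {m | m ∈ C k ∧ ∀ m' ∈ C k, v k m ≤ v k m'} =
          C k ∩ ⋂ m' ∈ C k, {m | v k m ≤ v k m'} := by
        ext m
        simp
      rw [e']
      exact ih.1.inter (isClosed_iInter fun m' => isClosed_iInter fun _ =>
        isClosed_le (continuous_eval (he k)) continuous_const)
  obtain ⟨L', hL'⟩ := IsCompact.nonempty_iInter_of_sequence_nonempty_isCompact_isClosed C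
    (fun k m hm => hm.1) (fun k => (hC k).2) (hC 0).1.isCompact fun k => (hC k).1
  rw [Set.mem_iInter] at hL'
  have hJ : IsJoining μ ν (L' : Measure (ℤ → A × B)) := hL' 0
  refine ⟨L', hJ, Ergodic.of_mem_extremePoints ?_,
    ((hL' 1).2 ⟨L, inferInstance⟩ h)⟩
  rw [mem_extremePoints_iff_left]
  refine ⟨⟨hJ.mp, inferInstance⟩, ?_⟩
  rintro m₁ ⟨hm₁, hp₁⟩ m₂ ⟨hm₂, hp₂⟩ ⟨a, b, ha, hb, hab, hL⟩
  have hat : a ≠ ⊤ := fun h => by simp [h] at hab
  have hbt : b ≠ ⊤ := fun h => by simp [h] at hab
  have habr : a.toReal + b.toReal = 1 := by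
    rw [← ENNReal.toReal_add hat hbt, hab, ENNReal.toReal_one]
  have hf := marginal_of_split hμ measurable_fstS (fun _ => rfl) hm₁ hm₂ ha.ne' hb.ne'
    (hL ▸ hJ.fst)
  have hs := marginal_of_split hν measurable_sndS (fun _ => rfl) hm₁ hm₂ ha.ne' hb.ne'
    (hL ▸ hJ.snd)
  have hsplit : ∀ k, (L' : Measure (ℤ → A × B)).real (e k) =
      a.toReal * m₁.real (e k) + b.toReal * m₂.real (e k) := fun k => by
    rw [← hL, measureReal_def, Measure.add_apply, Measure.smul_apply, Measure.smul_apply,
      smul_eq_mul, smul_eq_mul, ENNReal.toReal_add (ENNReal.mul_ne_top hat (measure_ne_top _ _))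
        (ENNReal.mul_ne_top hbt (measure_ne_top _ _)), ENNReal.toReal_mul, ENNReal.toReal_mul]
    rfl
  have key : ∀ k, (⟨m₁, hp₁⟩ : ProbabilityMeasure (ℤ → A × B)) ∈ C k ∧
      (⟨m₂, hp₂⟩ : ProbabilityMeasure (ℤ → A × B)) ∈ C k := by
    intro k
    induction k with
    | zero => exact ⟨⟨hm₁, hf.1, hs.1⟩, ⟨hm₂, hf.2, hs.2⟩⟩
    | succ k ih =>
      obtain ⟨-, hmin⟩ := hL' (k + 1)
      have h1 : v k L' ≤ m₁.real (e k) := hmin _ ih.1
      have h2 : v k L' ≤ m₂.real (e k) := hmin _ ih.2
      have h3 : v k L' = a.toReal * m₁.real (e k) + b.toReal * m₂.real (e k) := hsplit k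
      have ha' : 0 < a.toReal := ENNReal.toReal_pos ha.ne' hat
      have hb' : 0 < b.toReal := ENNReal.toReal_pos hb.ne' hbt
      refine ⟨⟨ih.1, fun m' hm' => le_trans ?_ (hmin m' hm')⟩,
        ⟨ih.2, fun m' hm' => le_trans ?_ (hmin m' hm')⟩⟩
      · show m₁.real (e k) ≤ v k L'
        refine le_of_mul_le_mul_left ?_ ha'
        linarith [mul_le_mul_of_nonneg_left h2 hb'.le,
          congrArg (· * v k L') habr, add_mul a.toReal b.toReal (v k L')]
      · show m₂.real (e k) ≤ v k L'
        refine le_of_mul_le_mul_left ?_ hb'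
        linarith [mul_le_mul_of_nonneg_left h1 ha'.le,
          congrArg (· * v k L') habr, add_mul a.toReal b.toReal (v k L')]
  refine ext_of_win fun j w => ?_
  obtain ⟨k, hk⟩ := hg (some ⟨j, w⟩)
  have hek : e (k + 1) = win j ⁻¹' {w} := by
    show (g k).elim ∅ (fun p => win p.1 ⁻¹' {p.2}) = _
    rw [hk]
    rfl
  have h1 := (hL' (k + 2)).2 _ (key (k + 1)).1
  have h2 := (key (k + 2)).1.2 L' (hL' (k + 1))
  simp only [v, hek] at h1 h2
  exact le_antisymm h2 h1

/-- **Nearly invariant measures with the right marginals cluster at a joining.** -/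
theorem exists_joining_of_approx [IsProbabilityMeasure μ] [IsProbabilityMeasure ν]
    (Ls : ℕ → Measure (ℤ → A × B)) (hfst : ∀ n, (Ls n).map fstS = μ)
    (hsnd : ∀ n, (Ls n).map sndS = ν)
    (hinv : ∀ n, ∀ E, MeasurableSet E →
      |(Ls n).real (tr 1 ⁻¹' E) - (Ls n).real E| ≤ 1 / ((n : ℝ) + 1)) :
    ∃ L : Measure (ℤ → A × B), IsJoining μ ν L ∧ ∀ (r : ℕ) (S : Set (Fin (2 * r + 1) → A × B))
      (c : ℝ), (∀ᶠ n in atTop, (Ls n).real (win r ⁻¹' S) ≤ c) → L.real (win r ⁻¹' S) ≤ c := by
  let : TopologicalSpace A := ⊥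
  have : DiscreteTopology A := ⟨rfl⟩
  let : TopologicalSpace B := ⊥
  have : DiscreteTopology B := ⟨rfl⟩
  have hp : ∀ n, IsProbabilityMeasure (Ls n) := fun n => ⟨by
    have := congrArg (fun m : Measure (ℤ → A) => m Set.univ) (hfst n)
    simpa [Measure.map_apply measurable_fstS] using this⟩
  set u : ℕ → ProbabilityMeasure (ℤ → A × B) := fun n => ⟨Ls n, hp n⟩
  obtain ⟨L, hL⟩ := exists_clusterPt_of_compactSpace (map u atTop)
  have hev : ∀ {s : Set (ProbabilityMeasure (ℤ → A × B))}, IsClosed s →
      (∀ᶠ n in atTop, u n ∈ s) → L ∈ s := fun hs h => hs.mem_of_mapClusterPt hL h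
  refine ⟨L, isJoining_iff.2 ⟨fun r w => ?_, fun r w => ?_, fun r w => ?_⟩, fun r S c hc => ?_⟩
  · refine hev (isClosed_eq (continuous_eval ((isClopen_win r _).preimage continuous_fstS))
      continuous_const) (Eventually.of_forall fun n => ?_)
    show (Ls n).real (fstS ⁻¹' (win r ⁻¹' {w})) = _
    rw [← hfst n, map_measureReal_apply measurable_fstS
      (measurable_win r (measurableSet_singleton w))]
  · refine hev (isClosed_eq (continuous_eval ((isClopen_win r _).preimage continuous_sndS))
      continuous_const) (Eventually.of_forall fun n => ?_)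
    show (Ls n).real (sndS ⁻¹' (win r ⁻¹' {w})) = _
    rw [← hsnd n, map_measureReal_apply measurable_sndS
      (measurable_win r (measurableSet_singleton w))]
  · refine eq_of_sub_eq_zero (abs_nonpos_iff.1 ?_)
    refine le_of_forall_pos_le_add fun ε hε => ?_
    obtain ⟨N, hN⟩ := exists_nat_one_div_lt hε
    refine hev (s := {m | |(m : Measure (ℤ → A × B)).real (tr 1 ⁻¹' (win r ⁻¹' {w})) -
        (m : Measure (ℤ → A × B)).real (win r ⁻¹' {w})| ≤ 0 + ε}) (isClosed_le
      ((continuous_eval ((isClopen_win r _).preimage (continuous_tr 1))).sub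
        (continuous_eval (isClopen_win r _))).abs continuous_const)
      ((eventually_ge_atTop N).mono fun n hn => ?_)
    refine (hinv n _ (measurable_win r (measurableSet_singleton w))).trans ?_
    rw [zero_add]
    refine le_trans ?_ hN.le
    gcongr
  · exact hev (isClosed_le (continuous_eval (isClopen_win r S)) continuous_const) hc

end FA.Ornstein

end
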