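import Fermat.Agent.Ornstein.Coupling
import Fermat.Agent.Ornstein.Space

/-!
# Finitely determined processes

A process is finitely determined if every process with nearly its law of finite blocks and nearly
its entropy rate has a joining with it with few disagreements. Gluing couplings of blocks and
averaging over translations gives such joinings; Bernoulli shifts are finitely determined.
-/

set_option autoImplicit false

noncomputable section

open MeasureTheory Filter Topology Real
open FA.ShannonMcMillan (word measurable_word)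
open FA.KolmogorovSinai (shift entropy rate)

namespace FA.Ornstein

/-- A family of couplings of the blocks of two processes. -/
structure Couples {B : Type*} [Fintype B] [MeasurableSpace B] (ρ ν : Measure (ℤ → B))
    (p : ∀ n, (Fin n → B) → (Fin n → B) → ℝ) : Prop where
  nonneg : ∀ n w v, 0 ≤ p n w v
  sum_right : ∀ n w, ∑ v, p n w v = ρ.real (blk n ⁻¹' {w})
  sum_left : ∀ n v, ∑ w, p n w v = ν.real (blk n ⁻¹' {v})

/-- **Finitely determined.** Every process with nearly the law of blocks of some length and nearly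
the entropy rate has a joining in which the letters at `0` seldom differ. -/
def FiniteDet {B : Type*} [Fintype B] [MeasurableSpace B] (ν : Measure (ℤ → B)) : Prop :=
  ∀ ε : ℝ, 0 < ε → ∃ (k : ℕ) (η : ℝ), 0 < η ∧ ∀ ρ : Measure (ℤ → B), IsProbabilityMeasure ρ →
    MeasurePreserving (shift B) ρ ρ →
    (∀ u, |ρ.real (blk k ⁻¹' {u}) - ν.real (blk k ⁻¹' {u})| ≤ η) →
    rate ν (shift B) (fun y => y 0) - η ≤ rate ρ (shift B) (fun y => y 0) →
    ∃ L : Measure (ℤ → B × B), IsJoining ρ ν L ∧ L.real {z | (z 0).1 ≠ (z 0).2} ≤ ε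

variable {A B : Type*} [Fintype A] [MeasurableSpace A] [MeasurableSingletonClass A]
  [Fintype B] [MeasurableSpace B] [MeasurableSingletonClass B]

omit [Fintype A] [MeasurableSingletonClass A] in
/-- The coded process has the rate of its coding. -/
theorem rate_code (μ : Measure (ℤ → A)) [IsProbabilityMeasure μ] {φ : (ℤ → A) → B}
    (hφ : Measurable φ) :
    rate (μ.map (code φ)) (shift B) (fun y => y 0) = rate μ (shift A) φ := by
  have h : MeasurePreserving (code φ) μ (μ.map (code φ)) := ⟨measurable_code hφ, rfl⟩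
  unfold rate
  refine congrArg _ (funext fun n => ?_)
  have e : word (shift A) φ n = word (shift B) (fun y : ℤ → B => y 0) n ∘ code φ := by
    funext x j
    simp [word, iterate_shift, code, tr]
  rw [e, FA.KolmogorovSinai.entropy_map h
    (measurable_word (shift B).measurable (measurable_pi_apply 0) n)]

variable (μ : Measure (ℤ → A)) (φ : (ℤ → A) → B) (ν : Measure (ℤ → B))
  (p : ∀ n, (Fin n → B) → (Fin n → B) → ℝ)

/-- The process, and beside it the other one coupled to it on `0, …, n - 1`. -/
def glue (n : ℕ) : Measure (ℤ → A × B) :=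
  ∑ w : Fin n → B, ∑ v : Fin n → B,
    ENNReal.ofReal (p n w v / (μ.real {x | blk n (code φ x) = w} * ν.real (blk n ⁻¹' {v}))) •
      ((μ.restrict {x | blk n (code φ x) = w}).prod (ν.restrict (blk n ⁻¹' {v}))).map
        fun q => zipS q.1 q.2

omit [Fintype A] [MeasurableSingletonClass A] [MeasurableSingletonClass B] in
theorem glue_apply (n : ℕ) {E : Set (ℤ → A × B)} (hE : MeasurableSet E) :
    glue μ φ ν p n E = ∑ w : Fin n → B, ∑ v : Fin n → B,
      ENNReal.ofReal (p n w v / (μ.real {x | blk n (code φ x) = w} * ν.real (blk n ⁻¹' {v}))) *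
        ((μ.restrict {x | blk n (code φ x) = w}).prod (ν.restrict (blk n ⁻¹' {v})))
          ((fun q : (ℤ → A) × (ℤ → B) => zipS q.1 q.2) ⁻¹' E) := by
  simp only [glue, Measure.coe_finsetSum, Finset.sum_apply, Measure.smul_apply, smul_eq_mul]
  refine Finset.sum_congr rfl fun w _ => Finset.sum_congr rfl fun v _ => ?_
  rw [Measure.map_apply (f := fun q : (ℤ → A) × (ℤ → B) => zipS q.1 q.2)
    (measurable_zipS measurable_fst measurable_snd) hE]

/-- The translates of the glued measure, averaged. -/
def glueAvg (n : ℕ) : Measure (ℤ → A × B) :=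
  ((n + 1 : ℕ) : ENNReal)⁻¹ •
    ∑ j ∈ Finset.range (n + 1), (glue μ φ ν p (n + 1)).map (tr (j : ℤ))

omit [Fintype A] [MeasurableSingletonClass A] [MeasurableSingletonClass B] in
theorem glueAvg_apply (n : ℕ) {E : Set (ℤ → A × B)} (hE : MeasurableSet E) :
    glueAvg μ φ ν p n E = ((n + 1 : ℕ) : ENNReal)⁻¹ *
      ∑ j ∈ Finset.range (n + 1), glue μ φ ν p (n + 1) (tr (j : ℤ) ⁻¹' E) := by
  simp only [glueAvg, Measure.smul_apply, smul_eq_mul, Measure.coe_finsetSum, Finset.sum_apply]
  exact congrArg _ (Finset.sum_congr rfl fun j _ => Measure.map_apply (measurable_tr _) hE)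

variable {μ φ ν p} [IsProbabilityMeasure μ] [IsProbabilityMeasure ν] (hφ : Measurable φ)
  (hp : Couples (μ.map (code φ)) ν p)

include hφ hp

omit [Fintype A] [MeasurableSingletonClass A] [IsProbabilityMeasure μ]
  [IsProbabilityMeasure ν] in
theorem couple_row (n : ℕ) (w : Fin n → B) :
    ∑ v, p n w v = μ.real {x | blk n (code φ x) = w} := by
  rw [hp.sum_right,
    map_measureReal_apply (measurable_code hφ) (measurable_blk n (measurableSet_singleton w))]
  rfl

omit [Fintype A] [MeasurableSingletonClass A] [IsProbabilityMeasure μ]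
  [IsProbabilityMeasure ν] in
theorem couple_zero {n : ℕ} {w v : Fin n → B}
    (h : μ.real {x | blk n (code φ x) = w} * ν.real (blk n ⁻¹' {v}) = 0) : p n w v = 0 := by
  refine le_antisymm ?_ (hp.nonneg n w v)
  rcases mul_eq_zero.1 h with h' | h' <;> rw [← h']
  · rw [← couple_row hφ hp]
    exact Finset.single_le_sum (fun v _ => hp.nonneg n w v) (Finset.mem_univ v)
  · rw [← hp.sum_left]
    exact Finset.single_le_sum (fun w _ => hp.nonneg n w v) (Finset.mem_univ w)

omit [Fintype A] [MeasurableSingletonClass A] in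
theorem ofReal_couple_mul (n : ℕ) (w v : Fin n → B) :
    ENNReal.ofReal (p n w v / (μ.real {x | blk n (code φ x) = w} * ν.real (blk n ⁻¹' {v}))) *
      (μ {x | blk n (code φ x) = w} * ν (blk n ⁻¹' {v})) = ENNReal.ofReal (p n w v) := by
  rw [← ofReal_measureReal (μ := μ), ← ofReal_measureReal (μ := ν),
    ← ENNReal.ofReal_mul measureReal_nonneg,
    ← ENNReal.ofReal_mul (div_nonneg (hp.nonneg n w v)
      (mul_nonneg measureReal_nonneg measureReal_nonneg))]
  exact congrArg _ (div_mul_cancel_of_imp fun h => couple_zero hφ hp h)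

omit [Fintype A] [MeasurableSingletonClass A] in
theorem glue_fst (n : ℕ) : (glue μ φ ν p n).map fstS = μ := by
  ext s hs
  rw [Measure.map_apply measurable_fstS hs, glue_apply μ φ ν p n (measurable_fstS hs)]
  have hWm : ∀ w, MeasurableSet {x | blk n (code φ x) = w} := fun w =>
    (measurable_blk n).comp (measurable_code hφ) (measurableSet_singleton w)
  have e : ∀ (w v : Fin n → B), ENNReal.ofReal (p n w v /
        (μ.real {x | blk n (code φ x) = w} * ν.real (blk n ⁻¹' {v}))) *
      ((μ.restrict {x | blk n (code φ x) = w}).prod (ν.restrict (blk n ⁻¹' {v})))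
        ((fun q : (ℤ → A) × (ℤ → B) => zipS q.1 q.2) ⁻¹' (fstS ⁻¹' s)) =
      ENNReal.ofReal (p n w v / μ.real {x | blk n (code φ x) = w}) *
        μ (s ∩ {x | blk n (code φ x) = w}) := fun w v => by
    rw [show (fun q : (ℤ → A) × (ℤ → B) => zipS q.1 q.2) ⁻¹' (fstS ⁻¹' s) =
      s ×ˢ Set.univ by ext q; simp; rfl, Measure.prod_prod, Measure.restrict_apply hs,
      Measure.restrict_apply_univ, mul_comm (μ _) (ν _), ← mul_assoc,
      ← ofReal_measureReal (μ := ν) (s := blk n ⁻¹' {v}), ← ENNReal.ofReal_mul (div_nonneg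
        (hp.nonneg n w v) (mul_nonneg measureReal_nonneg measureReal_nonneg))]
    congr 2
    rcases eq_or_ne (ν.real (blk n ⁻¹' {v})) 0 with h | h
    · rw [couple_zero hφ hp (mul_eq_zero_of_right _ h)]
      simp
    · rw [← div_div, div_mul_cancel₀ _ h]
  simp only [e, ← Finset.sum_mul]
  have h1 : ∀ w : Fin n → B,
      (∑ v, ENNReal.ofReal (p n w v / μ.real {x | blk n (code φ x) = w})) *
        μ (s ∩ {x | blk n (code φ x) = w}) = μ (s ∩ {x | blk n (code φ x) = w}) := fun w => by
    rw [← ENNReal.ofReal_sum_of_nonneg fun v _ => div_nonneg (hp.nonneg n w v)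
      measureReal_nonneg, ← Finset.sum_div, couple_row hφ hp]
    rcases eq_or_ne (μ.real {x | blk n (code φ x) = w}) 0 with h | h
    · rw [measureReal_eq_zero_iff] at h
      rw [measure_mono_null Set.inter_subset_right h, mul_zero]
    · rw [div_self h, ENNReal.ofReal_one, one_mul]
  simp only [h1]
  rw [← measure_biUnion_finset (s := Finset.univ) (fun w _ w' _ hne => Set.disjoint_left.2
    fun x hx hx' => hne (hx.2.symm.trans hx'.2)) fun w _ => hs.inter (hWm w)]
  congr 1
  ext x
  simp

omit [Fintype A] [MeasurableSingletonClass A] in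
theorem glue_snd (n : ℕ) : (glue μ φ ν p n).map sndS = ν := by
  ext t ht
  rw [Measure.map_apply measurable_sndS ht, glue_apply μ φ ν p n (measurable_sndS ht)]
  have e : ∀ (w v : Fin n → B), ENNReal.ofReal (p n w v /
        (μ.real {x | blk n (code φ x) = w} * ν.real (blk n ⁻¹' {v}))) *
      ((μ.restrict {x | blk n (code φ x) = w}).prod (ν.restrict (blk n ⁻¹' {v})))
        ((fun q : (ℤ → A) × (ℤ → B) => zipS q.1 q.2) ⁻¹' (sndS ⁻¹' t)) =
      ENNReal.ofReal (p n w v / ν.real (blk n ⁻¹' {v})) * ν (t ∩ blk n ⁻¹' {v}) := fun w v => by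
    rw [show (fun q : (ℤ → A) × (ℤ → B) => zipS q.1 q.2) ⁻¹' (sndS ⁻¹' t) =
      Set.univ ×ˢ t by ext q; simp; rfl, Measure.prod_prod, Measure.restrict_apply ht,
      Measure.restrict_apply_univ, ← mul_assoc,
      ← ofReal_measureReal (μ := μ) (s := {x | blk n (code φ x) = w}), ← ENNReal.ofReal_mul
        (div_nonneg (hp.nonneg n w v) (mul_nonneg measureReal_nonneg measureReal_nonneg))]
    congr 2
    rcases eq_or_ne (μ.real {x | blk n (code φ x) = w}) 0 with h | h
    · rw [couple_zero hφ hp (mul_eq_zero_of_left h _)]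
      simp
    · rw [mul_comm (μ.real _) (ν.real _), ← div_div, div_mul_cancel₀ _ h]
  simp only [e]
  rw [Finset.sum_comm]
  have h1 : ∀ v : Fin n → B, ∑ w, ENNReal.ofReal (p n w v / ν.real (blk n ⁻¹' {v})) *
      ν (t ∩ blk n ⁻¹' {v}) = ν (t ∩ blk n ⁻¹' {v}) := fun v => by
    rw [← Finset.sum_mul, ← ENNReal.ofReal_sum_of_nonneg fun w _ => div_nonneg (hp.nonneg n w v)
      measureReal_nonneg, ← Finset.sum_div, hp.sum_left]
    rcases eq_or_ne (ν.real (blk n ⁻¹' {v})) 0 with h | h
    · rw [measureReal_eq_zero_iff] at h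
      rw [measure_mono_null Set.inter_subset_right h, mul_zero]
    · rw [div_self h, ENNReal.ofReal_one, one_mul]
  simp only [h1]
  rw [← measure_biUnion_finset (s := Finset.univ) (fun v _ v' _ hne => Set.disjoint_left.2
    fun y hy hy' => hne (hy.2.symm.trans hy'.2))
    fun v _ => ht.inter (measurable_blk n (measurableSet_singleton v))]
  congr 1
  ext y
  simp

omit [Fintype A] [MeasurableSingletonClass A] in
theorem glue_disagree [DecidableEq B] (n : ℕ) (j : Fin n) :
    (glue μ φ ν p n).real {z | φ (tr ((j : ℕ) : ℤ) (fstS z)) ≠ sndS z ((j : ℕ) : ℤ)} =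
      ∑ w, ∑ v, p n w v * if w j ≠ v j then 1 else 0 := by
  have hm : MeasurableSet {z : ℤ → A × B | φ (tr ((j : ℕ) : ℤ) (fstS z)) ≠
      sndS z ((j : ℕ) : ℤ)} :=
    (measurableSet_eq_fun (hφ.comp ((measurable_tr _).comp measurable_fstS))
      ((measurable_pi_apply _).comp measurable_sndS)).compl
  have hWm : ∀ w, MeasurableSet {x | blk n (code φ x) = w} := fun w =>
    (measurable_blk n).comp (measurable_code hφ) (measurableSet_singleton w)
  have e : ∀ (w v : Fin n → B),
      ((μ.restrict {x | blk n (code φ x) = w}).prod (ν.restrict (blk n ⁻¹' {v})))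
      ((fun q : (ℤ → A) × (ℤ → B) => zipS q.1 q.2) ⁻¹'
        {z | φ (tr ((j : ℕ) : ℤ) (fstS z)) ≠ sndS z ((j : ℕ) : ℤ)}) =
      μ {x | blk n (code φ x) = w} * ν (blk n ⁻¹' {v}) * if w j ≠ v j then 1 else 0 := fun w v => by
    rw [Measure.prod_restrict, Measure.restrict_apply
      ((measurable_zipS measurable_fst measurable_snd) hm)]
    split_ifs with h
    · rw [mul_one, ← Measure.prod_prod]
      congr 1
      refine Set.inter_eq_right.2 fun q hq => ?_
      have h1 : φ (tr ((j : ℕ) : ℤ) q.1) = w j := congrFun hq.1 j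
      have h2 : q.2 ((j : ℕ) : ℤ) = v j := congrFun hq.2 j
      show φ (tr ((j : ℕ) : ℤ) q.1) ≠ q.2 ((j : ℕ) : ℤ)
      rwa [h1, h2]
    · rw [mul_zero, ← measure_empty (μ := μ.prod ν)]
      congr 1
      refine Set.eq_empty_of_forall_notMem fun q hq => hq.1 ?_
      have h1 : φ (tr ((j : ℕ) : ℤ) q.1) = w j := congrFun hq.2.1 j
      have h2 : q.2 ((j : ℕ) : ℤ) = v j := congrFun hq.2.2 j
      show φ (tr ((j : ℕ) : ℤ) q.1) = q.2 ((j : ℕ) : ℤ)
      rw [h1, h2, not_not.1 h]
  rw [measureReal_def, glue_apply μ φ ν p n hm]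
  simp only [e, ← mul_assoc]
  simp only [mul_assoc _ (μ _) (ν _), ofReal_couple_mul hφ hp]
  rw [ENNReal.toReal_sum fun w _ => ?_]
  · refine Finset.sum_congr rfl fun w _ => ?_
    rw [ENNReal.toReal_sum fun v _ => ?_]
    · refine Finset.sum_congr rfl fun v _ => ?_
      split_ifs <;> simp [ENNReal.toReal_ofReal (hp.nonneg n w v)]
    · split_ifs <;> simp
  · exact (ENNReal.sum_lt_top.2 fun v _ => by split_ifs <;> simp).ne

omit [Fintype A] [MeasurableSingletonClass A] in
theorem glueAvg_fst (hμ : MeasurePreserving (shift A) μ μ) (n : ℕ) :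
    (glueAvg μ φ ν p n).map fstS = μ := by
  ext s hs
  rw [Measure.map_apply measurable_fstS hs, glueAvg_apply μ φ ν p n (measurable_fstS hs)]
  have e : ∀ j : ℕ, glue μ φ ν p (n + 1) (tr (j : ℤ) ⁻¹' (fstS ⁻¹' s)) = μ s := fun j => by
    rw [← (mp_tr hμ j).measure_preimage hs.nullMeasurableSet]
    conv_rhs => rw [← glue_fst hφ hp (n + 1),
      Measure.map_apply measurable_fstS (measurable_tr _ hs)]
    rfl
  rw [Finset.sum_congr rfl fun j _ => e j, Finset.sum_const, Finset.card_range, nsmul_eq_mul,
    ← mul_assoc, ENNReal.inv_mul_cancel (by simp) (ENNReal.natCast_ne_top _), one_mul]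

omit [Fintype A] [MeasurableSingletonClass A] in
theorem glueAvg_snd (hν : MeasurePreserving (shift B) ν ν) (n : ℕ) :
    (glueAvg μ φ ν p n).map sndS = ν := by
  ext s hs
  rw [Measure.map_apply measurable_sndS hs, glueAvg_apply μ φ ν p n (measurable_sndS hs)]
  have e : ∀ j : ℕ, glue μ φ ν p (n + 1) (tr (j : ℤ) ⁻¹' (sndS ⁻¹' s)) = ν s := fun j => by
    rw [← (mp_tr hν j).measure_preimage hs.nullMeasurableSet]
    conv_rhs => rw [← glue_snd hφ hp (n + 1),
      Measure.map_apply measurable_sndS (measurable_tr _ hs)]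
    rfl
  rw [Finset.sum_congr rfl fun j _ => e j, Finset.sum_const, Finset.card_range, nsmul_eq_mul,
    ← mul_assoc, ENNReal.inv_mul_cancel (by simp) (ENNReal.natCast_ne_top _), one_mul]

omit [Fintype A] [MeasurableSingletonClass A] in
theorem isProbabilityMeasure_glue (n : ℕ) : IsProbabilityMeasure (glue μ φ ν p n) := by
  refine ⟨?_⟩
  have := congrArg (fun m : Measure (ℤ → A) => m Set.univ) (glue_fst hφ hp n)
  simpa [Measure.map_apply measurable_fstS] using this

omit [Fintype A] [MeasurableSingletonClass A] in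
theorem glueAvg_real (n : ℕ) {E : Set (ℤ → A × B)} (hE : MeasurableSet E) :
    (glueAvg μ φ ν p n).real E =
      (∑ j ∈ Finset.range (n + 1), (glue μ φ ν p (n + 1)).real (tr (j : ℤ) ⁻¹' E)) / (n + 1) := by
  have := isProbabilityMeasure_glue hφ hp (n + 1)
  rw [measureReal_def, glueAvg_apply μ φ ν p n hE, ENNReal.toReal_mul, ENNReal.toReal_inv,
    ENNReal.toReal_sum fun j _ => measure_ne_top _ _, inv_mul_eq_div, ENNReal.toReal_natCast,
    Nat.cast_add, Nat.cast_one]
  rfl

/-- **A process whose blocks are near those of `ν` has a joining with few disagreements.** -/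
theorem exists_joining_cost [DecidableEq B] (hμ : MeasurePreserving (shift A) μ μ)
    (hν : MeasurePreserving (shift B) ν ν) {c K : ℝ}
    (hc : ∀ n, ∑ w, ∑ v, p n w v * disagree w v ≤ (n : ℝ) * c + K) :
    ∃ L : Measure (ℤ → A × B), IsJoining μ ν L ∧
      L.real {z | φ (fstS z) ≠ (z 0).2} ≤ c := by
  have hfst := glueAvg_fst hφ hp hμ
  obtain ⟨L, hL, hle⟩ := exists_joining_of_approx (glueAvg μ φ ν p) hfst (glueAvg_snd hφ hp hν)
    fun n E hE => by
      have := isProbabilityMeasure_glue hφ hp (n + 1)
      rw [glueAvg_real hφ hp n (measurable_tr 1 hE), glueAvg_real hφ hp n hE, div_sub_div_same,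
        abs_div, abs_of_pos (by positivity : (0 : ℝ) < n + 1), ← Finset.sum_sub_distrib]
      refine div_le_div_of_nonneg_right ?_ (by positivity)
      have e : ∀ j : ℕ, tr (j : ℤ) ⁻¹' (tr 1 ⁻¹' E) = tr ((j + 1 : ℕ) : ℤ) ⁻¹' E := fun j => by
        ext z
        simp [tr_tr, add_comm]
      simp only [e]
      rw [Finset.sum_range_sub fun j : ℕ => (glue μ φ ν p (n + 1)).real (tr (j : ℤ) ⁻¹' E)]
      exact abs_sub_le_of_nonneg_of_le measureReal_nonneg measureReal_le_one measureReal_nonneg
        measureReal_le_one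
  have := hL.isProb
  refine ⟨L, hL, ?_⟩
  set D : Set (ℤ → A × B) := {z | φ (fstS z) ≠ (z 0).2}
  have hD : MeasurableSet D :=
    (measurableSet_eq_fun (hφ.comp measurable_fstS) (measurable_pi_apply 0).snd).compl
  refine le_of_forall_pos_le_add fun ε hε => ?_
  obtain ⟨r, f, hf⟩ := exists_win_approx μ hφ (show 0 < ε / 4 by positivity)
  set S : Set (Fin (2 * r + 1) → A × B) :=
    {u | f (fun j => (u j).1) ≠ (u ⟨r, by omega⟩).2} with hS
  have hE : win r ⁻¹' S = {z | f (win r (fstS z)) ≠ (z 0).2} := by
    ext z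
    simp [hS, win]
    rfl
  set bad : Set (ℤ → A) := {x | φ x ≠ f (win r x)}
  have hbad : MeasurableSet bad :=
    (measurableSet_eq_fun hφ ((measurable_of_finite f).comp (measurable_win r))).compl
  have hb : ∀ m : Measure (ℤ → A × B), m.map fstS = μ →
      m.real (fstS ⁻¹' bad) = μ.real bad := fun m hm => by
    rw [← hm, map_measureReal_apply measurable_fstS hbad]
  have hK : ∀ᶠ n : ℕ in atTop, K / ((n : ℝ) + 1) ≤ ε / 4 := by
    have h := (tendsto_const_nhds (x := K)).div_atTop
      (tendsto_atTop_add_const_right atTop (1 : ℝ) tendsto_natCast_atTop_atTop)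
    exact h.eventually_le_const (by positivity)
  have h1 : ∀ᶠ n in atTop, (glueAvg μ φ ν p n).real (win r ⁻¹' S) ≤ c + ε / 2 := by
    filter_upwards [hK] with n hn
    have hpn : IsProbabilityMeasure (glueAvg μ φ ν p n) := ⟨by
      have := congrArg (fun m : Measure (ℤ → A) => m Set.univ) (hfst n)
      simpa [Measure.map_apply measurable_fstS] using this⟩
    refine le_trans ((measureReal_mono (s₂ := D ∪ fstS ⁻¹' bad) fun z hz => ?_).trans
      (measureReal_union_le _ _)) ?_
    · by_cases h : φ (fstS z) = f (win r (fstS z))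
      · rw [hE] at hz
        exact Or.inl fun h' => hz (h ▸ h')
      · exact Or.inr h
    · have h2 : (glueAvg μ φ ν p n).real D ≤ c + K / ((n : ℝ) + 1) := by
        rw [glueAvg_real hφ hp n hD, div_le_iff₀ (by positivity), add_mul,
          div_mul_cancel₀ _ (by positivity)]
        refine le_trans (le_of_eq ?_) ((hc (n + 1)).trans_eq (by push_cast; ring))
        rw [← Fin.sum_univ_eq_sum_range
          (fun j : ℕ => (glue μ φ ν p (n + 1)).real (tr (j : ℤ) ⁻¹' D))]
        have e : ∀ j : Fin (n + 1), tr ((j : ℕ) : ℤ) ⁻¹' D =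
            {z | φ (tr ((j : ℕ) : ℤ) (fstS z)) ≠ sndS z ((j : ℕ) : ℤ)} := fun j => by
          ext z
          simp [D, fstS_tr, sndS, tr]
        simp only [e, glue_disagree hφ hp, disagree, Finset.mul_sum]
        rw [Finset.sum_comm]
        exact Finset.sum_congr rfl fun w _ => Finset.sum_comm
      linarith [(hb _ (hfst n)).le, show μ.real bad < ε / 4 from hf]
  refine le_trans ((measureReal_mono (s₂ := win r ⁻¹' S ∪ fstS ⁻¹' bad) fun z hz => ?_).trans
    (measureReal_union_le _ _)) ?_
  · by_cases h : φ (fstS z) = f (win r (fstS z))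
    · rw [hE]
      exact Or.inl fun h' => hz (h.trans h')
    · exact Or.inr h
  · linarith [hle r S _ h1, (hb L hL.fst).le, show μ.real bad < ε / 4 from hf]

end FA.Ornstein

namespace FA.Ornstein

variable {A B : Type*} [Fintype A] [MeasurableSpace A] [MeasurableSingletonClass A]
  [Fintype B] [MeasurableSpace B] [MeasurableSingletonClass B]

/-- **A finitely determined process attracts codes**: a coded process with nearly the blocks and
nearly the rate gives a joining in which the code seldom misses. -/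
theorem FiniteDet.exists_joining {ν : Measure (ℤ → B)} [IsProbabilityMeasure ν]
    (hν : MeasurePreserving (shift B) ν ν) (h : FiniteDet ν) {ε : ℝ} (hε : 0 < ε) :
    ∃ (k : ℕ) (η : ℝ), 0 < η ∧ ∀ (μ : Measure (ℤ → A)), IsProbabilityMeasure μ →
      MeasurePreserving (shift A) μ μ → ∀ φ : (ℤ → A) → B, Measurable φ →
      (∀ u, |μ.real (code φ ⁻¹' (blk k ⁻¹' {u})) - ν.real (blk k ⁻¹' {u})| ≤ η) →
      rate ν (shift B) (fun y => y 0) - η ≤ rate μ (shift A) φ →
      ∃ L : Measure (ℤ → A × B), IsJoining μ ν L ∧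
        L.real {z | φ (fstS z) ≠ (z 0).2} ≤ ε := by
  classical
  obtain ⟨k, η, hη, h⟩ := h ε hε
  refine ⟨k, η, hη, fun μ _ hμ φ hφ hk hr => ?_⟩
  have hρ : IsProbabilityMeasure (μ.map (code φ)) :=
    Measure.isProbabilityMeasure_map (measurable_code hφ).aemeasurable
  obtain ⟨L, hL, hD⟩ := h _ hρ (mp_map hμ (measurable_code hφ) (code_tr φ 1)) (fun u => by
    rw [map_measureReal_apply (measurable_code hφ) (measurable_blk k (measurableSet_singleton u))]
    exact hk u) (by rwa [rate_code μ hφ])
  have := hL.isProb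
  have hp : Couples (μ.map (code φ)) ν
      fun n w v => L.real (blk n ⁻¹' {fun j => (w j, v j)}) := {
    nonneg := fun _ _ _ => measureReal_nonneg
    sum_right := fun n w => by
      rw [← Finset.sum_image (g := fun v => fun j => (w j, v j))
        (f := fun u => L.real (blk n ⁻¹' {u}))
        (fun v _ v' _ h => funext fun j => congrArg Prod.snd (congrFun h j)),
        sum_measureReal_preimage_singleton _
          fun v _ => measurable_blk n (measurableSet_singleton v),
        ← hL.real_fst (measurable_blk n (measurableSet_singleton w))]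
      congr 1
      ext z
      simp only [Finset.coe_image, Finset.coe_univ, Set.image_univ, Set.mem_preimage, Set.mem_range,
        Set.mem_singleton_iff]
      refine ⟨fun ⟨v, hv⟩ => funext fun j => (congrArg Prod.fst (congrFun hv j)).symm, fun h =>
        ⟨blk n (sndS z), funext fun j => ?_⟩⟩
      rw [← h]
      rfl
    sum_left := fun n v => by
      rw [← Finset.sum_image (g := fun w => fun j => (w j, v j))
        (f := fun u => L.real (blk n ⁻¹' {u}))
        (fun w _ w' _ h => funext fun j => congrArg Prod.fst (congrFun h j)),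
        sum_measureReal_preimage_singleton _
          fun w _ => measurable_blk n (measurableSet_singleton w),
        ← hL.real_snd (measurable_blk n (measurableSet_singleton v))]
      congr 1
      ext z
      simp only [Finset.coe_image, Finset.coe_univ, Set.image_univ, Set.mem_preimage, Set.mem_range,
        Set.mem_singleton_iff]
      refine ⟨fun ⟨w, hw⟩ => funext fun j => (congrArg Prod.snd (congrFun hw j)).symm, fun h =>
        ⟨blk n (fstS z), funext fun j => ?_⟩⟩
      rw [← h]
      rfl }
  refine exists_joining_cost hφ hp hμ hν (c := ε) (K := 0) fun n => ?_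
  have hDm : MeasurableSet {z : ℤ → B × B | (z 0).1 ≠ (z 0).2} :=
    (measurableSet_eq_fun (measurable_pi_apply 0).fst (measurable_pi_apply 0).snd).compl
  have e : ∀ j : Fin n, ∑ w : Fin n → B, ∑ v : Fin n → B, L.real (blk n ⁻¹' {fun i => (w i, v i)}) *
      (if w j ≠ v j then 1 else 0) = L.real {z | (z 0).1 ≠ (z 0).2} := fun j => by
    rw [measureReal_def, ← (mp_tr hL.mp ((j : ℕ) : ℤ)).measure_preimage hDm.nullMeasurableSet,
      ← measureReal_def, show tr ((j : ℕ) : ℤ) ⁻¹' {z : ℤ → B × B | (z 0).1 ≠ (z 0).2} =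
        blk n ⁻¹' ↑(Finset.univ.filter fun u : Fin n → B × B => (u j).1 ≠ (u j).2) by
      ext z; simp [blk, tr], ← sum_measureReal_preimage_singleton _
        fun u _ => measurable_blk n (measurableSet_singleton u), Finset.sum_filter,
      ← (Equiv.arrowProdEquivProdArrow (Fin n) (fun _ => B) fun _ => B).symm.sum_comp,
      Fintype.sum_prod_type]
    refine Finset.sum_congr rfl fun w _ => Finset.sum_congr rfl fun v _ => ?_
    by_cases h : w j = v j <;> simp [Equiv.arrowProdEquivProdArrow, h]
  rw [add_zero]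
  calc ∑ w, ∑ v, L.real (blk n ⁻¹' {fun i => (w i, v i)}) * disagree w v
      = ∑ j : Fin n, ∑ w : Fin n → B, ∑ v : Fin n → B, L.real (blk n ⁻¹' {fun i => (w i, v i)}) *
          (if w j ≠ v j then 1 else 0) := by
        simp only [disagree, Finset.mul_sum]
        rw [Finset.sum_comm (s := (Finset.univ : Finset (Fin n)))]
        exact Finset.sum_congr rfl fun w _ => Finset.sum_comm
    _ ≤ n * ε := by
        simp only [e, Finset.sum_const, Finset.card_univ, Fintype.card_fin, nsmul_eq_mul]
        exact mul_le_mul_of_nonneg_left hD n.cast_nonneg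

/-- **Closeness in the law of one letter and in entropy rate suffices for Bernoulli shifts.** -/
theorem exists_eta (q : Measure B) [IsProbabilityMeasure q] {ε : ℝ} (hε : 0 < ε) :
    ∃ η > 0, ∀ ρ : Measure (ℤ → B), IsProbabilityMeasure ρ →
      MeasurePreserving (shift B) ρ ρ → (∀ b, |ρ.real {x | x 0 = b} - q.real {b}| ≤ η) →
      ∑ b, negMulLog (q.real {b}) - η ≤ rate ρ (shift B) (fun x => x 0) →
      ∃ L : Measure (ℤ → B × B), IsJoining ρ (bern q) L ∧
        L.real {z | (z 0).1 ≠ (z 0).2} ≤ ε := by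
  classical
  have : Nonempty B := nonempty_of_isProbabilityMeasure q
  set K : ℝ := (Fintype.card B : ℝ)
  have hK : 0 < K := Nat.cast_pos.2 Fintype.card_pos
  set s := ε / (3 * K)
  have hs : 0 < s := by positivity
  have hG : Continuous fun m : B → ℝ => ∑ b, negMulLog (m b) := by fun_prop
  obtain ⟨δ, hδ, hδ'⟩ := Metric.continuous_iff.1 hG (fun b => q.real {b}) (s * ε / 6)
    (by positivity)
  refine ⟨min (δ / 2) (min (ε / (3 * K)) (s * ε / 6)), by positivity,
    fun ρ _ hρ hm hr => ?_⟩
  have hp : Couples (ρ.map (code fun y : ℤ → B => y 0)) (bern q) (cpl ρ q) := by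
    rw [show code (fun y : ℤ → B => y 0) = id by funext y i; simp [code, tr], Measure.map_id]
    exact ⟨cpl_nonneg ρ q, cpl_sum_right ρ q,
      fun n v => (cpl_sum_left ρ q n v).trans (bern_blk q n v).symm⟩
  obtain ⟨L, hL, hD⟩ := exists_joining_cost (measurable_pi_apply (0 : ℤ)) hp hρ (mp_bern q)
    (c := ε) (K := 0) fun n => by
      rw [add_zero]
      refine (cpl_cost_le ρ q hρ n hs).trans (mul_le_mul_of_nonneg_left ?_ n.cast_nonneg)
      have h1 : ∑ b, |ρ.real {x | x 0 = b} - q.real {b}| ≤ ε / 3 := by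
        refine (Finset.sum_le_sum fun b _ => (hm b).trans
          ((min_le_right _ _).trans (min_le_left _ _))).trans (le_of_eq ?_)
        rw [Finset.sum_const, Finset.card_univ, nsmul_eq_mul]
        show K * _ = _
        field_simp
      have h2 : K * s = ε / 3 := by
        simp only [s]
        field_simp
      have h3 : (∑ b, negMulLog (ρ.real {x | x 0 = b}) - rate ρ (shift B) fun x => x 0) / s ≤
          ε / 3 := by
        rw [div_le_iff₀ hs]
        have h4 := hδ' (fun b => ρ.real {x | x 0 = b}) ((dist_pi_lt_iff hδ).2 fun b => by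
          rw [Real.dist_eq]
          linarith [hm b, min_le_left (δ / 2) (min (ε / (3 * K)) (s * ε / 6))])
        rw [Real.dist_eq] at h4
        linarith [le_abs_self (∑ b, negMulLog (ρ.real {x | x 0 = b}) -
            ∑ b, negMulLog (q.real {b})),
          min_le_right (δ / 2) (min (ε / (3 * K)) (s * ε / 6)),
          min_le_right (ε / (3 * K)) (s * ε / 6)]
      linarith
  exact ⟨L, hL, hD⟩

/-- **Bernoulli shifts are finitely determined.** -/
theorem finiteDet_bern (q : Measure B) [IsProbabilityMeasure q] : FiniteDet (bern q) := by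
  intro ε hε
  obtain ⟨η, hη, h⟩ := exists_eta q hε
  refine ⟨1, η, hη, fun ρ hρ hinv hm hr => h ρ hρ hinv (fun b => ?_) (by rwa [rate_bern] at hr)⟩
  have h1 := hm fun _ => b
  have e : (blk 1 ⁻¹' {fun _ => b} : Set (ℤ → B)) = {x | x 0 = b} := by
    ext x
    simp [blk, funext_iff]
  rwa [bern_blk, Fin.prod_univ_one, e] at h1

end FA.Ornstein

end
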