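import Fermat.Agent.Ornstein.CopyMain
import Fermat.Agent.Ornstein.Joining
import Mathlib.Topology.Baire.LocallyCompactRegular
import Mathlib.Topology.Baire.Lemmas
import Mathlib.Analysis.SpecificLimits.Basic

/-!
# Factors and isomorphisms

In the closure of the ergodic joinings those in which one side is nearly a code of the other form a
dense set, for every degree of nearness, which is relatively open. By Baire's theorem some joining
is exactly a code, and for equal entropies a code in both directions.
-/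

set_option autoImplicit false

noncomputable section

open MeasureTheory Filter Topology Real
open FA.ShannonMcMillan (word measurable_word)
open FA.KolmogorovSinai (shift entropy rate)

namespace FA.Ornstein

variable {A B : Type*} [Fintype A] [MeasurableSpace A] [MeasurableSingletonClass A]
  [Fintype B] [MeasurableSpace B] [MeasurableSingletonClass B]

/-- The windows in which `f` of the first side misses the second. -/
def missW {r : ℕ} (f : (Fin (2 * r + 1) → A) → B) : Set (Fin (2 * r + 1) → A × B) :=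
  {u | f (fun j => (u j).1) ≠ (u ⟨r, by omega⟩).2}

omit [Fintype A] [MeasurableSpace A] [MeasurableSingletonClass A] [Fintype B] [MeasurableSpace B]
  [MeasurableSingletonClass B] in
theorem win_missW {r : ℕ} (f : (Fin (2 * r + 1) → A) → B) :
    win r ⁻¹' missW f = {z | f (win r (fstS z)) ≠ (z 0).2} := by
  ext z
  simp [missW, win]
  rfl

/-- The joinings in which the second side is within `ε` of a code of the first. -/
def Near (ε : ℝ) (L : Measure (ℤ → A × B)) : Prop :=
  ∃ (r : ℕ) (f : (Fin (2 * r + 1) → A) → B), L.real (win r ⁻¹' missW f) < ε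

theorem isOpen_near [TopologicalSpace A] [DiscreteTopology A] [TopologicalSpace B]
    [DiscreteTopology B] (ε : ℝ) :
    IsOpen {L : ProbabilityMeasure (ℤ → A × B) | Near ε (L : Measure (ℤ → A × B))} := by
  have e : {L : ProbabilityMeasure (ℤ → A × B) | Near ε (L : Measure (ℤ → A × B))} =
      ⋃ r, ⋃ f : (Fin (2 * r + 1) → A) → B, {L : ProbabilityMeasure (ℤ → A × B) |
        (L : Measure (ℤ → A × B)).real (win r ⁻¹' missW f) < ε} := by
    ext L
    simp [Near]
  rw [e]
  exact isOpen_iUnion fun r => isOpen_iUnion fun f =>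
    isOpen_lt (continuous_eval (isClopen_win r _)) continuous_const

theorem isOpen_near_swap [TopologicalSpace A] [DiscreteTopology A] [TopologicalSpace B]
    [DiscreteTopology B] (ε : ℝ) :
    IsOpen {L : ProbabilityMeasure (ℤ → A × B) |
      Near ε ((L : Measure (ℤ → A × B)).map swapS)} := by
  have e : {L : ProbabilityMeasure (ℤ → A × B) |
      Near ε ((L : Measure (ℤ → A × B)).map swapS)} =
      ⋃ r, ⋃ f : (Fin (2 * r + 1) → B) → A, {L : ProbabilityMeasure (ℤ → A × B) |
        (L : Measure (ℤ → A × B)).real (swapS ⁻¹' (win r ⁻¹' missW f)) < ε} := by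
    ext L
    simp [Near, map_measureReal_apply measurable_swapS
      (measurable_win _ (Set.toFinite _).measurableSet)]
  rw [e]
  exact isOpen_iUnion fun r => isOpen_iUnion fun f =>
    isOpen_lt (continuous_eval ((isClopen_win r _).preimage continuous_swapS)) continuous_const

/-- **The density step**: near every ergodic joining is an ergodic joining that is nearly a code. -/
theorem exists_near {μ : Measure (ℤ → A)} [IsProbabilityMeasure μ] (hμ : Ergodic (shift A) μ)
    {ν : Measure (ℤ → B)} [IsProbabilityMeasure ν] (hν : Ergodic (shift B) ν) (hν' : FiniteDet ν)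
    (hpos : 0 < rate μ (shift A) fun x => x 0)
    (hle : rate ν (shift B) (fun y => y 0) ≤ rate μ (shift A) fun x => x 0)
    {L : Measure (ℤ → A × B)} (hL : IsJoining μ ν L) (hLe : Ergodic (shift (A × B)) L)
    {ε : ℝ} (hε : 0 < ε) (k : ℕ) {τ : ℝ} (hτ : 0 < τ) :
    ∃ L' : Measure (ℤ → A × B), IsJoining μ ν L' ∧ Ergodic (shift (A × B)) L' ∧
      Near ε L' ∧ ∀ T : Set (Fin (2 * k + 1) → A × B),
        |L'.real (win k ⁻¹' T) - L.real (win k ⁻¹' T)| ≤ τ := by
  classical
  set m := 2 * k + 1
  have hm : 0 < m := Nat.succ_pos _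
  set ε₁ := min (ε / 3) (τ / (6 * m))
  have hε₁ : 0 < ε₁ := by positivity
  obtain ⟨k₀, η₀, hη₀, hfd⟩ := hν'.exists_joining (A := A) hν.toMeasurePreserving hε₁
  -- the copy matches blocks long enough for both purposes
  set M := max m k₀
  have hmM : m ≤ M := le_max_left _ _
  set N : ℝ := (Fintype.card (Fin M → A × B) : ℝ) + 1
  have hN : 1 ≤ N := le_add_of_nonneg_left (Nat.cast_nonneg _)
  set η := min η₀ (τ / 2) / N
  have hη : 0 < η := by positivity
  obtain ⟨φ, hφ, hblk, hrate⟩ := exists_copy hμ hν hL hLe hpos hle hη (hm.trans_le hmM)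
  have := hL.isProb
  have hTM : ∀ T : Set (Fin M → A × B),
      |μ.real (graphS φ ⁻¹' (blk M ⁻¹' T)) - L.real (blk M ⁻¹' T)| ≤ min η₀ (τ / 2) := by
    intro T
    rw [show T = ↑T.toFinset from (Set.coe_toFinset T).symm,
      ← sum_measureReal_preimage_singleton _
        fun u _ => measurable_blk M (measurableSet_singleton u),
      ← Set.preimage_comp, ← sum_measureReal_preimage_singleton (f := blk M ∘ graphS φ) _
        fun u _ => (measurable_blk M).comp (measurable_graphS hφ) (measurableSet_singleton u),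
      ← Finset.sum_sub_distrib]
    refine (Finset.abs_sum_le_sum_abs _ _).trans ((Finset.sum_le_sum fun u _ =>
      show _ ≤ η from hblk u).trans ?_)
    rw [Finset.sum_const, nsmul_eq_mul]
    refine (mul_le_mul_of_nonneg_right ?_ hη.le).trans_eq (mul_div_cancel₀ _ (by positivity))
    exact le_add_of_le_of_nonneg (Nat.cast_le.2 (Finset.card_le_univ _)) zero_le_one
  have hT : ∀ T : Set (Fin m → A × B),
      |μ.real (graphS φ ⁻¹' (blk m ⁻¹' T)) - L.real (blk m ⁻¹' T)| ≤ min η₀ (τ / 2) :=
    fun T => hTM ((fun (u : Fin M → A × B) (j : Fin m) => u (j.castLE hmM)) ⁻¹' T)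
  have hone : ∀ u : Fin k₀ → B,
      |μ.real (code φ ⁻¹' (blk k₀ ⁻¹' {u})) - ν.real (blk k₀ ⁻¹' {u})| ≤ η₀ := fun u => by
    have h1 := (hTM ((fun (p : Fin M → A × B) (j : Fin k₀) => (p (j.castLE (le_max_right _ _))).2)
      ⁻¹' {u})).trans (min_le_left _ _)
    rw [← hL.real_snd (measurable_blk k₀ (measurableSet_singleton u))]
    exact h1
  obtain ⟨L₁, hL₁, hD⟩ := hfd μ inferInstance hμ.toMeasurePreserving φ hφ hone (by
    linarith [div_le_self (le_min hη₀.le (by positivity : (0 : ℝ) ≤ τ / 2)) hN,
      min_le_left η₀ (τ / 2)])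
  obtain ⟨r, f, hf⟩ := exists_win_approx μ hφ hε₁
  set bad : Set (ℤ → A) := {x | φ x ≠ f (win r x)}
  have hbad : MeasurableSet bad :=
    (measurableSet_eq_fun hφ ((measurable_of_finite f).comp (measurable_win r))).compl
  set D : Set (ℤ → A × B) := {z | φ (fstS z) ≠ (z 0).2}
  have hsub1 : win r ⁻¹' missW f ⊆ D ∪ fstS ⁻¹' bad := fun z hz => by
    rw [win_missW] at hz
    by_cases h : φ (fstS z) = f (win r (fstS z))
    · exact Or.inl fun h' => hz (h ▸ h')
    · exact Or.inr h
  have hsub2 : D ⊆ win r ⁻¹' missW f ∪ fstS ⁻¹' bad := fun z hz => by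
    rw [win_missW]
    by_cases h : φ (fstS z) = f (win r (fstS z))
    · exact Or.inl fun h' => hz (h.trans h')
    · exact Or.inr h
  have := hL₁.isProb
  have h₁ : L₁.real (win r ⁻¹' missW f) ≤ ε₁ + ε₁ :=
    (measureReal_mono hsub1).trans ((measureReal_union_le _ _).trans
      (add_le_add hD ((hL₁.real_fst hbad).trans_le hf.le)))
  obtain ⟨L₂, hL₂, hL₂e, hle₂⟩ :=
    exists_ergodic_joining hμ hν hL₁ r (missW f)
  have := hL₂.isProb
  refine ⟨L₂, hL₂, hL₂e, ⟨r, f, ?_⟩, fun T => ?_⟩
  · linarith [min_le_left (ε / 3) (τ / (6 * m))]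
  have hD₂ : L₂.real D ≤ 3 * ε₁ := by
    refine (measureReal_mono hsub2).trans ((measureReal_union_le _ _).trans ?_)
    linarith [(hL₂.real_fst hbad).trans_le hf.le]
  have hDm : MeasurableSet D :=
    (measurableSet_eq_fun (hφ.comp measurable_fstS) (measurable_pi_apply 0).snd).compl
  set T' : Set (ℤ → A × B) := blk m ⁻¹' T
  have hT'm : MeasurableSet T' := measurable_blk m T.toFinite.measurableSet
  have hgr : MeasurableSet ((fun z : ℤ → A × B => graphS φ (fstS z)) ⁻¹' T') :=
    (measurable_graphS hφ).comp measurable_fstS hT'm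
  have h2 : |L₂.real T' - μ.real (graphS φ ⁻¹' T')| ≤ τ / 2 := by
    rw [← hL₂.real_fst (measurable_graphS hφ hT'm)]
    refine (abs_measureReal_sub_le_measureReal_symmDiff hT'm.nullMeasurableSet
      hgr.nullMeasurableSet).trans ?_
    refine (measureReal_mono (s₂ := ⋃ j : Fin m, tr ((j : ℕ) : ℤ) ⁻¹' D) fun z hz => ?_).trans
      ((measureReal_iUnion_fintype_le _).trans ?_)
    · by_contra hc
      simp only [Set.mem_iUnion, Set.mem_preimage, not_exists, D, Set.mem_ofPred_eq, not_not] at hc
      have e : blk m (graphS φ (fstS z)) = blk m z := funext fun j => by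
        have := hc j
        simp only [fstS_tr, tr, zero_add] at this
        exact Prod.ext rfl this
      simp [Set.mem_symmDiff, T', e] at hz
    · have e : ∀ j : Fin m, L₂.real (tr ((j : ℕ) : ℤ) ⁻¹' D) = L₂.real D := fun j => by
        rw [measureReal_def, (mp_tr hL₂.mp _).measure_preimage hDm.nullMeasurableSet,
          measureReal_def]
      simp only [e, Finset.sum_const, Finset.card_univ, Fintype.card_fin, nsmul_eq_mul]
      have h6 : (m : ℝ) * (τ / (6 * m)) = τ / 6 := by field_simp
      nlinarith [mul_le_mul_of_nonneg_left hD₂ m.cast_nonneg,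
        mul_le_mul_of_nonneg_left (min_le_right (ε / 3) (τ / (6 * m))) m.cast_nonneg]
  have hwin : ∀ M : Measure (ℤ → A × B), MeasurePreserving (shift (A × B)) M M →
      M.real (win k ⁻¹' T) = M.real T' := fun M hM => by
    have e : (win k ⁻¹' T : Set (ℤ → A × B)) = tr (-(k : ℤ)) ⁻¹' T' := by
      ext z
      simp [T', m, win_eq_blk]
    rw [e, measureReal_def, (mp_tr hM _).measure_preimage hT'm.nullMeasurableSet, measureReal_def]
  rw [hwin _ hL₂.mp, hwin _ hL.mp]
  have h3 : |μ.real (graphS φ ⁻¹' T') - L.real T'| ≤ τ / 2 := (hT T).trans (min_le_right _ _)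
  linarith [abs_sub_le (L₂.real T') (μ.real (graphS φ ⁻¹' T')) (L.real T')]

/-- Approximation on every window puts a joining in the closure. -/
theorem mem_closure_of_windows [TopologicalSpace A] [DiscreteTopology A] [TopologicalSpace B]
    [DiscreteTopology B] {s : Set (ProbabilityMeasure (ℤ → A × B))}
    {L : ProbabilityMeasure (ℤ → A × B)}
    (h : ∀ (k : ℕ) (τ : ℝ), 0 < τ → ∃ M ∈ s, ∀ T : Set (Fin (2 * k + 1) → A × B),
      |(M : Measure (ℤ → A × B)).real (win k ⁻¹' T) -
        (L : Measure (ℤ → A × B)).real (win k ⁻¹' T)| ≤ τ) : L ∈ closure s := by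
  have h' : ∀ k : ℕ, ∃ M ∈ s, ∀ T : Set (Fin (2 * k + 1) → A × B),
      |(M : Measure (ℤ → A × B)).real (win k ⁻¹' T) -
        (L : Measure (ℤ → A × B)).real (win k ⁻¹' T)| ≤ 1 / ((k : ℝ) + 1) :=
    fun k => h k _ (by positivity)
  choose M hMs hMT using h'
  obtain ⟨M', hM'⟩ := exists_clusterPt_of_compactSpace (map M atTop)
  have hmem : M' ∈ closure s :=
    isClosed_closure.mem_of_mapClusterPt hM' (Eventually.of_forall fun k => subset_closure (hMs k))
  suffices M' = L by rwa [← this]
  refine ProbabilityMeasure.toMeasure_injective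
    (ext_of_win fun r w => eq_of_sub_eq_zero (abs_nonpos_iff.1 ?_))
  refine le_of_forall_pos_le_add fun τ hτ => ?_
  obtain ⟨N, hN⟩ := exists_nat_one_div_lt hτ
  refine IsClosed.mem_of_mapClusterPt (s := {P : ProbabilityMeasure (ℤ → A × B) |
    |(P : Measure (ℤ → A × B)).real (win r ⁻¹' {w}) -
      (L : Measure (ℤ → A × B)).real (win r ⁻¹' {w})| ≤ 0 + τ}) (isClosed_le
    ((continuous_eval (isClopen_win r _)).sub continuous_const).abs continuous_const) hM'
    ((eventually_ge_atTop (max r N)).mono fun k hk => ?_)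
  obtain ⟨T, hT⟩ := exists_win_lift (le_trans (le_max_left r N) hk) {w}
  show _ ≤ (0 : ℝ) + τ
  rw [← hT, zero_add]
  refine (hMT k T).trans (le_trans ?_ hN.le)
  gcongr
  exact le_trans (le_max_right r N) hk

/-- A joining arbitrarily near a code is a code. -/
theorem exists_code {μ : Measure (ℤ → A)} [IsProbabilityMeasure μ] {ν : Measure (ℤ → B)}
    {L : Measure (ℤ → A × B)} (hL : IsJoining μ ν L) (h : ∀ j : ℕ, Near ((1 / 2 : ℝ) ^ j) L) :
    ∃ φ : (ℤ → A) → B, Measurable φ ∧ ∀ᵐ z ∂L, sndS z = code φ (fstS z) := by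
  classical
  have := hL.isProb
  have : Nonempty B := by
    obtain ⟨z⟩ := nonempty_of_isProbabilityMeasure L
    exact ⟨(z 0).2⟩
  choose r f hf using h
  let G : B → Set (ℤ → A) := fun b => ⋃ N : ℕ, ⋂ j ∈ Set.Ici N, {x | f j (win (r j) x) = b}
  have hG : ∀ b, MeasurableSet (G b) := fun b => .iUnion fun N =>
    .biInter (Set.to_countable _) fun j _ =>
      measurableSet_eq_fun ((measurable_of_finite (f j)).comp (measurable_win _)) measurable_const
  let φ : (ℤ → A) → B := fun x =>
    if h : ∃ b, decide (x ∈ G b) = true then h.choose else Classical.arbitrary B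
  have hφ : Measurable φ := by
    refine (measurable_of_finite fun s : B → Bool =>
      if h : ∃ b, s b = true then h.choose else Classical.arbitrary B).comp
      (measurable_pi_iff.2 fun b => measurable_to_bool ?_)
    have e : (fun x : ℤ → A => decide (x ∈ G b)) ⁻¹' {true} = G b := by
      ext x
      simp
    rw [e]
    exact hG b
  have huniq : ∀ x b b', x ∈ G b → x ∈ G b' → b = b' := fun x b b' hb hb' => by
    simp only [G, Set.mem_iUnion, Set.mem_iInter, Set.mem_Ici, Set.mem_ofPred_eq] at hb hb'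
    obtain ⟨N, hN⟩ := hb
    obtain ⟨N', hN'⟩ := hb'
    exact (hN (max N N') (le_max_left _ _)).symm.trans (hN' (max N N') (le_max_right _ _))
  have hsum : (∑' j, L (win (r j) ⁻¹' missW (f j))) ≠ ⊤ := by
    refine ne_top_of_le_ne_top ENNReal.ofReal_ne_top ((ENNReal.tsum_le_tsum fun j => ?_).trans_eq
      (ENNReal.ofReal_tsum_of_nonneg (f := fun j : ℕ => (1 / 2 : ℝ) ^ j) (fun j => by positivity)
        summable_geometric_two).symm)
    rw [← ofReal_measureReal (μ := L)]
    exact ENNReal.ofReal_le_ofReal (hf j).le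
  have h0 : ∀ᵐ z ∂L, φ (fstS z) = (z 0).2 := by
    filter_upwards [ae_eventually_notMem hsum] with z hz
    obtain ⟨N, hN⟩ := eventually_atTop.1 hz
    have hmem : fstS z ∈ G (z 0).2 := Set.mem_iUnion.2 ⟨N, Set.mem_iInter₂.2 fun j hj => by
      have := hN j hj
      simp only [win_missW, Set.mem_ofPred_eq, not_not] at this
      exact this⟩
    have hex : ∃ b, decide (fstS z ∈ G b) = true := ⟨_, decide_eq_true hmem⟩
    simp only [φ, dif_pos hex]
    exact huniq _ _ _ (of_decide_eq_true hex.choose_spec) hmem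
  refine ⟨φ, hφ, ?_⟩
  filter_upwards [ae_all_iff.2 fun i : ℤ =>
    (mp_tr hL.mp i).quasiMeasurePreserving.ae h0] with z hz
  funext i
  have h1 := hz i
  simp only [fstS_tr, tr, zero_add] at h1
  exact h1.symm

omit [Fintype A] [MeasurableSingletonClass A] [Fintype B] [MeasurableSingletonClass B] in
/-- A joining on a graph makes the code a factor map. -/
theorem map_code_eq {μ : Measure (ℤ → A)} {ν : Measure (ℤ → B)} {L : Measure (ℤ → A × B)}
    (hL : IsJoining μ ν L) {φ : (ℤ → A) → B} (hφ : Measurable φ)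
    (h : ∀ᵐ z ∂L, sndS z = code φ (fstS z)) : μ.map (code φ) = ν := by
  rw [← hL.fst, ← hL.snd, Measure.map_map (measurable_code hφ) measurable_fstS]
  exact Measure.map_congr (h.mono fun z hz => hz.symm)

/-- Zero entropy forces a point mass. -/
theorem exists_dirac {q : Measure B} [IsProbabilityMeasure q]
    (h : ∑ b, negMulLog (q.real {b}) ≤ 0) : ∃ b, q = Measure.dirac b := by
  classical
  have h0 : ∀ b, q.real {b} = 0 ∨ q.real {b} = 1 := fun b => by
    have hb := (Finset.sum_eq_zero_iff_of_nonneg fun b _ => negMulLog_nonneg measureReal_nonneg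
      measureReal_le_one).1 (le_antisymm h (Finset.sum_nonneg fun b _ =>
        negMulLog_nonneg measureReal_nonneg measureReal_le_one)) b (Finset.mem_univ b)
    rw [negMulLog] at hb
    rcases mul_eq_zero.1 hb with h' | h'
    · exact Or.inl (neg_eq_zero.1 h')
    · rcases log_eq_zero.1 h' with h'' | h'' | h''
      · exact Or.inl h''
      · exact Or.inr h''
      · linarith [measureReal_nonneg (μ := q) (s := {b})]
  have h1 : ∑ b, q.real {b} = 1 := by simp
  obtain ⟨b, -, hb⟩ := Finset.exists_ne_zero_of_sum_ne_zero (h1.trans_ne one_ne_zero)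
  have hb1 := (h0 b).resolve_left hb
  refine ⟨b, Measure.ext_of_singleton fun c => ?_⟩
  rw [← measureReal_eq_measureReal_iff]
  by_cases hc : c = b
  · subst hc
    simp [hb1, measureReal_def]
  · have h2 := Finset.add_sum_erase Finset.univ (fun b => q.real {b}) (Finset.mem_univ b)
    have h3 := Finset.single_le_sum (f := fun b => q.real {b}) (fun _ _ => measureReal_nonneg)
      (Finset.mem_erase.2 ⟨hc, Finset.mem_univ c⟩)
    rw [hb1, h1] at h2
    rw [show q.real {c} = 0 by linarith [measureReal_nonneg (μ := q) (s := {c})]]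
    simp [measureReal_def, Ne.symm hc]

omit [Fintype B] [MeasurableSingletonClass B] in
theorem bern_dirac (b : B) : bern (Measure.dirac b) = Measure.dirac (fun _ : ℤ => b) :=
  Measure.infinitePi_dirac _

omit [Fintype A] [MeasurableSingletonClass A] [Fintype B] [MeasurableSingletonClass B] in
theorem map_code_const (μ : Measure (ℤ → A)) [IsProbabilityMeasure μ] (b : B) :
    μ.map (code fun _ => b) = bern (Measure.dirac b) := by
  rw [bern_dirac, show code (fun _ : ℤ → A => b) = fun _ => (fun _ : ℤ => b) from rfl,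
    Measure.map_const, measure_univ, one_smul]

/-- **A finitely determined process is a factor** of every ergodic process of positive and no
smaller entropy. -/
theorem exists_factor_finiteDet (μ : Measure (ℤ → A)) [IsProbabilityMeasure μ]
    (hμ : Ergodic (shift A) μ) (ν : Measure (ℤ → B)) [IsProbabilityMeasure ν]
    (hν : Ergodic (shift B) ν) (hν' : FiniteDet ν) (hpos : 0 < rate μ (shift A) fun x => x 0)
    (hle : rate ν (shift B) (fun y => y 0) ≤ rate μ (shift A) fun x => x 0) :
    ∃ φ : (ℤ → A) → B, Measurable φ ∧ μ.map (code φ) = ν := by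
  let : TopologicalSpace A := ⊥
  have : DiscreteTopology A := ⟨rfl⟩
  let : TopologicalSpace B := ⊥
  have : DiscreteTopology B := ⟨rfl⟩
  set E : Set (ProbabilityMeasure (ℤ → A × B)) :=
    {L | IsJoining μ ν (L : Measure (ℤ → A × B)) ∧
      Ergodic (shift (A × B)) (L : Measure (ℤ → A × B))}
  have hne : (closure E).Nonempty := by
    obtain ⟨L₀, hL₀⟩ := exists_joining hμ.toMeasurePreserving hν.toMeasurePreserving
    obtain ⟨L₁, hL₁, hL₁e, -⟩ := exists_ergodic_joining hμ hν hL₀ 0 ∅
    exact ⟨⟨L₁, hL₁.isProb⟩, subset_closure ⟨hL₁, hL₁e⟩⟩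
  have : CompactSpace (closure E) := isCompact_iff_compactSpace.1 isClosed_closure.isCompact
  have : Nonempty (closure E) := hne.to_subtype
  set U : ℕ → Set (closure E) := fun j =>
    {L | Near ((1 / 2 : ℝ) ^ j) ((L : ProbabilityMeasure (ℤ → A × B)) : Measure (ℤ → A × B))}
  have hd : ∀ j, Dense (U j) := fun j => by
    refine Subtype.dense_iff.2 (closure_minimal (fun L hL => ?_) isClosed_closure)
    refine mem_closure_of_windows fun k τ hτ => ?_
    obtain ⟨L', hL', hL'e, hnear, hT⟩ :=
      exists_near hμ hν hν' hpos hle hL.1 hL.2 (pow_pos one_half_pos j) k hτ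
    let P : ProbabilityMeasure (ℤ → A × B) := ⟨L', hL'.isProb⟩
    have hP : P ∈ E := ⟨hL', hL'e⟩
    exact ⟨P, ⟨⟨P, subset_closure hP⟩, hnear, rfl⟩, hT⟩
  obtain ⟨L, hL⟩ := (dense_iInter_of_isOpen_nat
    (fun j => (isOpen_near _).preimage continuous_subtype_val) hd).nonempty
  rw [Set.mem_iInter] at hL
  have hJ : IsJoining μ ν ((L : ProbabilityMeasure (ℤ → A × B)) : Measure (ℤ → A × B)) :=
    closure_minimal (fun L hL => hL.1) isClosed_joinings L.2
  obtain ⟨φ, hφ, h⟩ := exists_code hJ hL
  exact ⟨φ, hφ, map_code_eq hJ hφ h⟩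

/-- **The factor theorem of Sinai**, by a code. -/
theorem exists_factor_code (μ : Measure (ℤ → A)) [IsProbabilityMeasure μ]
    (hμ : Ergodic (shift A) μ) (q : Measure B) [IsProbabilityMeasure q]
    (hle : ∑ b, negMulLog (q.real {b}) ≤ rate μ (shift A) fun x => x 0) :
    ∃ φ : (ℤ → A) → B, Measurable φ ∧ μ.map (code φ) = bern q := by
  rcases le_or_gt (rate μ (shift A) fun x => x 0) 0 with h0 | hpos
  · obtain ⟨b, rfl⟩ := exists_dirac (hle.trans h0)
    exact ⟨fun _ => b, measurable_const, map_code_const μ b⟩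
  exact exists_factor_finiteDet μ hμ (bern q) (ergodic_bern q) (finiteDet_bern q) hpos
    (by rwa [rate_bern])

/-- **Finitely determined processes of equal entropy are isomorphic**, by codes. -/
theorem exists_iso_finiteDet {μ : Measure (ℤ → A)} [IsProbabilityMeasure μ]
    (hμ : Ergodic (shift A) μ) (hμ' : FiniteDet μ) {ν : Measure (ℤ → B)} [IsProbabilityMeasure ν]
    (hν : Ergodic (shift B) ν) (hν' : FiniteDet ν) (hpos : 0 < rate μ (shift A) fun x => x 0)
    (h : rate μ (shift A) (fun x => x 0) = rate ν (shift B) fun y => y 0) :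
    ∃ (φ : (ℤ → A) → B) (ψ : (ℤ → B) → A), Measurable φ ∧ Measurable ψ ∧
      μ.map (code φ) = ν ∧ ν.map (code ψ) = μ ∧
      (∀ᵐ x ∂μ, code ψ (code φ x) = x) ∧ ∀ᵐ y ∂ν, code φ (code ψ y) = y := by
  have hpos'' : 0 < rate ν (shift B) fun y => y 0 := h ▸ hpos
  let : TopologicalSpace A := ⊥
  have : DiscreteTopology A := ⟨rfl⟩
  let : TopologicalSpace B := ⊥
  have : DiscreteTopology B := ⟨rfl⟩
  set E : Set (ProbabilityMeasure (ℤ → A × B)) :=
    {L | IsJoining μ ν (L : Measure (ℤ → A × B)) ∧
      Ergodic (shift (A × B)) (L : Measure (ℤ → A × B))}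
  have hne : (closure E).Nonempty := by
    obtain ⟨L₀, hL₀⟩ := exists_joining hμ.toMeasurePreserving hν.toMeasurePreserving
    obtain ⟨L₁, hL₁, hL₁e, -⟩ := exists_ergodic_joining hμ hν hL₀ 0 ∅
    exact ⟨⟨L₁, hL₁.isProb⟩, subset_closure ⟨hL₁, hL₁e⟩⟩
  have : CompactSpace (closure E) := isCompact_iff_compactSpace.1 isClosed_closure.isCompact
  have : Nonempty (closure E) := hne.to_subtype
  set U : ℕ ⊕ ℕ → Set (closure E) := Sum.elim
    (fun j => {L | Near ((1 / 2 : ℝ) ^ j)
      ((L : ProbabilityMeasure (ℤ → A × B)) : Measure (ℤ → A × B))})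
    (fun j => {L | Near ((1 / 2 : ℝ) ^ j)
      (((L : ProbabilityMeasure (ℤ → A × B)) : Measure (ℤ → A × B)).map swapS)})
  have ho : ∀ i, IsOpen (U i) := by
    rintro (j | j)
    · exact (isOpen_near _).preimage continuous_subtype_val
    · exact (isOpen_near_swap _).preimage continuous_subtype_val
  have hd : ∀ i, Dense (U i) := by
    rintro (j | j) <;>
      refine Subtype.dense_iff.2 (closure_minimal (fun L hL => ?_) isClosed_closure) <;>
      refine mem_closure_of_windows fun k τ hτ => ?_
    · obtain ⟨L', hL', hL'e, hnear, hT⟩ :=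
        exists_near hμ hν hν' hpos h.ge hL.1 hL.2 (pow_pos one_half_pos j) k hτ
      let P : ProbabilityMeasure (ℤ → A × B) := ⟨L', hL'.isProb⟩
      have hP : P ∈ E := ⟨hL', hL'e⟩
      exact ⟨P, ⟨⟨P, subset_closure hP⟩, hnear, rfl⟩, hT⟩
    · obtain ⟨L', hL', hL'e, hnear, hT⟩ := exists_near hν hμ hμ' hpos'' h.le hL.1.swap
        (ergodic_map hL.2 measurable_swapS fun _ => rfl) (pow_pos one_half_pos j) k hτ
      have hback : (L'.map swapS).map swapS = L' := by
        rw [Measure.map_map measurable_swapS measurable_swapS]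
        exact Measure.map_id
      have hsw : ∀ T : Set (Fin (2 * k + 1) → A × B), ∃ T' : Set (Fin (2 * k + 1) → B × A),
          swapS ⁻¹' (win k ⁻¹' T) = win k ⁻¹' T' :=
        fun T => ⟨(fun u j => ((u j).2, (u j).1)) ⁻¹' T, rfl⟩
      let P : ProbabilityMeasure (ℤ → A × B) := ⟨L'.map swapS, hL'.swap.isProb⟩
      have hP : P ∈ E := ⟨hL'.swap, ergodic_map hL'e measurable_swapS fun _ => rfl⟩
      refine ⟨P, ⟨⟨P, subset_closure hP⟩, ?_, rfl⟩, fun T => ?_⟩
      · show Near _ ((L'.map swapS).map swapS)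
        rw [hback]
        exact hnear
      · obtain ⟨T', hT'⟩ := hsw T
        have e1 : (L'.map swapS).real (win k ⁻¹' T) = L'.real (win k ⁻¹' T') := by
          rw [map_measureReal_apply measurable_swapS (measurable_win k T.toFinite.measurableSet),
            hT']
        have e2 : ((L : Measure (ℤ → A × B)).map swapS).real (win k ⁻¹' T') =
            (L : Measure (ℤ → A × B)).real (win k ⁻¹' T) := by
          rw [map_measureReal_apply measurable_swapS (measurable_win k T'.toFinite.measurableSet),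
            ← hT']
          rfl
        show |(L'.map swapS).real (win k ⁻¹' T) - _| ≤ τ
        rw [e1, ← e2]
        exact hT T'
  obtain ⟨L, hL⟩ := (dense_iInter_of_isOpen ho hd).nonempty
  rw [Set.mem_iInter] at hL
  set M := ((L : ProbabilityMeasure (ℤ → A × B)) : Measure (ℤ → A × B))
  have hJ : IsJoining μ ν M :=
    closure_minimal (fun L hL => hL.1) isClosed_joinings L.2
  obtain ⟨φ, hφ, hf⟩ := exists_code hJ fun j => hL (Sum.inl j)
  obtain ⟨ψ, hψ, hg⟩ := exists_code hJ.swap fun j => hL (Sum.inr j)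
  refine ⟨φ, ψ, hφ, hψ, map_code_eq hJ hφ hf, map_code_eq hJ.swap hψ hg, ?_, ?_⟩
  · have hm : MeasurableSet {x : ℤ → A | code ψ (code φ x) = x} :=
      measurableSet_eq_fun ((measurable_code hψ).comp (measurable_code hφ)) measurable_id
    rw [← hJ.fst, ae_map_iff measurable_fstS.aemeasurable hm]
    filter_upwards [hf, ae_of_ae_map measurable_swapS.aemeasurable hg] with z hz hz'
    rw [← hz]
    exact hz'.symm
  · have hm : MeasurableSet {y : ℤ → B | code φ (code ψ y) = y} :=
      measurableSet_eq_fun ((measurable_code hφ).comp (measurable_code hψ)) measurable_id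
    rw [← hJ.snd, ae_map_iff measurable_sndS.aemeasurable hm]
    filter_upwards [hf, ae_of_ae_map measurable_swapS.aemeasurable hg] with z hz hz'
    show code φ (code ψ (sndS z)) = sndS z
    rw [show code ψ (sndS z) = fstS z from hz'.symm]
    exact hz.symm

/-- **The isomorphism theorem of Ornstein**, by codes. -/
theorem exists_iso_codes (p : Measure A) [IsProbabilityMeasure p] (q : Measure B)
    [IsProbabilityMeasure q]
    (h : ∑ a, negMulLog (p.real {a}) = ∑ b, negMulLog (q.real {b})) :
    ∃ (φ : (ℤ → A) → B) (ψ : (ℤ → B) → A), Measurable φ ∧ Measurable ψ ∧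
      (bern p).map (code φ) = bern q ∧ (bern q).map (code ψ) = bern p ∧
      (∀ᵐ x ∂bern p, code ψ (code φ x) = x) ∧ ∀ᵐ y ∂bern q, code φ (code ψ y) = y := by
  rcases le_or_gt (∑ a, negMulLog (p.real {a})) 0 with h0 | hpos
  · obtain ⟨a, rfl⟩ := exists_dirac h0
    obtain ⟨b, rfl⟩ := exists_dirac (h ▸ h0)
    have hm : MeasurableSet {x : ℤ → A | code (fun _ => a) (code (fun _ => b) x) = x} :=
      measurableSet_eq_fun ((measurable_code measurable_const).comp
        (measurable_code measurable_const)) measurable_id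
    have hm' : MeasurableSet {y : ℤ → B | code (fun _ => b) (code (fun _ => a) y) = y} :=
      measurableSet_eq_fun ((measurable_code measurable_const).comp
        (measurable_code measurable_const)) measurable_id
    refine ⟨fun _ => b, fun _ => a, measurable_const, measurable_const, map_code_const _ b,
      map_code_const _ a, ?_, ?_⟩
    · rw [bern_dirac, ae_dirac_iff hm]
      rfl
    · rw [bern_dirac, ae_dirac_iff hm']
      rfl
  exact exists_iso_finiteDet (ergodic_bern p) (finiteDet_bern p) (ergodic_bern q) (finiteDet_bern q)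
    (by rwa [rate_bern]) (by rw [rate_bern, rate_bern, h])

end FA.Ornstein

end
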