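import Fermat.Agent.Ornstein.Joining
import Fermat.Agent.MarkovShift.Blocks
import Mathlib.Probability.ConditionalProbability

/-!
# A lift of a process through a code

Given a process near an image of `μ` under a code, letters of `μ` are put above each block of
length `n` by the conditional law under `μ`, independently, and the phase is averaged. The lift
projects to the process, has nearly the short blocks of the code, and has at least the entropy
rate of the process plus the conditional entropy of a block per letter.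
-/

set_option autoImplicit false

noncomputable section

open MeasureTheory ProbabilityTheory Filter Topology Real
open FA.KolmogorovSinai (shift entropy rate)

namespace FA.Ornstein

section Lemmas

variable {α β γ : Type*} {mα : MeasurableSpace α} [Fintype β] [Fintype γ]

/-- A sum over the values of a coarser function. -/
theorem sum_mul_comp [MeasurableSpace β] [MeasurableSingletonClass β] {X : α → β}
    (hX : Measurable X) (h : β → γ) (g : γ → ℝ) (m : Measure α) [IsFiniteMeasure m] :
    ∑ b, m.real (X ⁻¹' {b}) * g (h b) = ∑ c, m.real ((h ∘ X) ⁻¹' {c}) * g c := by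
  classical
  rw [← Finset.sum_fiberwise Finset.univ h]
  refine Finset.sum_congr rfl fun c _ => ?_
  rw [Finset.sum_congr rfl fun b hb => by rw [(Finset.mem_filter.1 hb).2], ← Finset.sum_mul,
    sum_measureReal_preimage_singleton _ fun b _ => hX (measurableSet_singleton b)]
  congr 2
  ext x
  simp

omit [Fintype γ] in
/-- The entropy of a product of laws. -/
theorem sum_negMulLog_prod : ∀ (m : ℕ) (q : Fin m → β → ℝ), (∀ i, ∑ b, q i b = 1) → ∀ c : ℝ,
    ∑ u : Fin m → β, negMulLog (c * ∏ i, q i (u i)) =
      negMulLog c + c * ∑ i, ∑ b, negMulLog (q i b)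
  | 0, q, _, c => by simp
  | m + 1, q, hq, c => by
    have h1 : ∑ u : Fin m → β, ∏ i, q i.castSucc (u i) = 1 := by
      rw [← Fintype.prod_sum fun (i : Fin m) b => q i.castSucc b]
      simp [hq]
    rw [← (Fin.snocEquiv fun _ => β).sum_comp, Fintype.sum_prod_type_right]
    simp only [Fin.snocEquiv, Equiv.coe_fn_mk, Fin.prod_univ_castSucc, Fin.snoc_castSucc,
      Fin.snoc_last, ← mul_assoc, negMulLog_mul (c * _), Finset.sum_add_distrib, ← Finset.sum_mul,
      ← Finset.mul_sum, hq, one_mul,
      sum_negMulLog_prod m (fun i => q i.castSucc) (fun i => hq _) c, h1]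
    rw [Fin.sum_univ_castSucc]
    ring

/-- Relabelling does not change the entropy. -/
theorem entropy_equiv (e : β ≃ γ) (X : α → β) (m : Measure α) :
    entropy m (e ∘ X) = entropy m X := by
  refine (e.sum_comp fun c => negMulLog (m.real ((e ∘ X) ⁻¹' {c}))).symm.trans
    (Finset.sum_congr rfl fun b _ => congrArg (fun s => negMulLog (m.real s)) ?_)
  ext x
  simp

omit [Fintype γ] in
/-- **Entropy is concave.** -/
theorem avg_entropy_le (X : α → β) (m : Measure α) {n : ℕ} (hn : n ≠ 0) (ms : ℕ → Measure α)
    (h : ∀ b, m.real (X ⁻¹' {b}) = (∑ j ∈ Finset.range n, (ms j).real (X ⁻¹' {b})) / n) :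
    (∑ j ∈ Finset.range n, entropy (ms j) X) / n ≤ entropy m X := by
  unfold entropy
  rw [Finset.sum_comm, Finset.sum_div]
  refine Finset.sum_le_sum fun b _ => ?_
  rw [h b, Finset.sum_div, Finset.sum_div]
  have hn' : (n : ℝ) ≠ 0 := Nat.cast_ne_zero.2 hn
  refine le_trans (le_of_eq ?_) ((concaveOn_negMulLog.le_map_sum (t := Finset.range n)
    (w := fun _ => ((n : ℝ))⁻¹) (p := fun j => (ms j).real (X ⁻¹' {b})) (fun j _ => by positivity)
    (by simp [hn']) fun j _ => measureReal_nonneg).trans (le_of_eq ?_))
  · simp [div_eq_inv_mul]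
  · simp [div_eq_inv_mul]

omit [Fintype γ] in
/-- **A rare event carries little entropy.** -/
theorem exists_entropy_small [MeasurableSpace β] [MeasurableSingletonClass β] (b₀ : β) {ε : ℝ}
    (hε : 0 < ε) : ∃ δ > 0, ∀ m : Measure α, IsProbabilityMeasure m → ∀ D : α → β, Measurable D →
      m.real {x | D x ≠ b₀} ≤ δ → entropy m D ≤ ε := by
  classical
  set K : ℝ := (Fintype.card β : ℝ) with hK
  have hK0 : (0 : ℝ) < K := Nat.cast_pos.2 (Fintype.card_pos_iff.2 ⟨b₀⟩)
  obtain ⟨d, hd, h0⟩ := Metric.continuousAt_iff.1 (continuous_negMulLog.continuousAt (x := 0))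
    (ε / K) (by positivity)
  obtain ⟨d', hd', h1⟩ := Metric.continuousAt_iff.1 (continuous_negMulLog.continuousAt (x := 1))
    (ε / K) (by positivity)
  refine ⟨min d d' / 2, by positivity, fun m _ D hD hm => ?_⟩
  have hle : ∀ b, negMulLog (m.real (D ⁻¹' {b})) ≤ ε / K := fun b => by
    rcases eq_or_ne b b₀ with rfl | hb
    · have e : m.real (D ⁻¹' {b}) = 1 - m.real {x | D x ≠ b} := by
        rw [← compl_compl (D ⁻¹' {b}),
          probReal_compl_eq_one_sub (hD (measurableSet_singleton b)).compl]
        rfl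
      have := h1 (x := m.real (D ⁻¹' {b})) (by
        rw [Real.dist_eq, e, abs_lt]
        constructor <;> linarith [min_le_right d d', measureReal_nonneg (μ := m)
          (s := {x | D x ≠ b})])
      rw [Real.dist_eq, negMulLog_one, sub_zero] at this
      exact (le_abs_self _).trans this.le
    · have e : m.real (D ⁻¹' {b}) ≤ m.real {x | D x ≠ b₀} :=
        measureReal_mono fun x (hx : D x = b) => show D x ≠ b₀ by rwa [hx]
      have := h0 (x := m.real (D ⁻¹' {b})) (by
        rw [Real.dist_eq, sub_zero, abs_of_nonneg measureReal_nonneg]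
        linarith [min_le_left d d'])
      rw [Real.dist_eq, negMulLog_zero, sub_zero] at this
      exact (le_abs_self _).trans this.le
  refine (Finset.sum_le_sum fun b _ => hle b).trans_eq ?_
  rw [Finset.sum_const, Finset.card_univ, nsmul_eq_mul, ← hK, mul_div_cancel₀ _ hK0.ne']

end Lemmas

variable {A B C : Type*} [MeasurableSpace A] [MeasurableSpace B] [MeasurableSpace C]

/-- `m` consecutive blocks of length `n`. -/
def bk (m n : ℕ) (z : ℤ → B) : Fin m → Fin n → B := fun i j => z ((n * i + j : ℕ) : ℤ)

theorem measurable_bk (m n : ℕ) : Measurable (bk m n : (ℤ → B) → Fin m → Fin n → B) :=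
  measurable_pi_iff.2 fun _ => measurable_pi_iff.2 fun _ => measurable_pi_apply _

omit [MeasurableSpace B] in
theorem bk_one_preimage {n : ℕ} (z : Fin n → B) : bk 1 n ⁻¹' {fun _ => z} = blk n ⁻¹' {z} := by
  ext x
  simp [bk, blk, funext_iff]

theorem entropy_bk [Fintype B] (m n : ℕ) (ρ : Measure (ℤ → B)) :
    entropy ρ (bk m n) = entropy ρ (blk (m * n)) := by
  rw [← entropy_equiv ((Equiv.arrowCongr finProdFinEquiv.symm (Equiv.refl B)).trans
    (Equiv.curry (Fin m) (Fin n) B)) (blk (m * n)) ρ]
  congr 1
  funext z i j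
  simp [bk, blk, Equiv.curry, finProdFinEquiv, add_comm]

/-- The law of a block of a Bernoulli process is a product. -/
theorem map_blk_bern [Fintype B] [MeasurableSingletonClass B] (q : Measure B)
    [IsProbabilityMeasure q] (n : ℕ) : (bern q).map (blk n) = Measure.pi fun _ => q := by
  refine Measure.ext_of_singleton fun w => ?_
  rw [Measure.pi_singleton, Measure.map_apply (measurable_blk n) (measurableSet_singleton w),
    ← ofReal_measureReal (measure_ne_top (bern q) _), bern_blk,
    ENNReal.ofReal_prod_of_nonneg fun j _ => measureReal_nonneg]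
  exact Finset.prod_congr rfl fun j _ => ofReal_measureReal (measure_ne_top _ _)

variable (μ : Measure (ℤ → A)) [IsProbabilityMeasure μ] (φ : (ℤ → A) → C) (ρ : Measure (ℤ → C))
  [IsProbabilityMeasure ρ] (n : ℕ) [NeZero n]

/-- The points with a given coded block. -/
def evC (v : Fin n → C) : Set (ℤ → A) := {x | blk n (code φ x) = v}

open Classical in
/-- The law of a block given the coded block. -/
def condBlk (v : Fin n → C) : Measure (Fin n → A) :=
  if μ (evC φ n v) = 0 then μ.map (blk n) else (μ[|evC φ n v]).map (blk n)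

instance isProbabilityMeasure_condBlk (v : Fin n → C) :
    IsProbabilityMeasure (condBlk μ φ n v) := by
  unfold condBlk
  split_ifs with h
  · exact Measure.isProbabilityMeasure_map (measurable_blk n).aemeasurable
  · have := cond_isProbabilityMeasure (μ := μ) h
    exact Measure.isProbabilityMeasure_map (measurable_blk n).aemeasurable

/-- An independent choice above every block. -/
def kern [Fintype C] : Measure ((Fin n → C) → Fin n → A) := Measure.pi (condBlk μ φ n)

/-- The chosen letters above the blocks that start at multiples of `n`. -/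
def fillW (z : (ℤ → C) × (ℤ → (Fin n → C) → Fin n → A)) : ℤ → A × C := fun i =>
  (z.2 (i / (n : ℤ)) (blk n (tr ((n : ℤ) * (i / (n : ℤ))) z.1)) ⟨(i % (n : ℤ)).toNat, by
    have := NeZero.pos n
    have := Int.emod_lt_of_pos i (show (0 : ℤ) < n by omega)
    omega⟩, z.1 i)

variable [Fintype C] [MeasurableSingletonClass C]

instance : IsProbabilityMeasure (kern μ φ n) := by
  unfold kern
  infer_instance

/-- The lift with blocks at fixed places. -/
def lift0 : Measure (ℤ → A × C) := (ρ.prod (bern (kern μ φ n))).map (fillW n)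

/-- The lift with the phase averaged. -/
def lift : Measure (ℤ → A × C) :=
  (n : ENNReal)⁻¹ • ∑ j ∈ Finset.range n, (lift0 μ φ ρ n).map (tr (j : ℤ))

variable [Fintype A] [MeasurableSingletonClass A]

omit [IsProbabilityMeasure μ] [IsProbabilityMeasure ρ] in
theorem measurable_fillW :
    Measurable (fillW n : (ℤ → C) × (ℤ → (Fin n → C) → Fin n → A) → ℤ → A × C) := by
  refine measurable_pi_iff.2 fun i => Measurable.prodMk ?_ ((measurable_pi_apply i).comp
    measurable_fst)
  exact (measurable_pi_apply _).comp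
    ((measurable_of_finite fun p : (Fin n → C) × ((Fin n → C) → Fin n → A) => p.2 p.1).comp
      (((measurable_blk n).comp ((measurable_tr _).comp measurable_fst)).prodMk
        ((measurable_pi_apply _).comp measurable_snd)))

omit [MeasurableSingletonClass A] [Fintype A] [IsProbabilityMeasure μ] [IsProbabilityMeasure ρ]
  [MeasurableSpace A] [MeasurableSpace C] [Fintype C] [MeasurableSingletonClass C] in
theorem fillW_tr (y : ℤ → C) (ω : ℤ → (Fin n → C) → Fin n → A) :
    fillW n (tr (n : ℤ) y, tr 1 ω) = tr (n : ℤ) (fillW n (y, ω)) := by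
  have hn : (n : ℤ) ≠ 0 := Nat.cast_ne_zero.2 (NeZero.ne n)
  funext i
  have e1 : (i + (n : ℤ)) / (n : ℤ) = i / (n : ℤ) + 1 := by
    have := Int.add_mul_ediv_right i 1 hn
    rwa [one_mul] at this
  have e2 : (i + (n : ℤ)) % (n : ℤ) = i % (n : ℤ) := by simp
  simp only [fillW, tr, e1, e2, Prod.mk.injEq, and_true]
  congr 1
  congr 1
  funext j
  simp only [tr]
  ring_nf

instance : IsProbabilityMeasure (lift0 μ φ ρ n) :=
  Measure.isProbabilityMeasure_map (measurable_fillW n).aemeasurable

theorem mp_lift0 (hρ : MeasurePreserving (shift C) ρ ρ) :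
    MeasurePreserving (tr (n : ℤ)) (lift0 μ φ ρ n) (lift0 μ φ ρ n) := by
  refine ⟨measurable_tr _, ?_⟩
  have hq : MeasurePreserving (tr 1) (bern (kern μ φ n)) (bern (kern μ φ n)) :=
    mp_tr (mp_bern _) 1
  rw [lift0, Measure.map_map (measurable_tr _) (measurable_fillW n)]
  conv_rhs => rw [← ((mp_tr hρ (n : ℤ)).prod hq).map_eq, Measure.map_map (measurable_fillW n)
    ((measurable_tr _).prodMap (measurable_tr _))]
  congr 1
  funext z
  exact (fillW_tr n z.1 z.2).symm

omit [IsProbabilityMeasure ρ] in
theorem lift0_sndS : (lift0 μ φ ρ n).map sndS = ρ := by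
  rw [lift0, Measure.map_map measurable_sndS (measurable_fillW n)]
  exact measurePreserving_fst.map_eq

theorem lift_real {E : Set (ℤ → A × C)} (hE : MeasurableSet E) :
    (lift μ φ ρ n).real E =
      (∑ j ∈ Finset.range n, (lift0 μ φ ρ n).real (tr (j : ℤ) ⁻¹' E)) / n := by
  rw [measureReal_def, lift, Measure.smul_apply, smul_eq_mul, Measure.coe_finsetSum,
    Finset.sum_apply, ENNReal.toReal_mul, ENNReal.toReal_inv,
    ENNReal.toReal_sum fun j _ => measure_ne_top _ _, inv_mul_eq_div, ENNReal.toReal_natCast]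
  exact congrArg (· / (n : ℝ))
    (Finset.sum_congr rfl fun j _ =>
      by rw [measureReal_def, Measure.map_apply (measurable_tr _) hE])

omit [IsProbabilityMeasure ρ] in
theorem lift_sndS (hρ : MeasurePreserving (shift C) ρ ρ) : (lift μ φ ρ n).map sndS = ρ := by
  ext s hs
  rw [Measure.map_apply measurable_sndS hs, lift, Measure.smul_apply, smul_eq_mul,
    Measure.coe_finsetSum, Finset.sum_apply]
  have e : ∀ j : ℕ, (lift0 μ φ ρ n).map (tr (j : ℤ)) (sndS ⁻¹' s) = ρ s := fun j => by
    rw [Measure.map_apply (measurable_tr _) (measurable_sndS hs),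
      ← (mp_tr hρ j).measure_preimage hs.nullMeasurableSet]
    conv_rhs => rw [← lift0_sndS μ φ ρ n, Measure.map_apply measurable_sndS (measurable_tr _ hs)]
    rfl
  rw [Finset.sum_congr rfl fun j _ => e j, Finset.sum_const, Finset.card_range, nsmul_eq_mul,
    ← mul_assoc, ENNReal.inv_mul_cancel (by simp [NeZero.ne n]) (ENNReal.natCast_ne_top _), one_mul]

instance : IsProbabilityMeasure (lift μ φ ρ n) := ⟨by
  simp [lift, Measure.map_apply (measurable_tr _) MeasurableSet.univ,
    ENNReal.inv_mul_cancel (show (n : ENNReal) ≠ 0 by simp [NeZero.ne n])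
      (ENNReal.natCast_ne_top _)]⟩

theorem mp_lift (hρ : MeasurePreserving (shift C) ρ ρ) :
    MeasurePreserving (shift (A × C)) (lift μ φ ρ n) (lift μ φ ρ n) := by
  refine ⟨(shift _).measurable, ?_⟩
  have e : ∀ j : ℕ, ((lift0 μ φ ρ n).map (tr (j : ℤ))).map (shift (A × C)) =
      (lift0 μ φ ρ n).map (tr ((j + 1 : ℕ) : ℤ)) := fun j => by
    rw [Measure.map_map (shift _).measurable (measurable_tr _)]
    congr 1
    funext z
    simp [shift_apply, tr_tr, add_comm]
  have hsum : ∀ m : ℕ → Measure (ℤ → A × C), (∑ j ∈ Finset.range n, m j).map (shift (A × C)) =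
      ∑ j ∈ Finset.range n, (m j).map (shift (A × C)) := fun m => by
    ext s hs
    simp [Measure.map_apply (shift (A × C)).measurable hs]
  rw [lift, Measure.map_smul, hsum]
  congr 1
  simp only [e]
  obtain ⟨k, rfl⟩ := Nat.exists_eq_succ_of_ne_zero (NeZero.ne n)
  rw [Finset.sum_range_succ, Finset.sum_range_succ']
  congr 1
  rw [(mp_lift0 μ φ ρ (k + 1) hρ).map_eq, show tr ((0 : ℕ) : ℤ) = (id : (ℤ → A × C) → _) from
    funext tr_zero, Measure.map_id]

omit [IsProbabilityMeasure ρ] in
/-- The law of consecutive blocks under the lift at fixed places. -/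
theorem lift0_bk (m : ℕ) (w : Fin m → Fin n → A × C) :
    (lift0 μ φ ρ n).real (bk m n ⁻¹' {w}) = ρ.real (bk m n ⁻¹' {fun i j => (w i j).2}) *
      ∏ i, (condBlk μ φ n fun j => (w i j).2).real {fun j => (w i j).1} := by
  classical
  set v : Fin m → Fin n → C := fun i j => (w i j).2 with hv
  set u : Fin m → Fin n → A := fun i j => (w i j).1 with hu
  have hval : ∀ (y : ℤ → C) (ω : ℤ → (Fin n → C) → Fin n → A) (i : Fin m) (j : Fin n),
      bk m n (fillW n (y, ω)) i j = (ω ((i : ℕ) : ℤ) (bk m n y i) j, bk m n y i j) :=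
    fun y ω i j => by
      have e1 : ((n * i + j : ℕ) : ℤ) / (n : ℤ) = ((i : ℕ) : ℤ) := by
        rw [← Int.natCast_ediv, Nat.mul_add_div (NeZero.pos n), Nat.div_eq_of_lt j.2, add_zero]
      have e2 : ((n * i + j : ℕ) : ℤ) % (n : ℤ) = ((j : ℕ) : ℤ) := by
        rw [← Int.natCast_emod, Nat.mul_add_mod, Nat.mod_eq_of_lt j.2]
      simp only [bk, fillW, e1, Prod.mk.injEq, and_true]
      congr 1
      · funext l
        simp only [blk, tr, bk]
        push_cast
        ring_nf
      · exact Fin.ext ((congrArg Int.toNat e2).trans (Int.toNat_natCast _))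
  have hset : fillW n ⁻¹' (bk m n ⁻¹' {w}) = (bk m n ⁻¹' {v}) ×ˢ
      (blk m ⁻¹' Set.pi Set.univ fun i => {g | g (v i) = u i}) := by
    ext ⟨y, ω⟩
    simp only [Set.mem_preimage, Set.mem_singleton_iff, Set.mem_prod, Set.mem_pi, Set.mem_univ,
      true_implies, Set.mem_ofPred_eq]
    refine ⟨fun h => ?_, fun ⟨h1, h2⟩ => ?_⟩
    · have h1 : bk m n y = v := funext fun i => funext fun j => by
        simp only [hv, ← h, hval]
      refine ⟨h1, fun i => funext fun j => ?_⟩
      simp only [hu, ← h, hval, h1]
      rfl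
    · refine funext fun i => funext fun j => ?_
      rw [hval, h1]
      exact Prod.ext (congrFun (h2 i) j) rfl
  rw [lift0, map_measureReal_apply (measurable_fillW n)
    (measurable_bk m n (measurableSet_singleton w)), hset, measureReal_prod_prod]
  congr 1
  have hms : MeasurableSet (Set.pi Set.univ fun i => {g : (Fin n → C) → Fin n → A |
      g (v i) = u i}) :=
    (Set.toFinite _).measurableSet
  rw [← map_measureReal_apply (measurable_blk m) hms, map_blk_bern, measureReal_def, Measure.pi_pi,
    ENNReal.toReal_prod]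
  refine Finset.prod_congr rfl fun i _ => congrArg ENNReal.toReal ?_
  rw [kern, ← (measurePreserving_eval (μ := condBlk μ φ n) (v i)).measure_preimage
    (measurableSet_singleton _).nullMeasurableSet]
  rfl

omit [IsProbabilityMeasure ρ] [NeZero n] [Fintype C] [MeasurableSingletonClass C] [Fintype A]
  [MeasurableSpace C] in
/-- The joint law of a block and its coded block. -/
theorem evC_mul_condBlk (v : Fin n → C) (u : Fin n → A) :
    μ.real (evC φ n v) * (condBlk μ φ n v).real {u} =
      μ.real (evC φ n v ∩ blk n ⁻¹' {u}) := by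
  rcases eq_or_ne (μ (evC φ n v)) 0 with h | h
  · rw [measureReal_def, measureReal_def μ (evC φ n v ∩ _), h,
      measure_mono_null Set.inter_subset_left h]
    simp
  · rw [condBlk, if_neg h, map_measureReal_apply (measurable_blk n) (measurableSet_singleton u),
      measureReal_def μ[|evC φ n v], cond_apply' (measurable_blk n (measurableSet_singleton u)),
      ENNReal.toReal_mul, ENNReal.toReal_inv, ← measureReal_def, ← measureReal_def, ← mul_assoc,
      mul_inv_cancel₀ (show μ.real (evC φ n v) ≠ 0 from
        (ENNReal.toReal_pos h (measure_ne_top _ _)).ne'), one_mul]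

/-- The distance of `ρ` from the coded process on blocks of length `n`. -/
def blkDist : ℝ := ∑ v : Fin n → C, |ρ.real (blk n ⁻¹' {v}) - μ.real (evC φ n v)|

omit [NeZero n] [Fintype C] [Fintype A] in
theorem graph_blk (hφ : Measurable φ) (w : Fin n → A × C) :
    (μ.map (graphS φ)).real (blk n ⁻¹' {w}) =
      μ.real (evC φ n fun j => (w j).2) *
        (condBlk μ φ n fun j => (w j).2).real {fun j => (w j).1} := by
  rw [evC_mul_condBlk μ φ n, map_measureReal_apply (measurable_graphS hφ)
    (measurable_blk n (measurableSet_singleton w))]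
  congr 1
  ext x
  simp [evC, blk, graphS, zipS, funext_iff, Prod.ext_iff, forall_and, and_comm]

omit [IsProbabilityMeasure ρ] in
theorem lift0_blk (w : Fin n → A × C) :
    (lift0 μ φ ρ n).real (blk n ⁻¹' {w}) =
      ρ.real (blk n ⁻¹' {fun j => (w j).2}) *
        (condBlk μ φ n fun j => (w j).2).real {fun j => (w j).1} := by
  have h := lift0_bk μ φ ρ n 1 fun _ => w
  simp only [Fin.prod_univ_one] at h
  rwa [bk_one_preimage, bk_one_preimage] at h

/-- An event inside one block has nearly the probability it has under the code. -/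
theorem abs_lift0_sub_le (hφ : Measurable φ) (S : Set (Fin n → A × C)) :
    |(lift0 μ φ ρ n).real (blk n ⁻¹' S) - (μ.map (graphS φ)).real (blk n ⁻¹' S)| ≤
      blkDist μ φ ρ n := by
  classical
  have := Measure.isProbabilityMeasure_map (μ := μ) (measurable_graphS hφ).aemeasurable
  rw [← Set.coe_toFinset S, ← sum_measureReal_preimage_singleton _
    fun w _ => measurable_blk n (measurableSet_singleton w), ← sum_measureReal_preimage_singleton _
    fun w _ => measurable_blk n (measurableSet_singleton w), ← Finset.sum_sub_distrib]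
  refine (Finset.abs_sum_le_sum_abs _ _).trans
    ((Finset.sum_le_univ_sum_of_nonneg fun w => abs_nonneg _).trans ?_)
  simp only [lift0_blk, graph_blk μ φ n hφ, ← sub_mul, abs_mul, abs_of_nonneg measureReal_nonneg]
  rw [← (Equiv.arrowProdEquivProdArrow (Fin n) (fun _ => A) fun _ => C).symm.sum_comp,
    Fintype.sum_prod_type_right]
  refine le_of_eq (Finset.sum_congr rfl fun v _ => ?_)
  simp [Equiv.arrowProdEquivProdArrow, ← Finset.mul_sum]

/-- **The lift has nearly the short blocks of the code.** -/
theorem abs_lift_sub_le (hμ : MeasurePreserving (shift A) μ μ) (hφ : Measurable φ) (l : ℕ)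
    (S : Set (Fin l → A × C)) :
    |(lift μ φ ρ n).real (blk l ⁻¹' S) - (μ.map (graphS φ)).real (blk l ⁻¹' S)| ≤
      (l : ℝ) / n + blkDist μ φ ρ n := by
  classical
  have := Measure.isProbabilityMeasure_map (μ := μ) (measurable_graphS hφ).aemeasurable
  have hG := mp_map hμ (measurable_graphS hφ) fun x => graphS_tr φ 1 x
  have hE : MeasurableSet (blk l ⁻¹' S : Set (ℤ → A × C)) :=
    measurable_blk l S.toFinite.measurableSet
  have hn : (0 : ℝ) < n := Nat.cast_pos.2 (NeZero.pos n)
  set g := (μ.map (graphS φ)).real (blk l ⁻¹' S)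
  set d := blkDist μ φ ρ n
  have hd : 0 ≤ d := Finset.sum_nonneg fun v _ => abs_nonneg _
  have key : ∀ j ∈ Finset.range n,
      |(lift0 μ φ ρ n).real (tr (j : ℤ) ⁻¹' (blk l ⁻¹' S)) - g| ≤
        d + if n < j + l then 1 else 0 := fun j hj => by
    split_ifs with h
    · refine le_trans ?_ (le_add_of_nonneg_left hd)
      exact abs_sub_le_of_nonneg_of_le measureReal_nonneg measureReal_le_one measureReal_nonneg
        measureReal_le_one
    · have e : tr (j : ℤ) ⁻¹' (blk l ⁻¹' S) = (blk n ⁻¹' {w | (fun i : Fin l =>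
          w ⟨j + i, by omega⟩) ∈ S} : Set (ℤ → A × C)) := by
        ext z
        refine iff_of_eq (congrArg (· ∈ S) (funext fun i => ?_))
        simp [blk, tr, add_comm]
      rw [add_zero, show g = (μ.map (graphS φ)).real (tr (j : ℤ) ⁻¹' (blk l ⁻¹' S)) from
        (measureReal_tr hG _ hE).symm, e]
      exact abs_lift0_sub_le μ φ ρ n hφ _
  rw [lift_real μ φ ρ n hE, div_sub' hn.ne', abs_div, abs_of_pos hn, div_le_iff₀ hn,
    show (n : ℝ) * g = ∑ j ∈ Finset.range n, g by simp, ← Finset.sum_sub_distrib]
  refine (Finset.abs_sum_le_sum_abs _ _).trans ((Finset.sum_le_sum key).trans ?_)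
  rw [Finset.sum_add_distrib, Finset.sum_boole, Finset.sum_const, Finset.card_range, nsmul_eq_mul,
    add_mul, div_mul_cancel₀ _ hn.ne', mul_comm d, add_comm]
  refine add_le_add (Nat.cast_le.2 ?_) le_rfl
  refine (Finset.card_le_card (t := Finset.Ico (n - l) n) fun j hj => ?_).trans (by simp; omega)
  simp only [Finset.mem_filter, Finset.mem_range, Finset.mem_Ico] at hj ⊢
  omega

/-- The mean conditional entropy of a block, by the weights of `ρ`. -/
def condEnt : ℝ :=
  ∑ v : Fin n → C, ρ.real (blk n ⁻¹' {v}) * ∑ u, negMulLog ((condBlk μ φ n v).real {u})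

theorem entropy_lift0_bk (hρ : MeasurePreserving (shift C) ρ ρ) (m : ℕ) :
    entropy (lift0 μ φ ρ n) (bk m n) = entropy ρ (blk (m * n)) + m * condEnt μ φ ρ n := by
  set Q : (Fin n → C) → (Fin n → A) → ℝ := fun v u => (condBlk μ φ n v).real {u}
  have hQ : ∀ v, ∑ u, Q v u = 1 := fun v => by simp [Q]
  let e : (Fin m → Fin n → A) × (Fin m → Fin n → C) ≃ (Fin m → Fin n → A × C) :=
    { toFun := fun p i j => (p.1 i j, p.2 i j)
      invFun := fun w => (fun i j => (w i j).1, fun i j => (w i j).2) }
  rw [entropy, ← e.sum_comp, Fintype.sum_prod_type_right, ← entropy_bk]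
  simp only [lift0_bk]
  show ∑ v : Fin m → Fin n → C, ∑ u : Fin m → Fin n → A,
    negMulLog (ρ.real (bk m n ⁻¹' {v}) * ∏ i, Q (v i) (u i)) = _
  simp only [sum_negMulLog_prod m (fun i => Q _) (fun i => hQ _), Finset.sum_add_distrib]
  refine congrArg₂ (· + ·) rfl ?_
  have hi : ∀ i : Fin m, ∑ v, ρ.real (bk m n ⁻¹' {v}) * ∑ u, negMulLog (Q (v i) u) =
      condEnt μ φ ρ n := fun i => by
    rw [sum_mul_comp (measurable_bk m n) (fun v => v i) (fun t => ∑ u, negMulLog (Q t u)) ρ]
    refine Finset.sum_congr rfl fun t _ => congrArg (· * _) ?_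
    rw [← measureReal_tr hρ ((n * i : ℕ) : ℤ) (measurable_blk n (measurableSet_singleton t))]
    congr 1
    ext y
    simp [bk, blk, tr, funext_iff, add_comm]
  rw [Finset.sum_congr rfl fun v _ => Finset.mul_sum _ _ _, Finset.sum_comm,
    Finset.sum_congr rfl fun i _ => hi i, Finset.sum_const, Finset.card_univ, Fintype.card_fin,
    nsmul_eq_mul]

/-- **The entropy of the lift.** -/
theorem rate_lift_ge (hρ : MeasurePreserving (shift C) ρ ρ) :
    rate ρ (shift C) (fun y => y 0) + condEnt μ φ ρ n / n ≤
      rate (lift μ φ ρ n) (shift (A × C)) fun z => z 0 := by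
  set L := lift μ φ ρ n
  set R := rate ρ (shift C) (fun y => y 0)
  have hn : (0 : ℝ) < n := Nat.cast_pos.2 (NeZero.pos n)
  have hL := mp_lift μ φ ρ n hρ
  have key : ∀ m : ℕ,
      (m : ℝ) / (m + 1) * (R + condEnt μ φ ρ n / n) ≤ entropy L (blk ((m + 1) * n)) /
        (((m + 1) * n : ℕ) : ℝ) := fun m => by
    have h1 : entropy ρ (blk (m * n)) + m * condEnt μ φ ρ n ≤ entropy L (blk ((m + 1) * n)) := by
      refine le_trans ?_ (avg_entropy_le (blk ((m + 1) * n)) L (NeZero.ne n)
        (fun j => (lift0 μ φ ρ n).map (tr (j : ℤ))) fun w => ?_)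
      · rw [le_div_iff₀ hn]
        refine le_of_eq_of_le ?_ (Finset.sum_le_sum fun j hj => ?_)
          (a := _) (b := ∑ _j ∈ Finset.range n, entropy (lift0 μ φ ρ n) (bk m n))
        · simp [entropy_lift0_bk μ φ ρ n hρ m, mul_comm, mul_add]
        rw [← FA.KolmogorovSinai.entropy_map (mp_lift0 μ φ ρ n hρ) (measurable_bk m n),
          ← FA.KolmogorovSinai.entropy_map
            (show MeasurePreserving (tr (j : ℤ)) (lift0 μ φ ρ n) _ from ⟨measurable_tr _, rfl⟩)
            (measurable_blk _)]
        refine le_of_eq_of_le (congrArg (entropy _) ?_) (FA.KolmogorovSinai.entropy_comp_le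
          ((measurable_blk _).comp (measurable_tr _))
          fun (w : Fin ((m + 1) * n) → A × C) (i : Fin m) (l : Fin n) =>
            w ⟨n + (n * i + l) - j, by
              have := l.2
              have : n * ((i : ℕ) + 1) ≤ n * m := Nat.mul_le_mul_left _ i.2
              rw [Nat.succ_mul, Nat.mul_comm m n]
              rw [Nat.mul_succ] at this
              omega⟩)
        funext z i l
        have hj' := Finset.mem_range.1 hj
        simp only [Function.comp_apply, bk, blk, tr]
        congr 1
        omega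
      · rw [lift_real μ φ ρ n (measurable_blk _ (measurableSet_singleton w))]
        simp only [map_measureReal_apply (measurable_tr _)
          (measurable_blk _ (measurableSet_singleton w))]
    have h2 : (m : ℝ) * n * R ≤ entropy ρ (blk (m * n)) := by
      rcases Nat.eq_zero_or_pos m with rfl | hm
      · simpa using FA.KolmogorovSinai.entropy_nonneg (μ := ρ) (blk (0 * n))
      · have := rate_le_entropy_div ρ hρ (n := m * n) (Nat.mul_pos hm (NeZero.pos n)).ne'
        rw [le_div_iff₀ (Nat.cast_pos.2 (Nat.mul_pos hm (NeZero.pos n))), Nat.cast_mul] at this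
        linarith
    rw [le_div_iff₀ (Nat.cast_pos.2 (Nat.mul_pos m.succ_pos (NeZero.pos n)))]
    refine le_trans (le_of_eq ?_) ((add_le_add h2 le_rfl).trans h1)
    push_cast
    field_simp
  have hlim : Tendsto (fun m : ℕ => (m : ℝ) / (m + 1) * (R + condEnt μ φ ρ n / n)) atTop
      (𝓝 (R + condEnt μ φ ρ n / n)) := by
    simpa using (tendsto_natCast_div_add_atTop (1 : ℝ)).mul_const (R + condEnt μ φ ρ n / n)
  refine le_of_tendsto_of_tendsto hlim ((FA.KolmogorovSinai.tendsto_rate hL
    (measurable_pi_apply 0)).comp ((tendsto_add_atTop_nat 1).atTop_mul_const' (NeZero.pos n)))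
    (Eventually.of_forall fun m => ?_)
  simp only [Function.comp_apply, word_eq_blk]
  exact key m

end FA.Ornstein

end
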