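import Fermat.Agent.KolmogorovSinai.Bernoulli
import Mathlib.Dynamics.Ergodic.Ergodic

/-!
# Two-sided sequences

Translations, blocks and windows, the measures determined by them, pairs of sequences and the
sequence coded by a function of a point.
-/

set_option autoImplicit false

noncomputable section

open MeasureTheory Filter Topology
open FA.ShannonMcMillan (word measurable_word)
open FA.KolmogorovSinai (shift entropy rate)

namespace FA.Ornstein

variable {A B : Type*} [MeasurableSpace A] [MeasurableSpace B]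

/-- Translation by `k`. -/
def tr (k : ℤ) (x : ℤ → A) : ℤ → A := fun i => x (i + k)

theorem measurable_tr (k : ℤ) : Measurable (tr k : (ℤ → A) → ℤ → A) :=
  measurable_pi_iff.2 fun _ => measurable_pi_apply _

omit [MeasurableSpace A] in
theorem tr_tr (a b : ℤ) (x : ℤ → A) : tr a (tr b x) = tr (a + b) x := by
  funext i
  simp [tr, add_assoc]

omit [MeasurableSpace A] in
theorem tr_zero (x : ℤ → A) : tr 0 x = x := by
  funext i
  simp [tr]

theorem shift_apply (x : ℤ → A) : shift A x = tr 1 x := rfl

theorem iterate_shift (j : ℕ) : (shift A)^[j] = tr (j : ℤ) := by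
  funext x i
  rw [FA.KolmogorovSinai.shift_iterate]
  rfl

/-- An invariant measure is invariant under every translation. -/
theorem mp_tr {μ : Measure (ℤ → A)} (h : MeasurePreserving (shift A) μ μ) :
    ∀ k : ℤ, MeasurePreserving (tr k) μ μ := by
  have hnat : ∀ j : ℕ, MeasurePreserving (tr (j : ℤ)) μ μ := fun j => by
    rw [← iterate_shift]
    exact h.iterate j
  intro k
  obtain ⟨j, rfl | rfl⟩ := k.eq_nat_or_neg
  · exact hnat j
  · refine ⟨measurable_tr _, ?_⟩
    conv_lhs => rw [← (hnat j).map_eq, Measure.map_map (measurable_tr _) (measurable_tr _)]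
    have e : (tr (-(j : ℤ)) ∘ tr (j : ℤ) : (ℤ → A) → ℤ → A) = id := by
      funext x
      simp [tr_tr, tr_zero]
    rw [e, Measure.map_id]

/-- The block `x 0, …, x (n - 1)`. -/
def blk (n : ℕ) (x : ℤ → A) : Fin n → A := fun j => x ((j : ℕ) : ℤ)

/-- The window `x (-r), …, x r`. -/
def win (r : ℕ) (x : ℤ → A) : Fin (2 * r + 1) → A := fun j => x (((j : ℕ) : ℤ) - r)

theorem measurable_blk (n : ℕ) : Measurable (blk n : (ℤ → A) → Fin n → A) :=
  measurable_pi_iff.2 fun _ => measurable_pi_apply _

theorem measurable_win (r : ℕ) : Measurable (win r : (ℤ → A) → Fin (2 * r + 1) → A) :=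
  measurable_pi_iff.2 fun _ => measurable_pi_apply _

theorem word_eq_blk (n : ℕ) :
    word (shift A) (fun x : ℤ → A => x 0) n = blk n := by
  funext x j
  simp [word, blk, FA.KolmogorovSinai.shift_iterate]

omit [MeasurableSpace A] in
theorem win_eq_blk (r : ℕ) (x : ℤ → A) : win r x = blk (2 * r + 1) (tr (-(r : ℤ)) x) := by
  funext j
  simp [win, blk, tr, sub_eq_add_neg]

/-- The first projection. -/
def fstS (z : ℤ → A × B) : ℤ → A := fun i => (z i).1

/-- The second projection. -/
def sndS (z : ℤ → A × B) : ℤ → B := fun i => (z i).2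

/-- Two sequences side by side. -/
def zipS (x : ℤ → A) (y : ℤ → B) : ℤ → A × B := fun i => (x i, y i)

/-- The two sequences exchanged. -/
def swapS (z : ℤ → A × B) : ℤ → B × A := fun i => ((z i).2, (z i).1)

theorem measurable_fstS : Measurable (fstS : (ℤ → A × B) → ℤ → A) :=
  measurable_pi_iff.2 fun i => (measurable_pi_apply i).fst

theorem measurable_sndS : Measurable (sndS : (ℤ → A × B) → ℤ → B) :=
  measurable_pi_iff.2 fun i => (measurable_pi_apply i).snd

theorem measurable_zipS {α : Type*} [MeasurableSpace α] {f : α → ℤ → A} {g : α → ℤ → B}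
    (hf : Measurable f) (hg : Measurable g) : Measurable fun x => zipS (f x) (g x) :=
  measurable_pi_iff.2 fun i =>
    ((measurable_pi_apply i).comp hf).prodMk ((measurable_pi_apply i).comp hg)

theorem measurable_swapS : Measurable (swapS : (ℤ → A × B) → ℤ → B × A) :=
  measurable_pi_iff.2 fun i => (measurable_pi_apply i).snd.prodMk (measurable_pi_apply i).fst

/-- The sequence coded from a point by `φ`. -/
def code (φ : (ℤ → A) → B) (x : ℤ → A) : ℤ → B := fun i => φ (tr i x)

/-- The point beside the sequence coded from it. -/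
def graphS (φ : (ℤ → A) → B) (x : ℤ → A) : ℤ → A × B := zipS x (code φ x)

theorem measurable_code {φ : (ℤ → A) → B} (hφ : Measurable φ) : Measurable (code φ) :=
  measurable_pi_iff.2 fun i => hφ.comp (measurable_tr i)

theorem measurable_graphS {φ : (ℤ → A) → B} (hφ : Measurable φ) : Measurable (graphS φ) :=
  measurable_zipS measurable_id (measurable_code hφ)

omit [MeasurableSpace A] [MeasurableSpace B] in
theorem code_tr (φ : (ℤ → A) → B) (k : ℤ) (x : ℤ → A) : code φ (tr k x) = tr k (code φ x) := by
  funext i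
  simp [code, tr_tr, tr]

omit [MeasurableSpace A] [MeasurableSpace B] in
theorem graphS_tr (φ : (ℤ → A) → B) (k : ℤ) (x : ℤ → A) :
    graphS φ (tr k x) = tr k (graphS φ x) := by
  funext i
  simp [graphS, zipS, code, tr, tr_tr]

omit [MeasurableSpace A] [MeasurableSpace B] in
theorem fstS_tr (k : ℤ) (z : ℤ → A × B) : fstS (tr k z) = tr k (fstS z) := rfl

omit [MeasurableSpace A] [MeasurableSpace B] in
theorem sndS_tr (k : ℤ) (z : ℤ → A × B) : sndS (tr k z) = tr k (sndS z) := rfl

/-- An equivariant image of an invariant measure is invariant. -/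
theorem mp_map {μ : Measure (ℤ → A)} (h : MeasurePreserving (shift A) μ μ)
    {F : (ℤ → A) → ℤ → B} (hF : Measurable F) (hcomm : ∀ x, F (tr 1 x) = tr 1 (F x)) :
    MeasurePreserving (shift B) (μ.map F) (μ.map F) := by
  refine ⟨(shift B).measurable, ?_⟩
  rw [Measure.map_map (shift B).measurable hF]
  conv_rhs => rw [← h.map_eq, Measure.map_map hF (shift A).measurable]
  congr 1
  funext x
  exact (hcomm x).symm

/-- **An equivariant image of an ergodic measure is ergodic.** -/
theorem ergodic_map {μ : Measure (ℤ → A)} (h : Ergodic (shift A) μ)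
    {F : (ℤ → A) → ℤ → B} (hF : Measurable F) (hcomm : ∀ x, F (tr 1 x) = tr 1 (F x)) :
    Ergodic (shift B) (μ.map F) := by
  refine { toMeasurePreserving := mp_map h.toMeasurePreserving hF hcomm, aeconst_set := ?_ }
  intro s hs hinv
  have hinv' : shift A ⁻¹' (F ⁻¹' s) = F ⁻¹' s := by
    ext x
    show F (tr 1 x) ∈ s ↔ F x ∈ s
    rw [hcomm]
    exact Set.ext_iff.1 hinv (F x)
  rcases eventuallyConst_set'.1 (h.aeconst_set (hF hs) hinv') with h' | h'
  · refine eventuallyConst_set'.2 (Or.inl (ae_eq_empty.2 ?_))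
    rw [Measure.map_apply hF hs]
    exact ae_eq_empty.1 h'
  · refine eventuallyConst_set'.2 (Or.inr (ae_eq_univ.2 ?_))
    rw [Measure.map_apply hF hs.compl]
    exact ae_eq_univ.1 h'

variable [Fintype A] [MeasurableSingletonClass A]

theorem comap_win_mono :
    Monotone fun r => MeasurableSpace.comap (win r : (ℤ → A) → _) inferInstance := fun m n hmn => by
  have e : (win m : (ℤ → A) → _) =
      (fun (w : Fin (2 * n + 1) → A) (j : Fin (2 * m + 1)) => w ⟨j + (n - m), by omega⟩) ∘
        win n := by
    funext x j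
    simp only [win, Function.comp_apply]
    congr 1
    push_cast [Nat.cast_sub hmn]
    ring
  show MeasurableSpace.comap (win m) _ ≤ _
  rw [e, ← MeasurableSpace.comap_comp]
  exact MeasurableSpace.comap_mono (measurable_of_finite _).comap_le

theorem iSup_comap_win :
    ⨆ r, MeasurableSpace.comap (win r : (ℤ → A) → _) inferInstance = MeasurableSpace.pi := by
  refine le_antisymm (iSup_le fun r => (measurable_win r).comap_le) (iSup_le fun i => ?_)
  refine le_iSup_of_le i.natAbs ?_
  have e : (fun x : ℤ → A => x i) =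
      (fun w : Fin (2 * i.natAbs + 1) → A => w ⟨(i + i.natAbs).toNat, by omega⟩) ∘
        win i.natAbs := by
    funext x
    simp only [win, Function.comp_apply]
    congr 1
    omega
  show MeasurableSpace.comap (fun x : ℤ → A => x i) _ ≤ _
  rw [e, ← MeasurableSpace.comap_comp]
  exact MeasurableSpace.comap_mono (measurable_of_finite _).comap_le

/-- The events of finitely many coordinates. -/
def winEvents (A : Type*) : Set (Set (ℤ → A)) :=
  {E | ∃ (r : ℕ) (S : Set (Fin (2 * r + 1) → A)), win r ⁻¹' S = E}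

omit [MeasurableSpace A] [Fintype A] [MeasurableSingletonClass A] in
theorem exists_win_lift {r r' : ℕ} (h : r ≤ r') (S : Set (Fin (2 * r + 1) → A)) :
    ∃ S' : Set (Fin (2 * r' + 1) → A), win r' ⁻¹' S' = win r ⁻¹' S := by
  refine ⟨{w | (fun j : Fin (2 * r + 1) => w ⟨j + (r' - r), by omega⟩) ∈ S}, ?_⟩
  ext x
  simp only [Set.mem_preimage, Set.mem_ofPred_eq]
  refine iff_of_eq (congrArg (· ∈ S) (funext fun j => ?_))
  simp only [win]
  congr 1
  push_cast [Nat.cast_sub h]
  ring

omit [MeasurableSpace A] [Fintype A] [MeasurableSingletonClass A] in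
theorem isSetAlgebra_winEvents : IsSetAlgebra (winEvents A) where
  empty_mem := ⟨0, ∅, rfl⟩
  compl_mem := fun _ ⟨r, S, h⟩ => ⟨r, Sᶜ, by rw [Set.preimage_compl, h]⟩
  union_mem := fun _ _ ⟨r, S, hS⟩ ⟨r', S', hS'⟩ => by
    obtain ⟨T, hT⟩ := exists_win_lift (le_max_left r r') S
    obtain ⟨T', hT'⟩ := exists_win_lift (le_max_right r r') S'
    exact ⟨max r r', T ∪ T', by rw [Set.preimage_union, hT, hT', hS, hS']⟩

theorem generateFrom_winEvents :
    (inferInstance : MeasurableSpace (ℤ → A)) = MeasurableSpace.generateFrom (winEvents A) := by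
  refine le_antisymm ?_ (MeasurableSpace.generateFrom_le ?_)
  · show MeasurableSpace.pi ≤ _
    rw [← iSup_comap_win]
    refine iSup_le fun r => ?_
    rintro s ⟨S, -, rfl⟩
    exact MeasurableSpace.measurableSet_generateFrom ⟨r, S, rfl⟩
  · rintro _ ⟨r, S, rfl⟩
    exact measurable_win r S.toFinite.measurableSet

/-- **Windows determine a measure.** -/
theorem ext_of_win {μ ν : Measure (ℤ → A)} [IsProbabilityMeasure μ] [IsProbabilityMeasure ν]
    (h : ∀ r w, μ.real (win r ⁻¹' {w}) = ν.real (win r ⁻¹' {w})) : μ = ν := by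
  refine ext_of_generate_finite (winEvents A) generateFrom_winEvents ?_ ?_ (by simp)
  · rintro _ ⟨r, S, rfl⟩ _ ⟨r', S', rfl⟩ -
    obtain ⟨T, hT⟩ := exists_win_lift (le_max_left r r') S
    obtain ⟨T', hT'⟩ := exists_win_lift (le_max_right r r') S'
    exact ⟨max r r', T ∩ T', by rw [Set.preimage_inter, hT, hT']⟩
  · rintro _ ⟨r, S, rfl⟩
    classical
    have e : ∀ m : Measure (ℤ → A), ∀ [IsProbabilityMeasure m],
        m.real (win r ⁻¹' S) = ∑ w ∈ S.toFinite.toFinset, m.real (win r ⁻¹' {w}) := by
      intro m _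
      rw [sum_measureReal_preimage_singleton _
        fun w _ => measurable_win r (measurableSet_singleton w), S.toFinite.coe_toFinset]
    rw [← measureReal_eq_measureReal_iff, e, e]
    exact Finset.sum_congr rfl fun w _ => h r w

omit [Fintype A] in
/-- The probability of a block. -/
theorem measureReal_win {μ : Measure (ℤ → A)} (h : MeasurePreserving (shift A) μ μ) (r : ℕ)
    (w : Fin (2 * r + 1) → A) :
    μ.real (win r ⁻¹' {w}) = μ.real (blk (2 * r + 1) ⁻¹' {w}) := by
  have e : (win r ⁻¹' {w} : Set (ℤ → A)) = tr (-(r : ℤ)) ⁻¹' (blk (2 * r + 1) ⁻¹' {w}) := by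
    ext x
    simp [win_eq_blk]
  rw [e, measureReal_def, (mp_tr h _).measure_preimage
    (measurable_blk _ (measurableSet_singleton w)).nullMeasurableSet, measureReal_def]

/-- **Blocks determine an invariant measure.** -/
theorem ext_of_blk {μ ν : Measure (ℤ → A)} [IsProbabilityMeasure μ] [IsProbabilityMeasure ν]
    (hμ : MeasurePreserving (shift A) μ μ) (hν : MeasurePreserving (shift A) ν ν)
    (h : ∀ n w, μ.real (blk n ⁻¹' {w}) = ν.real (blk n ⁻¹' {w})) : μ = ν :=
  ext_of_win fun r w => by rw [measureReal_win hμ, measureReal_win hν, h]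

/-- A finite-valued function is nearly a function of a window. -/
theorem exists_win_approx [Fintype B] [MeasurableSingletonClass B] (μ : Measure (ℤ → A))
    [IsProbabilityMeasure μ] {φ : (ℤ → A) → B} (hφ : Measurable φ) {ε : ℝ} (hε : 0 < ε) :
    ∃ (r : ℕ) (f : (Fin (2 * r + 1) → A) → B), μ.real {x | φ x ≠ f (win r x)} < ε := by
  obtain ⟨f, hf⟩ := FA.KolmogorovSinai.exists_approx (μ := μ) (l := fun m => 2 * m + 1)
    (W := fun m => win m) measurable_win comap_win_mono iSup_comap_win hφ
  have h' : Tendsto (fun m => μ.real {x | φ x ≠ f m (win m x)}) atTop (𝓝 0) :=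
    (ENNReal.tendsto_toReal ENNReal.zero_ne_top).comp hf
  obtain ⟨r, hr⟩ := (h'.eventually_lt_const hε).exists
  exact ⟨r, f r, hr⟩

end FA.Ornstein

end
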