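import Fermat.Agent.Ornstein.Basic
import Mathlib.MeasureTheory.Measure.SeparableMeasure

/-!
# Bernoulli shifts

A finite block may be drawn afresh, so the block is independent of the other coordinates; hence
the shift is ergodic, and its entropy rate is the entropy of one letter.
-/

set_option autoImplicit false

noncomputable section

open MeasureTheory Filter Topology Real
open FA.ShannonMcMillan (word measurable_word)
open FA.KolmogorovSinai (shift entropy rate)
open scoped symmDiff

namespace FA.Ornstein

variable {B : Type*} [MeasurableSpace B]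

/-- The Bernoulli measure with letter distribution `q`. -/
abbrev bern (q : Measure B) : Measure (ℤ → B) := Measure.infinitePi fun _ : ℤ => q

/-- The sequence `y` with the block `v` put at `0, …, n - 1`. -/
def splice (n : ℕ) (v : Fin n → B) (y : ℤ → B) : ℤ → B :=
  fun i => if h : 0 ≤ i ∧ i < n then v ⟨i.toNat, by omega⟩ else y i

theorem measurable_splice (n : ℕ) (v : Fin n → B) : Measurable (splice n v) :=
  measurable_pi_iff.2 fun i => by
    by_cases h : 0 ≤ i ∧ i < n
    · simp [splice, h]
    · simpa [splice, h] using measurable_pi_apply i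

omit [MeasurableSpace B] in
@[simp]
theorem blk_splice (n : ℕ) (v : Fin n → B) (y : ℤ → B) : blk n (splice n v y) = v := by
  funext j
  simp [blk, splice]

omit [MeasurableSpace B] in
theorem splice_eq_self {n : ℕ} {v : Fin n → B} {y : ℤ → B} (h : blk n y = v) :
    splice n v y = y := by
  subst h
  funext i
  by_cases hi : 0 ≤ i ∧ i < n
  · simp only [splice, dif_pos hi, blk]
    exact congrArg y (Int.toNat_of_nonneg hi.1)
  · simp [splice, hi]

variable [Fintype B] [MeasurableSingletonClass B] (q : Measure B) [IsProbabilityMeasure q]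

omit [Fintype B] [MeasurableSingletonClass B] in
theorem mp_bern : MeasurePreserving (shift B) (bern q) (bern q) :=
  FA.KolmogorovSinai.measurePreserving_shift q

/-- **A block may be drawn afresh.** -/
theorem bern_resample (n : ℕ) :
    ∑ v : Fin n → B, (∏ j, q {v j}) • (bern q).map (splice n v) = bern q := by
  classical
  refine Measure.eq_infinitePi _ fun s t ht => ?_
  set I : Finset ℤ := Finset.univ.image fun j : Fin n => ((j : ℕ) : ℤ) with hI
  have hmem : ∀ i, i ∈ I ↔ 0 ≤ i ∧ i < n := fun i => by
    simp only [hI, Finset.mem_image, Finset.mem_univ, true_and]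
    exact ⟨fun ⟨j, hj⟩ => by omega, fun h => ⟨⟨i.toNat, by omega⟩, by simp [h.1]⟩⟩
  set u : Fin n → Set B := fun j => if ((j : ℕ) : ℤ) ∈ s then t ((j : ℕ) : ℤ) else Set.univ
  have hbox : MeasurableSet (Set.pi (s : Set ℤ) t) :=
    .pi s.countable_toSet fun i _ => ht i
  have hpre : ∀ v, (bern q) (splice n v ⁻¹' Set.pi (s : Set ℤ) t) =
      (if ∀ j, v j ∈ u j then 1 else 0) * ∏ i ∈ s \ I, q (t i) := fun v => by
    split_ifs with hv
    · rw [one_mul, ← Measure.infinitePi_pi (fun _ : ℤ => q) fun i _ => ht i]
      congr 1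
      ext y
      simp only [Set.mem_preimage, Set.mem_pi, Finset.mem_coe, Finset.mem_sdiff]
      refine ⟨fun h i hi => ?_, fun h i hi => ?_⟩
      · have := h i hi.1
        rwa [splice, dif_neg (fun h' => hi.2 ((hmem i).2 h'))] at this
      · by_cases h' : 0 ≤ i ∧ i < n
        · simp only [splice, dif_pos h']
          have := hv ⟨i.toNat, by omega⟩
          simpa [u, h'.1, hi] using this
        · simpa [splice, h'] using h i ⟨hi, fun hh => h' ((hmem i).1 hh)⟩
    · rw [zero_mul, ← measure_empty (μ := bern q)]
      congr 1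
      rw [Set.eq_empty_iff_forall_notMem]
      intro y hy
      refine hv fun j => ?_
      by_cases hj : ((j : ℕ) : ℤ) ∈ s
      · have := hy _ hj
        simpa [splice, u, hj] using this
      · simp [u, hj]
  have hq : ∀ j, ∑ b, q {b} * (if b ∈ u j then 1 else 0) = q (u j) := fun j => by
    simp only [mul_ite, mul_one, mul_zero]
    rw [← Finset.sum_filter, sum_measure_singleton]
    simp
  rw [Measure.coe_finsetSum, Finset.sum_apply]
  simp only [Measure.smul_apply, smul_eq_mul, Measure.map_apply (measurable_splice n _) hbox, hpre,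
    ← mul_assoc, ← Finset.sum_mul]
  have e : ∀ v : Fin n → B, (∏ j, q {v j}) * (if ∀ j, v j ∈ u j then 1 else 0) =
      ∏ j, q {v j} * (if v j ∈ u j then 1 else 0) := fun v => by
    rw [Finset.prod_mul_distrib, Fintype.prod_boole]
    congr! 2
  simp only [e, ← Fintype.prod_sum fun j b => q {b} * (if b ∈ u j then 1 else 0), hq]
  rw [← Finset.prod_inter_mul_prod_sdiff s I fun i => q (t i)]
  congr 1
  rw [← Finset.filter_mem_eq_inter, Finset.prod_filter]
  have hu : ∀ j, q (u j) = if ((j : ℕ) : ℤ) ∈ s then q (t ((j : ℕ) : ℤ)) else 1 := fun j => by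
    simp only [u]
    split_ifs <;> simp
  simp only [hu, ← Finset.prod_filter]
  refine Finset.prod_bij (fun j _ => ((j : ℕ) : ℤ)) (fun j hj => ?_) (fun a _ b _ h => ?_)
    (fun i hi => ?_) fun j hj => rfl
  · simpa [hI] using hj
  · exact Fin.ext (Nat.cast_injective h)
  · simp only [Finset.mem_filter] at hi
    obtain ⟨h1, h2⟩ := (hmem i).1 hi.2
    exact ⟨⟨i.toNat, by omega⟩, by simp [h1, hi.1], Int.toNat_of_nonneg h1⟩

theorem bern_eq_sum (n : ℕ) {E : Set (ℤ → B)} (hE : MeasurableSet E) :
    (bern q).real E =
      ∑ v : Fin n → B, (∏ j, q.real {v j}) * (bern q).real (splice n v ⁻¹' E) := by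
  conv_lhs => rw [← bern_resample q n, measureReal_def, Measure.coe_finsetSum, Finset.sum_apply]
  rw [ENNReal.toReal_sum fun v _ => ?_]
  swap
  · rw [Measure.smul_apply, smul_eq_mul]
    exact ENNReal.mul_ne_top (ENNReal.prod_ne_top fun j _ => measure_ne_top _ _)
      (measure_ne_top _ _)
  refine Finset.sum_congr rfl fun v _ => ?_
  simp only [Measure.smul_apply, smul_eq_mul, Measure.map_apply (measurable_splice n v) hE,
    ENNReal.toReal_mul, ENNReal.toReal_prod, measureReal_def]

/-- **A block is independent of what lies outside it.** -/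
theorem bern_indep (n : ℕ) (S : Set (Fin n → B)) {E : Set (ℤ → B)} (hE : MeasurableSet E)
    (hinv : ∀ v y, splice n v y ∈ E ↔ y ∈ E) :
    (bern q).real (blk n ⁻¹' S ∩ E) = (bern q).real (blk n ⁻¹' S) * (bern q).real E := by
  classical
  have key : ∀ F : Set (ℤ → B), MeasurableSet F → (∀ v y, splice n v y ∈ F ↔ y ∈ F) →
      (bern q).real (blk n ⁻¹' S ∩ F) =
        (∑ v ∈ S.toFinset, ∏ j, q.real {v j}) * (bern q).real F := fun F hF hF' => by
    rw [bern_eq_sum q n ((measurable_blk n S.toFinite.measurableSet).inter hF), Finset.sum_mul,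
      ← Finset.sum_subset S.toFinset.subset_univ fun v _ hv => ?_]
    · refine Finset.sum_congr rfl fun v hv => ?_
      congr 1
      congr 1
      ext y
      simp [Set.mem_toFinset.1 hv, hF']
    · rw [Set.mem_toFinset] at hv
      simp [hv, Set.eq_empty_iff_forall_notMem.2]
  have h1 := key Set.univ .univ fun _ _ => by simp
  rw [Set.inter_univ, probReal_univ, mul_one] at h1
  rw [key E hE hinv, h1]

/-- The probability of a block. -/
theorem bern_blk (n : ℕ) (w : Fin n → B) :
    (bern q).real (blk n ⁻¹' {w}) = ∏ j, q.real {w j} := by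
  rw [← word_eq_blk]
  exact FA.KolmogorovSinai.measureReal_word q n w

/-- **Bernoulli shifts are ergodic.** -/
theorem ergodic_bern : Ergodic (shift B) (bern q) := by
  refine { toMeasurePreserving := mp_bern q, aeconst_set := ?_ }
  intro A hA hinv
  set a := (bern q).real A
  have hinv' : ∀ k : ℕ, tr (k : ℤ) ⁻¹' A = A := fun k => by
    rw [← iterate_shift]
    induction k with
    | zero => simp
    | succ k ih => rw [Function.iterate_succ', Set.preimage_comp, hinv, ih]
  have h : ∀ ε > 0, |a - a * a| ≤ ε := by
    intro ε hε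
    obtain ⟨T, ⟨r, S, hT⟩, hlt⟩ := (Measure.MeasureDense.of_generateFrom_isSetAlgebra_finite
      (μ := bern q) isSetAlgebra_winEvents generateFrom_winEvents).approx A hA
        (measure_ne_top _ _) (ε / 4) (by positivity)
    let m := 2 * r + 1
    have hmT : MeasurableSet T := hT ▸ measurable_win r S.toFinite.measurableSet
    have hd : (bern q).real (A ∆ T) ≤ ε / 4 := (ENNReal.toReal_lt_of_lt_ofReal hlt).le
    set T' := tr (m : ℤ) ⁻¹' T
    have hmT' : MeasurableSet T' := measurable_tr _ hmT
    have hpres : ∀ (k : ℤ) {E : Set (ℤ → B)}, MeasurableSet E →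
        (bern q).real (tr k ⁻¹' E) = (bern q).real E := fun k E hE => by
      rw [measureReal_def, (mp_tr (mp_bern q) k).measure_preimage hE.nullMeasurableSet,
        measureReal_def]
    have hprod : (bern q).real (T ∩ T') = (bern q).real T * (bern q).real T' := by
      have e1 : T = tr (-(r : ℤ)) ⁻¹' (blk m ⁻¹' S) := by
        ext x
        simp [← hT, m, win_eq_blk]
      have e2 : T ∩ T' = tr (-(r : ℤ)) ⁻¹' (blk m ⁻¹' S ∩ tr (m : ℤ) ⁻¹' (blk m ⁻¹' S)) := by
        simp only [T', Set.preimage_inter, ← e1]
        congr 1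
        ext x
        simp only [← hT, m, Set.mem_preimage, win_eq_blk, tr_tr, add_comm]
      have hmb : MeasurableSet (blk m ⁻¹' S : Set (ℤ → B)) :=
        measurable_blk m S.toFinite.measurableSet
      rw [hpres _ hmT, e2, hpres _ (hmb.inter (measurable_tr _ hmb)), bern_indep q m S
        (measurable_tr _ hmb) fun v y => ?_, hpres _ hmb, e1, hpres _ hmb]
      simp only [Set.mem_preimage]
      refine iff_of_eq (congrArg (· ∈ S) (funext fun j => ?_))
      simp [blk, tr, splice]
    have hd' : (bern q).real (A ∆ T') ≤ ε / 4 := by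
      refine le_trans (le_of_eq ?_) hd
      conv_lhs => rw [← hinv' m, ← Set.preimage_symmDiff, hpres _ (hA.symmDiff hmT)]
    have hbT : |a - (bern q).real T| ≤ ε / 4 :=
      (abs_measureReal_sub_le_measureReal_symmDiff hA.nullMeasurableSet
        hmT.nullMeasurableSet).trans hd
    have hbI : |a - (bern q).real (T ∩ T')| ≤ ε / 2 := by
      refine (abs_measureReal_sub_le_measureReal_symmDiff hA.nullMeasurableSet
        (hmT.inter hmT').nullMeasurableSet).trans ?_
      refine (measureReal_mono (s₂ := A ∆ T ∪ A ∆ T') fun η hη => ?_).trans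
        ((measureReal_union_le _ _).trans (by linarith))
      simp only [Set.mem_symmDiff, Set.mem_inter_iff, Set.mem_union] at hη ⊢
      tauto
    rw [hprod, hpres _ hmT] at hbI
    rw [abs_le] at hbT hbI ⊢
    have t0 : 0 ≤ (bern q).real T := measureReal_nonneg
    have t1 : (bern q).real T ≤ 1 := measureReal_le_one
    have a0 : 0 ≤ a := measureReal_nonneg
    have a1 : a ≤ 1 := measureReal_le_one
    constructor <;> nlinarith
  have h0 : a - a * a = 0 := by
    have := le_of_forall_pos_le_add (a := |a - a * a|) (b := 0) fun ε hε => by simpa using h ε hε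
    exact abs_nonpos_iff.1 this
  rcases mul_eq_zero.1 (show a * (1 - a) = 0 by linarith) with h | h
  · exact eventuallyConst_set'.2 (Or.inl (ae_eq_empty.2
      ((measureReal_eq_zero_iff (measure_ne_top _ _)).1 h)))
  · refine eventuallyConst_set'.2 (Or.inr (ae_eq_univ.2 ?_))
    refine (measureReal_eq_zero_iff (measure_ne_top _ _)).1 ?_
    rw [probReal_compl_eq_one_sub hA]
    linarith

theorem entropy_bern_blk (n : ℕ) :
    entropy (bern q) (blk n) = n * ∑ b, negMulLog (q.real {b}) := by
  unfold entropy
  simp only [bern_blk]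
  exact FA.KolmogorovSinai.sum_prod_negMulLog q n

/-- **The entropy rate of a Bernoulli shift.** -/
theorem rate_bern :
    rate (bern q) (shift B) (fun y => y 0) = ∑ b, negMulLog (q.real {b}) := by
  refine tendsto_nhds_unique
    (FA.KolmogorovSinai.tendsto_rate (mp_bern q) (measurable_pi_apply 0)) ?_
  refine tendsto_const_nhds.congr' ((eventually_ge_atTop 1).mono fun n hn => ?_)
  dsimp only
  rw [word_eq_blk, entropy_bern_blk, mul_div_cancel_left₀ _ (Nat.cast_ne_zero.2 (by omega))]

end FA.Ornstein

end
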