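import Fermat.Agent.Ornstein.Basic
import Fermat.Agent.PointwiseErgodic.Birkhoff
import Mathlib.MeasureTheory.Function.ConvergenceInMeasure

/-!
# Typical blocks and towers

By the theorems of Shannon, McMillan and Breiman and of Birkhoff most blocks have the expected
probability and the expected frequencies. A tower over part of a good set fills nearly the space.
-/

set_option autoImplicit false

noncomputable section

open MeasureTheory Filter Topology Real
open FA.ShannonMcMillan (word measurable_word info cyl)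
open FA.KolmogorovSinai (shift entropy rate)

namespace FA.Ornstein

variable {X : Type*} [MeasurableSpace X] {μ : Measure (ℤ → X)} [IsProbabilityMeasure μ]

theorem eventually_measureReal_lt {f : ℕ → (ℤ → X) → ℝ} {c : ℝ} (hf : ∀ n, Measurable (f n))
    (h : ∀ᵐ x ∂μ, Tendsto (fun n => f n x) atTop (𝓝 c)) {δ η : ℝ} (hδ : 0 < δ) (hη : 0 < η) :
    ∀ᶠ n in atTop, μ.real {x | δ ≤ |f n x - c|} < η := by
  have h1 := tendstoInMeasure_iff_norm.1 (tendstoInMeasure_of_tendsto_ae (μ := μ)
    (fun n => (hf n).aestronglyMeasurable) h) δ hδ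
  have h2 : Tendsto (fun n => μ.real {x | δ ≤ |f n x - c|}) atTop (𝓝 0) :=
    (ENNReal.tendsto_toReal ENNReal.zero_ne_top).comp h1
  exact h2.eventually_lt_const hη

/-- The number of occurrences of a pattern in a block. -/
def occ {Y : Type*} [DecidableEq Y] {n m : ℕ} (p : Fin n → Y) (u : Fin m → Y) : ℕ :=
  (Finset.univ.filter fun i : Fin (n + 1 - m) =>
    (fun j : Fin m => p ⟨(i : ℕ) + (j : ℕ), by omega⟩) = u).card

variable [Fintype X] [MeasurableSingletonClass X]

/-- Most blocks have about the probability given by the entropy rate. -/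
theorem eventually_info (h : Ergodic (shift X) μ) {δ η : ℝ} (hδ : 0 < δ) (hη : 0 < η) :
    ∀ᶠ n : ℕ in atTop, μ.real {x | δ ≤ |-log (μ.real (blk n ⁻¹' {blk n x})) / n -
      rate μ (shift X) (fun x => x 0)|} < η := by
  have hP : Measurable fun x : ℤ → X => x 0 := measurable_pi_apply 0
  obtain ⟨c, -, hae, hmean, -⟩ := FA.ShannonMcMillan.exists_entropy_limit_ergodic h hP
  have hc : rate μ (shift X) (fun x => x 0) = c := by
    refine tendsto_nhds_unique
      (FA.KolmogorovSinai.tendsto_rate h.toMeasurePreserving hP) (hmean.congr fun n => ?_)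
    rw [FA.ShannonMcMillan.integral_info (shift X).measurable hP]
    rfl
  have e : ∀ (n : ℕ) x, info μ (shift X) (fun x => x 0) n x =
      -log (μ.real (blk n ⁻¹' {blk n x})) := fun n x => by
    simp [info, cyl, word_eq_blk]
  rw [hc]
  refine (eventually_measureReal_lt (fun n => ((FA.ShannonMcMillan.measurable_info
    (shift X).measurable hP n).div_const (n : ℝ))) hae hδ hη).mono fun n hn => ?_
  simpa only [e] using hn

/-- Most blocks have about the expected frequency of every pattern. -/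
theorem eventually_occ [DecidableEq X] (h : Ergodic (shift X) μ) (m : ℕ) (u : Fin m → X) {δ η : ℝ}
    (hδ : 0 < δ) (hη : 0 < η) :
    ∀ᶠ n : ℕ in atTop, μ.real {x | δ ≤ |(occ (blk n x) u : ℝ) / n -
      μ.real (blk m ⁻¹' {u})|} < η := by
  set E : Set (ℤ → X) := blk m ⁻¹' {u}
  have hE : MeasurableSet E := measurable_blk m (measurableSet_singleton u)
  have hi : Integrable (E.indicator fun _ => (1 : ℝ)) μ := (integrable_const 1).indicator hE
  have hae : ∀ᵐ x ∂μ, Tendsto (fun n : ℕ => (occ (blk n x) u : ℝ) / n) atTop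
      (𝓝 (μ.real E)) := by
    filter_upwards [FA.PointwiseErgodic.tendsto_average_ergodic h hi] with x hx
    rw [integral_indicator_const _ hE, smul_eq_mul, mul_one] at hx
    have hocc : ∀ n, m ≤ n → (occ (blk n x) u : ℝ) =
        birkhoffSum (shift X) (E.indicator fun _ => (1 : ℝ)) (n + 1 - m) x := fun n hn => by
      rw [birkhoffSum, ← Fin.sum_univ_eq_sum_range
        (fun i => E.indicator (fun _ => (1 : ℝ)) ((shift X)^[i] x)), occ,
        Finset.card_filter, Nat.cast_sum]
      refine Finset.sum_congr rfl fun i _ => ?_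
      classical
      rw [iterate_shift, Set.indicator_apply]
      have : (fun j : Fin m => blk n x ⟨(i : ℕ) + (j : ℕ), by omega⟩) =
          blk m (tr ((i : ℕ) : ℤ) x) := by
        funext j
        simp [blk, tr, add_comm]
      simp only [this, E, Set.mem_preimage, Set.mem_singleton_iff]
      split_ifs <;> simp
    have hratio : Tendsto (fun n : ℕ => ((n + 1 - m : ℕ) : ℝ) / n) atTop (𝓝 1) := by
      have h1 : Tendsto (fun n : ℕ => 1 + (1 - (m : ℝ)) / n) atTop (𝓝 1) := by
        simpa using (tendsto_const_nhds (x := (1 : ℝ) - m)).div_atTop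
          tendsto_natCast_atTop_atTop |>.const_add 1
      refine h1.congr' ((eventually_ge_atTop (m + 1)).mono fun n hn => ?_)
      have : (0 : ℝ) < n := Nat.cast_pos.2 (by omega)
      dsimp only
      rw [Nat.cast_sub (by omega)]
      push_cast
      field_simp
      ring
    have hk : Tendsto (fun n : ℕ => n + 1 - m) atTop atTop :=
      tendsto_atTop_atTop.2 fun b => ⟨b + m, fun n hn => by omega⟩
    have := hratio.mul (hx.comp hk)
    rw [one_mul] at this
    refine this.congr' ((eventually_ge_atTop (m + 1)).mono fun n hn => ?_)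
    have h0 : ((n + 1 - m : ℕ) : ℝ) ≠ 0 := Nat.cast_ne_zero.2 (by omega)
    simp only [Function.comp_apply, birkhoffAverage, smul_eq_mul, hocc n (by omega)]
    field_simp
  exact eventually_measureReal_lt (fun n => ((measurable_of_finite
    fun p : Fin n → X => (occ p u : ℝ)).comp (measurable_blk n)).div_const _) hae hδ hη

omit [Fintype X] [MeasurableSingletonClass X] in
/-- **Towers.** A set of positive measure gives, inside any set `G`, the base of a tower of height
`n` missing little more than `n` copies of it and the complement of `G`. -/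
theorem exists_tower (h : Ergodic (shift X) μ) {n : ℕ} (hn : 0 < n) {F G : Set (ℤ → X)}
    (hF : MeasurableSet F) (hG : MeasurableSet G) (hF0 : μ F ≠ 0) :
    ∃ S, MeasurableSet S ∧ S ⊆ G ∧ (∀ x ∈ S, ∀ a : ℕ, 0 < a → a < n → tr (a : ℤ) x ∉ S) ∧
      1 - n * μ.real F - μ.real Gᶜ ≤ n * μ.real S := by
  classical
  set V : Set (ℤ → X) := ⋃ t : ℕ, tr (-(t : ℤ)) ⁻¹' F
  have hVm : MeasurableSet V := .iUnion fun t => measurable_tr _ hF
  have hV : μ.real Vᶜ = 0 := by
    have hsub : V ⊆ shift X ⁻¹' V := fun x hx => by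
      obtain ⟨t, ht⟩ := Set.mem_iUnion.1 hx
      refine Set.mem_iUnion.2 ⟨t + 1, ?_⟩
      show tr (-((t + 1 : ℕ) : ℤ)) (tr 1 x) ∈ F
      rw [tr_tr]
      simpa using ht
    rcases h.ae_empty_or_univ_of_ae_le_preimage hVm.nullMeasurableSet
      hsub.eventuallyLE with h' | h'
    · refine absurd (measure_mono_null (fun x hx => ?_) (ae_eq_empty.1 h')) hF0
      exact Set.mem_iUnion.2 ⟨0, by simpa [tr_zero] using hx⟩
    · rw [measureReal_def, ae_eq_univ.1 h', ENNReal.toReal_zero]
  set S : Fin n → Set (ℤ → X) := fun j => {x | ∃ t : ℕ, t % n = j ∧ tr (-(t : ℤ)) x ∈ F ∧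
    (∀ s < t, tr (-(s : ℤ)) x ∉ F) ∧ ∀ s : ℕ, 0 < s → s < n → tr (s : ℤ) x ∉ F} with hS
  have hSm : ∀ j, MeasurableSet (S j) := fun j => by
    have e : S j = ⋃ t : ℕ, ⋃ (_ : t % n = j), tr (-(t : ℤ)) ⁻¹' F ∩
        ((⋂ s ∈ Finset.range t, (tr (-(s : ℤ)) ⁻¹' F)ᶜ) ∩
          ⋂ s ∈ Finset.Ioo 0 n, (tr ((s : ℕ) : ℤ) ⁻¹' F)ᶜ) := by
      ext x
      simp [hS]
      exact ⟨fun ⟨t, a, b, c, d⟩ => ⟨t, b, c, a, d⟩, fun ⟨t, b, c, a, d⟩ => ⟨t, a, b, c, d⟩⟩
    rw [e]
    exact .iUnion fun t => .iUnion fun _ => (measurable_tr _ hF).inter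
      ((Finset.measurableSet_biInter _ fun s _ => (measurable_tr _ hF).compl).inter
        (Finset.measurableSet_biInter _ fun s _ => (measurable_tr _ hF).compl))
  have hdis : ∀ j, ∀ x ∈ S j, ∀ a : ℕ, 0 < a → a < n → tr (a : ℤ) x ∉ S j := by
    rintro j x ⟨t, htj, htF, htmin, hfree⟩ a ha han ⟨t', htj', htF', htmin', -⟩
    rw [tr_tr] at htF'
    have h1 : a ≤ t' := by
      by_contra hlt
      exact hfree (a - t') (by omega) (by omega)
        (by rwa [show ((a - t' : ℕ) : ℤ) = -(t' : ℤ) + a by omega])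
    have h2 : t ≤ t' - a := by
      by_contra hlt
      exact htmin (t' - a) (by omega)
        (by rwa [show (-((t' - a : ℕ) : ℤ)) = -(t' : ℤ) + a by omega])
    have h3 : t' ≤ t + a := by
      by_contra hlt
      refine htmin' (t + a) (by omega) ?_
      rw [tr_tr, show -((t + a : ℕ) : ℤ) + a = -(t : ℤ) by omega]
      exact htF
    have h4 : (t + a) % n = t % n := by rw [htj, show t + a = t' by omega, htj']
    have h5 : a % n = 0 := by
      have := Nat.sub_mod_eq_zero_of_mod_eq h4
      rwa [Nat.add_sub_cancel_left] at this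
    rw [Nat.mod_eq_of_lt han] at h5
    omega
  have hcover : Set.univ ⊆ ((⋃ j ∈ Finset.univ, S j ∩ G) ∪ Gᶜ) ∪
      ((⋃ s ∈ Finset.Ioo 0 n, tr ((s : ℕ) : ℤ) ⁻¹' F) ∪ Vᶜ) := by
    intro x _
    by_cases hxG : x ∈ G
    swap
    · exact Or.inl (Or.inr hxG)
    by_cases hxV : x ∈ V
    swap
    · exact Or.inr (Or.inr hxV)
    by_cases hfree : ∀ s : ℕ, 0 < s → s < n → tr (s : ℤ) x ∉ F
    · have hex := Set.mem_iUnion.1 hxV
      refine Or.inl (Or.inl (Set.mem_biUnion (x := ⟨Nat.find hex % n, Nat.mod_lt _ hn⟩)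
        (Finset.mem_univ _) ⟨⟨_, rfl, Nat.find_spec hex, fun s hs => Nat.find_min hex hs, hfree⟩,
          hxG⟩))
    · push Not at hfree
      obtain ⟨s, hs0, hsn, hs⟩ := hfree
      exact Or.inr (Or.inl (Set.mem_biUnion (x := s) (Finset.mem_Ioo.2 ⟨hs0, hsn⟩) hs))
  have htot : 1 - n * μ.real F - μ.real Gᶜ ≤ ∑ j, μ.real (S j ∩ G) := by
    have h1 := (measureReal_mono (μ := μ) hcover).trans ((measureReal_union_le _ _).trans
      (add_le_add (measureReal_union_le _ _) (measureReal_union_le _ _)))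
    have h2 : μ.real (⋃ s ∈ Finset.Ioo 0 n, tr ((s : ℕ) : ℤ) ⁻¹' F) ≤ n * μ.real F := by
      refine (measureReal_biUnion_finset_le _ _).trans ?_
      have e : ∀ s : ℕ, μ.real (tr ((s : ℕ) : ℤ) ⁻¹' F) = μ.real F := fun s => by
        rw [measureReal_def, (mp_tr h.toMeasurePreserving _).measure_preimage hF.nullMeasurableSet,
          measureReal_def]
      simp only [e, Finset.sum_const, nsmul_eq_mul, Nat.card_Ioo]
      exact mul_le_mul_of_nonneg_right (Nat.cast_le.2 (by omega)) measureReal_nonneg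
    have h3 : μ.real (⋃ j ∈ Finset.univ, S j ∩ G) ≤ ∑ j, μ.real (S j ∩ G) :=
      measureReal_biUnion_finset_le _ _
    rw [probReal_univ] at h1
    linarith
  have : Nonempty (Fin n) := ⟨⟨0, hn⟩⟩
  obtain ⟨j, -, hj⟩ := Finset.exists_le_of_sum_le (f := fun _ : Fin n =>
    (1 - n * μ.real F - μ.real Gᶜ) / n) (g := fun j => μ.real (S j ∩ G)) Finset.univ_nonempty
    (by simpa [mul_div_cancel₀ _ (Nat.cast_ne_zero.2 hn.ne' : (n : ℝ) ≠ 0)] using htot)
  refine ⟨S j ∩ G, (hSm j).inter hG, Set.inter_subset_right,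
    fun x hx a ha han hxa => hdis j x hx.1 a ha han hxa.1, ?_⟩
  rw [div_le_iff₀ (Nat.cast_pos.2 hn : (0 : ℝ) < n)] at hj
  linarith

end FA.Ornstein

end
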