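import Fermat.Agent.Ornstein.Bernoulli
import Fermat.Agent.Ornstein.Space
import Fermat.Agent.Ornstein.Tower
import Mathlib.Combinatorics.Hall.Basic

/-!
# Copying a joining by a code

The words that a joining pairs with typical independent words are sent, injectively up to an index
from a small set, to such words. Reading these along a tower gives a code with nearly the blocks
of the joining. The index and the part outside the tower carry little entropy, so the code keeps
nearly all the entropy.
-/

set_option autoImplicit false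

noncomputable section

open MeasureTheory Filter Topology Real
open FA.ShannonMcMillan (word measurable_word)
open FA.KolmogorovSinai (shift entropy rate)

namespace FA.Ornstein

theorem sum_negMulLog_le {κ : Type*} [Fintype κ] (p : κ → ℝ) (hp : ∀ k, 0 ≤ p k) :
    ∑ k, negMulLog (p k) ≤ negMulLog (∑ k, p k) + (∑ k, p k) * log (Fintype.card κ) := by
  rcases (Finset.sum_nonneg fun k (_ : k ∈ Finset.univ) => hp k).eq_or_lt with h | h
  · have h0 := (Finset.sum_eq_zero_iff_of_nonneg fun k _ => hp k).1 h.symm
    simp [← h, Finset.sum_congr rfl fun k hk => congrArg negMulLog (h0 k hk)]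
  have hne : Nonempty κ := by
    by_contra hκ
    have := not_nonempty_iff.1 hκ
    simp at h
  have hc : (0 : ℝ) < Fintype.card κ := Nat.cast_pos.2 Fintype.card_pos
  set P := ∑ k, p k
  have key : ∀ k, negMulLog (p k) ≤ -p k * log (P / Fintype.card κ) + P / Fintype.card κ - p k :=
    fun k => by
    rcases (hp k).eq_or_lt with hk | hk
    · simp only [← hk, negMulLog_zero, neg_zero, zero_mul, zero_add, sub_zero]
      positivity
    have h1 := log_le_sub_one_of_pos (div_pos (div_pos h hc) hk)
    rw [log_div (div_pos h hc).ne' hk.ne'] at h1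
    have h2 := mul_le_mul_of_nonneg_left h1 hk.le
    rw [mul_sub_one, mul_div_cancel₀ _ hk.ne'] at h2
    rw [negMulLog]
    linarith
  refine (Finset.sum_le_sum fun k _ => key k).trans (le_of_eq ?_)
  rw [Finset.sum_sub_distrib, Finset.sum_add_distrib, ← Finset.sum_mul, Finset.sum_const,
    Finset.card_univ, nsmul_eq_mul, mul_div_cancel₀ _ hc.ne', Finset.sum_neg_distrib,
    log_div h.ne' hc.ne', negMulLog]
  ring

theorem entropy_option_le {α κ : Type*} [MeasurableSpace α] {μ : Measure α}
    [IsProbabilityMeasure μ] [Fintype κ] [MeasurableSpace (Option κ)]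
    [MeasurableSingletonClass (Option κ)] {X : α → Option κ} (hX : Measurable X) {p : ℝ}
    (hp : μ.real {x | X x ≠ none} = p) :
    entropy μ X ≤ negMulLog (1 - p) + negMulLog p + p * log (Fintype.card κ) := by
  have h1 := FA.KolmogorovSinai.sum_preimage_eq_one (μ := μ) hX
  rw [Fintype.sum_option] at h1
  have h2 : μ.real (X ⁻¹' {none}) = 1 - p := by
    rw [← hp, ← probReal_compl_eq_one_sub
      (show MeasurableSet {x | X x ≠ none} from (hX (measurableSet_singleton none)).compl)]
    congr 1
    ext x
    simp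
  rw [entropy, Fintype.sum_option, h2, add_assoc]
  gcongr
  rw [show p = ∑ k, μ.real (X ⁻¹' {some k}) by linarith]
  exact sum_negMulLog_le _ fun k => measureReal_nonneg

theorem exists_binary_small {η : ℝ} (hη : 0 < η) :
    ∃ δ, 0 < δ ∧ ∀ p, 0 ≤ p → p ≤ δ → negMulLog (1 - p) + negMulLog p ≤ η := by
  have hc : Continuous fun p : ℝ => negMulLog (1 - p) + negMulLog p := by fun_prop
  obtain ⟨δ, hδ, h⟩ := Metric.continuous_iff.1 hc 0 η hη
  refine ⟨δ / 2, half_pos hδ, fun p h0 h1 => ?_⟩
  have := h p (by rw [Real.dist_eq, sub_zero, abs_of_nonneg h0]; linarith)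
  rw [Real.dist_eq] at this
  simp only [sub_zero, negMulLog_one, negMulLog_zero, add_zero] at this
  exact (le_abs_self _).trans this.le

variable {A B : Type*} [Fintype A] [MeasurableSpace A] [MeasurableSingletonClass A]
  [Fintype B] [MeasurableSpace B] [MeasurableSingletonClass B]

omit [MeasurableSpace A] [MeasurableSingletonClass A] [Fintype A] [MeasurableSpace B]
  [MeasurableSingletonClass B] [Fintype B] in
/-- Two blocks side by side. -/
def zipW {n : ℕ} (w : Fin n → A) (v : Fin n → B) : Fin n → A × B := fun j => (w j, v j)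

omit [Fintype A] in
theorem sum_zipW_left {L : Measure (ℤ → A × B)} [IsProbabilityMeasure L] {μ : Measure (ℤ → A)}
    {ν : Measure (ℤ → B)} (hL : IsJoining μ ν L) (n : ℕ) (w : Fin n → A) :
    ∑ v, L.real (blk n ⁻¹' {zipW w v}) = μ.real (blk n ⁻¹' {w}) := by
  classical
  rw [← Finset.sum_image (g := zipW w) (f := fun p => L.real (blk n ⁻¹' {p}))
    (fun v _ v' _ h => funext fun j => congrArg Prod.snd (congrFun h j)),
    sum_measureReal_preimage_singleton _ fun v _ => measurable_blk n (measurableSet_singleton v),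
    ← hL.real_fst (measurable_blk n (measurableSet_singleton w))]
  congr 1
  ext z
  simp only [Finset.coe_image, Finset.coe_univ, Set.image_univ, Set.mem_preimage, Set.mem_range,
    Set.mem_singleton_iff]
  refine ⟨fun ⟨v, hv⟩ => funext fun j => (congrArg Prod.fst (congrFun hv j)).symm, fun h =>
    ⟨blk n (sndS z), funext fun j => ?_⟩⟩
  rw [← h]
  rfl

omit [Fintype B] in
theorem sum_zipW_right {L : Measure (ℤ → A × B)} [IsProbabilityMeasure L] {μ : Measure (ℤ → A)}
    {ν : Measure (ℤ → B)} (hL : IsJoining μ ν L) (n : ℕ) (v : Fin n → B) :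
    ∑ w, L.real (blk n ⁻¹' {zipW w v}) = ν.real (blk n ⁻¹' {v}) := by
  classical
  rw [← Finset.sum_image (g := fun w => zipW w v) (f := fun p => L.real (blk n ⁻¹' {p}))
    (fun w _ w' _ h => funext fun j => congrArg Prod.fst (congrFun h j)),
    sum_measureReal_preimage_singleton _ fun v _ => measurable_blk n (measurableSet_singleton v),
    ← hL.real_snd (measurable_blk n (measurableSet_singleton v))]
  congr 1
  ext z
  simp only [Finset.coe_image, Finset.coe_univ, Set.image_univ, Set.mem_preimage, Set.mem_range,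
    Set.mem_singleton_iff]
  refine ⟨fun ⟨w, hw⟩ => funext fun j => (congrArg Prod.snd (congrFun hw j)).symm, fun h =>
    ⟨blk n (fstS z), funext fun j => ?_⟩⟩
  rw [← h]
  rfl

/-- **Good words are sent to good words**, injectively up to an index from a small set. -/
theorem exists_match {μ : Measure (ℤ → A)} {ν : Measure (ℤ → B)} [IsProbabilityMeasure μ]
    {L : Measure (ℤ → A × B)} (hL : IsJoining μ ν L) (n : ℕ) (good : (Fin n → A × B) → Prop)
    [DecidablePred good] {lo hi ε : ℝ} (hlo : 0 < lo) (K : ℕ) (hK : 2 * hi ≤ K * lo)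
    (hgw : ∀ p, good p → lo ≤ μ.real (blk n ⁻¹' {fun j => (p j).1}))
    (hgv : ∀ p, good p → ν.real (blk n ⁻¹' {fun j => (p j).2}) ≤ hi)
    (hmass : 1 - ε ≤ L.real (blk n ⁻¹' {p | good p})) :
    ∃ (W : Finset (Fin n → A)) (f : W → (Fin n → B) × Fin K), Function.Injective f ∧
      (∀ w : W, good (zipW (w : Fin n → A) (f w).1)) ∧
      1 - 2 * ε ≤ μ.real (blk n ⁻¹' W) := by
  classical
  have := hL.isProb
  set g : (Fin n → A) → ℝ :=
    fun w => ∑ v, if good (zipW w v) then L.real (blk n ⁻¹' {zipW w v}) else 0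
  set W := Finset.univ.filter fun w : Fin n → A =>
    0 < μ.real (blk n ⁻¹' {w}) ∧ μ.real (blk n ⁻¹' {w}) / 2 ≤ g w
  have hg : ∀ w, g w ≤ μ.real (blk n ⁻¹' {w}) := fun w => by
    rw [← sum_zipW_left hL]
    exact Finset.sum_le_sum fun v _ => by split_ifs <;> simp
  have hg0 : ∀ w, 0 ≤ g w := fun w => Finset.sum_nonneg fun v _ => by split_ifs <;> simp
  have hWlo : ∀ w ∈ W, lo / 2 ≤ g w := fun w hw => by
    obtain ⟨hpos, hge⟩ := (Finset.mem_filter.1 hw).2
    obtain ⟨v, -, hv⟩ := Finset.exists_ne_zero_of_sum_ne_zero (show g w ≠ 0 by linarith)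
    have hv' : good (zipW w v) := by
      by_contra h
      simp [h] at hv
    linarith [show lo ≤ μ.real (blk n ⁻¹' {w}) from hgw _ hv']
  have hall : ∀ T : Finset W, T.card ≤ (Finset.univ.filter fun b : (Fin n → B) × Fin K =>
      ∃ a ∈ T, good (zipW (a : Fin n → A) b.1)).card := by
    intro T
    set N := Finset.univ.filter fun v : Fin n → B => ∃ a ∈ T, good (zipW (a : Fin n → A) v)
    have e : (Finset.univ.filter fun b : (Fin n → B) × Fin K =>
        ∃ a ∈ T, good (zipW (a : Fin n → A) b.1)) = N ×ˢ (Finset.univ : Finset (Fin K)) := by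
      ext b
      simp [N]
    rw [e, Finset.card_product, Finset.card_univ, Fintype.card_fin]
    have h1 : (T.card : ℝ) * (lo / 2) ≤ ∑ a ∈ T, g a := by
      rw [← nsmul_eq_mul]
      exact Finset.card_nsmul_le_sum _ _ _ fun a _ => hWlo _ a.2
    have h2 : ∑ a ∈ T, g (a : Fin n → A) ≤ N.card * hi := by
      rw [← nsmul_eq_mul, ← Finset.sum_const]
      calc ∑ a ∈ T, g (a : Fin n → A)
          = ∑ v, ∑ a ∈ T, if good (zipW (a : Fin n → A) v)
              then L.real (blk n ⁻¹' {zipW (a : Fin n → A) v}) else 0 := Finset.sum_comm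
        _ = ∑ v ∈ N, ∑ a ∈ T, if good (zipW (a : Fin n → A) v)
              then L.real (blk n ⁻¹' {zipW (a : Fin n → A) v}) else 0 := by
            refine (Finset.sum_subset N.subset_univ fun v _ hv =>
              Finset.sum_eq_zero fun a ha => ?_).symm
            exact if_neg fun h => hv (Finset.mem_filter.2 ⟨Finset.mem_univ v, a, ha, h⟩)
        _ ≤ ∑ _v ∈ N, hi := Finset.sum_le_sum fun v hv => by
            obtain ⟨a₀, -, ha₀⟩ := (Finset.mem_filter.1 hv).2
            refine le_trans ?_ (hgv _ ha₀)
            show _ ≤ ν.real (blk n ⁻¹' {v})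
            rw [← sum_zipW_right hL]
            refine le_trans (Finset.sum_le_sum fun a _ => ?_)
              (le_trans (le_of_eq (Finset.sum_image (g := fun a : W => (a : Fin n → A))
                (f := fun w => L.real (blk n ⁻¹' {zipW w v}))
                fun a _ b _ h => Subtype.ext h).symm)
              (Finset.sum_le_sum_of_subset_of_nonneg (Finset.subset_univ _)
                fun w _ _ => measureReal_nonneg))
            split_ifs <;> simp
    have h3 : (T.card : ℝ) * lo ≤ ((N.card * K : ℕ) : ℝ) * lo := by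
      push_cast
      nlinarith [mul_le_mul_of_nonneg_left hK (Nat.cast_nonneg (α := ℝ) N.card)]
    exact_mod_cast le_of_mul_le_mul_right h3 hlo
  obtain ⟨f, hf, hr⟩ := (Fintype.all_card_le_filter_rel_iff_exists_injective
    (fun (a : W) (b : (Fin n → B) × Fin K) => good (zipW (a : Fin n → A) b.1))).1 hall
  refine ⟨W, f, hf, hr, ?_⟩
  have hG : L.real (blk n ⁻¹' {p | good p}) = ∑ w, g w := by
    have e : ({p | good p} : Set (Fin n → A × B)) = ↑(Finset.univ.filter good) := by
      ext p
      simp
    rw [e, ← sum_measureReal_preimage_singleton _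
      fun p _ => measurable_blk n (measurableSet_singleton p), Finset.sum_filter,
      ← (Equiv.arrowProdEquivProdArrow (Fin n) (fun _ => A) fun _ => B).symm.sum_comp,
      Fintype.sum_prod_type]
    rfl
  have hW : μ.real (blk n ⁻¹' (W : Set (Fin n → A))) = ∑ w ∈ W, μ.real (blk n ⁻¹' {w}) :=
    (sum_measureReal_preimage_singleton _
      fun w _ => measurable_blk n (measurableSet_singleton w)).symm
  have hout : ∀ w ∈ Wᶜ, μ.real (blk n ⁻¹' {w}) ≤ 2 * (μ.real (blk n ⁻¹' {w}) - g w) := by
    intro w hw
    rcases (measureReal_nonneg (μ := μ) (s := blk n ⁻¹' {w})).eq_or_lt with h | h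
    · linarith [hg w, hg0 w]
    · have : g w < μ.real (blk n ⁻¹' {w}) / 2 := by
        by_contra hge
        exact Finset.mem_compl.1 hw (Finset.mem_filter.2 ⟨Finset.mem_univ w, h, le_of_not_gt hge⟩)
      linarith
  have h1 : ∑ w, μ.real (blk n ⁻¹' {w}) = 1 :=
    FA.KolmogorovSinai.sum_preimage_eq_one (measurable_blk n)
  have h2 := Finset.sum_le_sum hout
  rw [← Finset.mul_sum, Finset.sum_sub_distrib] at h2
  have h3 := Finset.sum_add_sum_compl W fun w => μ.real (blk n ⁻¹' {w})
  have h4 := Finset.sum_add_sum_compl W g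
  have h5 : ∑ w ∈ W, g w ≤ ∑ w ∈ W, μ.real (blk n ⁻¹' {w}) := Finset.sum_le_sum fun w _ => hg w
  linarith

end FA.Ornstein

end
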