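import Fermat.Agent.Ornstein.TowerCode

/-!
# Codes with the blocks of a joining and nearly the entropy

For an ergodic joining of a process with an ergodic process of no larger entropy there is a code of
the first with nearly the blocks of the joining and nearly the entropy of the second.
-/

set_option autoImplicit false

noncomputable section

open MeasureTheory Filter Topology Real
open FA.ShannonMcMillan (word measurable_word)
open FA.KolmogorovSinai (shift entropy rate)

namespace FA.Ornstein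

variable {A B : Type*} [Fintype A] [MeasurableSpace A] [MeasurableSingletonClass A]
  [Fintype B] [MeasurableSpace B] [MeasurableSingletonClass B]

theorem tendsto_nat_mul_exp {c : ℝ} (hc : 0 < c) :
    Tendsto (fun n : ℕ => (n : ℝ) * exp (-((n : ℝ) * c))) atTop (𝓝 0) := by
  have h1 : |exp (-c)| < 1 := by
    rw [abs_of_pos (exp_pos _), exp_lt_one_iff]
    linarith
  refine (tendsto_self_mul_const_pow_of_abs_lt_one h1).congr fun n => ?_
  rw [← exp_nat_mul, mul_neg]

/-- **A code with the blocks of a joining and nearly the entropy.** -/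
theorem exists_copy {μ : Measure (ℤ → A)} [IsProbabilityMeasure μ] (hμ : Ergodic (shift A) μ)
    {ν : Measure (ℤ → B)} [IsProbabilityMeasure ν] (hν : Ergodic (shift B) ν)
    {L : Measure (ℤ → A × B)} (hL : IsJoining μ ν L) (hLe : Ergodic (shift (A × B)) L)
    (hpos : 0 < rate μ (shift A) fun x => x 0)
    (hle : rate ν (shift B) (fun y => y 0) ≤ rate μ (shift A) fun x => x 0) {η : ℝ} (hη : 0 < η)
    {m : ℕ} (hm : 0 < m) :
    ∃ φ : (ℤ → A) → B, Measurable φ ∧
      (∀ u, |μ.real (graphS φ ⁻¹' (blk m ⁻¹' {u})) - L.real (blk m ⁻¹' {u})| ≤ η) ∧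
      rate ν (shift B) (fun y => y 0) - η ≤ rate μ (shift A) φ := by
  classical
  have := hL.isProb
  have hB : Nonempty B := by
    obtain ⟨y⟩ := nonempty_of_isProbabilityMeasure ν
    exact ⟨y 0⟩
  set h := rate μ (shift A) fun x => x 0
  set H := rate ν (shift B) fun y => y 0
  have hH0 : 0 ≤ H :=
    FA.KolmogorovSinai.rate_nonneg hν.toMeasurePreserving (measurable_pi_apply 0)
  obtain ⟨δ₀, hδ₀, hsmall⟩ := exists_binary_small (show 0 < η / 8 by positivity)
  set δ := min (η / 16) (h / 2)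
  have hδ : 0 < δ := by positivity
  have hδη : δ ≤ η / 16 := min_le_left _ _
  have hδh : δ ≤ h / 2 := min_le_right _ _
  have hlogA : 0 ≤ log (Fintype.card A) := log_natCast_nonneg _
  set θ := min (min δ₀ (η / (8 * (log (Fintype.card A) + 1)))) (η / 4)
  have hθ : 0 < θ := by positivity
  set ε := min (θ / 4) (1 / 4)
  have hε : 0 < ε := by positivity
  set N : ℝ := (Fintype.card (Fin m → A × B) : ℝ)
  have hN : 0 ≤ N := Nat.cast_nonneg _
  set e₀ := ε / (3 * (N + 1))
  have he₀ : 0 < e₀ := by positivity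
  have hI1 := eventually_info hμ hδ (show 0 < ε / 3 by positivity)
  have hI2 := eventually_info hν hδ (show 0 < ε / 3 by positivity)
  have hI3 := eventually_all.2 fun u : Fin m → A × B =>
    eventually_occ hLe m u (show 0 < η / 4 by positivity) he₀
  have hI4 := (tendsto_nat_mul_exp (c := h - δ) (by linarith)).eventually_lt_const
    (show 0 < θ / 2 by positivity)
  have hI5 : ∀ᶠ n : ℕ in atTop, ((m : ℝ) / n ≤ η / 4) ∧ (1 / (n : ℝ) ≤ δ₀) ∧
      (log 4 / n ≤ η / 8) := by
    have h1 : ∀ a b : ℝ, 0 < b → ∀ᶠ n : ℕ in atTop, a / n ≤ b := fun a b hb =>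
      ((tendsto_const_nhds (x := a)).div_atTop tendsto_natCast_atTop_atTop).eventually_le_const hb
    exact (h1 _ _ (by positivity)).and ((h1 _ _ hδ₀).and (h1 _ _ (by positivity)))
  obtain ⟨n, hn1, hn2, hn3, hn4, ⟨hn5, hn6, hn7⟩, hnm⟩ :=
    (hI1.and (hI2.and (hI3.and (hI4.and (hI5.and (eventually_ge_atTop m)))))).exists
  have hn : (0 : ℝ) < n := Nat.cast_pos.2 (by omega)
  have hnpos : 0 < n := by omega
  let good : (Fin n → A × B) → Prop := fun p =>
    |-log (μ.real (blk n ⁻¹' {fun j => (p j).1})) / n - h| < δ ∧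
    |-log (ν.real (blk n ⁻¹' {fun j => (p j).2})) / n - H| < δ ∧
    ∀ u : Fin m → A × B, |(occ p u : ℝ) / n - L.real (blk m ⁻¹' {u})| < η / 4
  have hmass : 1 - ε ≤ L.real (blk n ⁻¹' {p | good p}) := by
    set bad₁ : Set (ℤ → A) :=
      {x | δ ≤ |-log (μ.real (blk n ⁻¹' {blk n x})) / n - h|}
    set bad₂ : Set (ℤ → B) :=
      {y | δ ≤ |-log (ν.real (blk n ⁻¹' {blk n y})) / n - H|}
    have hb1 : MeasurableSet bad₁ := measurable_blk n (Set.toFinite
      {w : Fin n → A | δ ≤ |-log (μ.real (blk n ⁻¹' {w})) / n - h|}).measurableSet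
    have hb2 : MeasurableSet bad₂ := measurable_blk n (Set.toFinite
      {w : Fin n → B | δ ≤ |-log (ν.real (blk n ⁻¹' {w})) / n - H|}).measurableSet
    have hg : MeasurableSet (blk n ⁻¹' {p | good p} : Set (ℤ → A × B)) :=
      measurable_blk n (Set.toFinite _).measurableSet
    have hcompl : L.real (blk n ⁻¹' {p | good p})ᶜ ≤ ε / 3 + ε / 3 + N * e₀ := by
      refine (measureReal_mono (s₂ := fstS ⁻¹' bad₁ ∪ sndS ⁻¹' bad₂ ∪ ⋃ u : Fin m → A × B,
        {z | η / 4 ≤ |(occ (blk n z) u : ℝ) / n - L.real (blk m ⁻¹' {u})|}) fun z hz => ?_).trans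
        ((measureReal_union_le _ _).trans (add_le_add ((measureReal_union_le _ _).trans
          (add_le_add ((hL.real_fst hb1).trans_le hn1.le) ((hL.real_snd hb2).trans_le hn2.le))) ?_))
      · by_contra hc
        simp only [Set.mem_union, Set.mem_preimage, Set.mem_iUnion, Set.mem_ofPred_eq, not_or,
          not_exists, not_le, bad₁, bad₂] at hc
        exact hz ⟨hc.1.1, hc.1.2, hc.2⟩
      · refine (measureReal_iUnion_fintype_le _).trans ((Finset.sum_le_sum fun u _ =>
          (hn3 u).le).trans_eq ?_)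
        rw [Finset.sum_const, Finset.card_univ, nsmul_eq_mul]
    rw [probReal_compl_eq_one_sub hg] at hcompl
    have : N * e₀ ≤ ε / 3 := by
      simp only [e₀]
      rw [← mul_div_assoc, div_le_div_iff₀ (by positivity) (by norm_num)]
      nlinarith
    linarith
  set K := ⌈2 * exp (n * (h - H + 2 * δ))⌉₊ with hKdef
  set lo := exp (-(n * (h + δ)))
  set hi := exp (-(n * (H - δ)))
  have hratio : hi = exp (n * (h - H + 2 * δ)) * lo := by
    show exp (-(n * (H - δ))) = exp (n * (h - H + 2 * δ)) * exp (-(n * (h + δ)))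
    rw [← exp_add]
    congr 1
    ring
  have hμw : ∀ p, good p → 0 < μ.real (blk n ⁻¹' {fun j => (p j).1}) := fun p hp => by
    refine measureReal_nonneg.lt_of_ne fun h0 => ?_
    have := hp.1
    rw [← h0, log_zero, neg_zero, zero_div, zero_sub, abs_neg, abs_of_pos hpos] at this
    linarith
  have hgw : ∀ p, good p → lo ≤ μ.real (blk n ⁻¹' {fun j => (p j).1}) := fun p hp => by
    have h1 := (abs_lt.1 hp.1).2
    rw [sub_lt_iff_lt_add, div_lt_iff₀ hn] at h1
    refine (exp_le_exp.2 ?_).trans_eq (exp_log (hμw p hp))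
    linarith
  have hgv : ∀ p, good p → ν.real (blk n ⁻¹' {fun j => (p j).2}) ≤ hi := fun p hp => by
    rcases (measureReal_nonneg (μ := ν) (s := blk n ⁻¹' {fun j => (p j).2})).eq_or_lt with
      h0 | h0
    · exact h0 ▸ (exp_pos _).le
    have h1 := (abs_lt.1 hp.2.1).1
    rw [lt_sub_iff_add_lt, lt_div_iff₀ hn] at h1
    refine (exp_log h0).symm.trans_le (exp_le_exp.2 ?_)
    linarith
  obtain ⟨W, f, hf, hfg, hW⟩ := exists_match hL n good (exp_pos _) K (lo := lo) (hi := hi) (by
    rw [hratio, ← mul_assoc]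
    exact mul_le_mul_of_nonneg_right (Nat.le_ceil _) (exp_pos _).le) hgw hgv hmass
  have hWpos : 0 < μ.real (blk n ⁻¹' (W : Set (Fin n → A))) := by
    linarith [min_le_right (θ / 4) (1 / 4 : ℝ)]
  obtain ⟨w₀, hw₀⟩ : W.Nonempty := by
    by_contra hne
    rw [Finset.not_nonempty_iff_eq_empty.1 hne, Finset.coe_empty, Set.preimage_empty,
      measureReal_empty] at hWpos
    exact lt_irrefl _ hWpos
  set F : Set (ℤ → A) := blk n ⁻¹' {w₀}
  have hgood₀ := hfg ⟨w₀, hw₀⟩
  have hF0 : 0 < μ.real F := hμw _ hgood₀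
  have hFsmall : (n : ℝ) * μ.real F ≤ θ / 2 := by
    refine le_trans (mul_le_mul_of_nonneg_left ?_ n.cast_nonneg) hn4.le
    have h1 := (abs_lt.1 hgood₀.1).1
    rw [lt_sub_iff_add_lt, lt_div_iff₀ hn] at h1
    refine (exp_log hF0).symm.trans_le (exp_le_exp.2 ?_)
    show log (μ.real (blk n ⁻¹' {fun j => (zipW w₀ (f ⟨w₀, hw₀⟩).1 j).1})) ≤ _
    linarith
  obtain ⟨S, hSm, hSG, hdis, hfill⟩ := exists_tower hμ hnpos
    (measurable_blk n (measurableSet_singleton w₀))
    (measurable_blk n W.finite_toSet.measurableSet) (ENNReal.toReal_pos_iff.1 hF0).1.ne'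
  rw [probReal_compl_eq_one_sub (measurable_blk n W.finite_toSet.measurableSet)] at hfill
  have hu : 1 - n * μ.real S ≤ θ := by linarith [min_le_left (θ / 4) (1 / 4 : ℝ)]
  have hp1 : (n : ℝ) * μ.real S ≤ 1 := tower_mul_le_one hμ.toMeasurePreserving hSm hdis
  set b₀ := Classical.arbitrary B
  let ψ : (Fin n → A) → Fin n → B := fun w => if hw : w ∈ W then (f ⟨w, hw⟩).1 else fun _ => b₀
  have hψ : ∀ w : W, ψ w = (f w).1 := fun w => dif_pos w.2
  refine ⟨towerCode S ψ b₀, measurable_towerCode hSm ψ b₀, fun u => ?_, ?_⟩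
  · refine (towerCode_blk hμ.toMeasurePreserving hSm hdis hSG ψ b₀ hm hnm u hu
      ⟨measureReal_nonneg, measureReal_le_one⟩ (by positivity) fun w hw =>
        ((show ψ w = (f ⟨w, hw⟩).1 from hψ ⟨w, hw⟩) ▸ hfg ⟨w, hw⟩ : good (zipW w (ψ w))).2.2 u
          |>.le).trans ?_
    linarith [min_le_right (min δ₀ (η / (8 * (log (Fintype.card A) + 1)))) (η / 4)]
  have hrate := rate_le_towerCode hμ.toMeasurePreserving hSm hdis hnpos hSG f hf ψ hψ b₀
  have hp0 : 0 ≤ μ.real S := measureReal_nonneg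
  have hp : μ.real S ≤ 1 / n := by
    rw [le_div_iff₀ hn]
    linarith
  have hb1 := hsmall _ hp0 (hp.trans hn6)
  have hb2 := hsmall (1 - n * μ.real S) (by linarith) (hu.trans
    ((min_le_left _ _).trans (min_le_left _ _)))
  have hK1 : μ.real S * log K ≤ log 4 / n + (h - H + 2 * δ) := by
    have hx : 1 ≤ exp ((n : ℝ) * (h - H + 2 * δ)) := one_le_exp (by nlinarith)
    have hK0 : (0 : ℝ) < K := Nat.cast_pos.2 (Nat.ceil_pos.2 (by positivity))
    have hK4 : (K : ℝ) ≤ 4 * exp ((n : ℝ) * (h - H + 2 * δ)) := by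
      linarith [Nat.ceil_lt_add_one (show (0 : ℝ) ≤ 2 * exp ((n : ℝ) * (h - H + 2 * δ)) by
        positivity)]
    have hlog : log K ≤ log 4 + n * (h - H + 2 * δ) := by
      refine (log_le_log hK0 hK4).trans_eq ?_
      rw [log_mul (by norm_num) (exp_pos _).ne', log_exp]
    refine (mul_le_mul hp hlog (log_natCast_nonneg _) (by positivity)).trans_eq ?_
    field_simp
  have hK2 : (1 - n * μ.real S) * log (Fintype.card A) ≤ η / 8 := by
    refine (mul_le_mul_of_nonneg_right (hu.trans ((min_le_left _ _).trans (min_le_right _ _)))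
      hlogA).trans ?_
    rw [div_mul_eq_mul_div, div_le_iff₀ (by positivity)]
    nlinarith
  linarith

end FA.Ornstein

end
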