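import Fermat.Agent.Ornstein.Bernoulli

/-!
# Coupling the blocks of a process with independent blocks

Letter by letter, the conditional law of a process given its past is coupled as well as possible
with `q`. The expected number of disagreements is controlled by the law of one letter and by the
gap between the entropy of one letter and the entropy rate.
-/

set_option autoImplicit false

noncomputable section

open MeasureTheory Filter Topology Real
open FA.ShannonMcMillan (word measurable_word)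
open FA.KolmogorovSinai (shift entropy rate)

namespace FA.Ornstein

variable {B : Type*} [Fintype B]

/-- A coupling of two distributions with the fewest disagreements. -/
def maxCoupling [DecidableEq B] (r q : B → ℝ) (b c : B) : ℝ :=
  (if b = c then min (r b) (q b) else 0) +
    (r b - min (r b) (q b)) * (q c - min (r c) (q c)) / (1 - ∑ a, min (r a) (q a))

section Coupling

variable [DecidableEq B] {r q : B → ℝ} (hr : ∀ b, 0 ≤ r b) (hq : ∀ b, 0 ≤ q b)
  (hr1 : ∑ b, r b = 1) (hq1 : ∑ b, q b = 1)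

include hr hq hr1 in
theorem maxCoupling_nonneg (b c : B) : 0 ≤ maxCoupling r q b c := by
  refine add_nonneg (by split_ifs <;> simp [hr b, hq b]) (div_nonneg
    (mul_nonneg (sub_nonneg.2 (min_le_left _ _)) (sub_nonneg.2 (min_le_right _ _))) ?_)
  rw [sub_nonneg, ← hr1]
  exact Finset.sum_le_sum fun _ _ => min_le_left _ _

include hr1 hq1 in
theorem maxCoupling_sum_right (b : B) : ∑ c, maxCoupling r q b c = r b := by
  simp only [maxCoupling, Finset.sum_add_distrib, Finset.sum_ite_eq, Finset.mem_univ, if_true,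
    ← Finset.sum_div, ← Finset.mul_sum, Finset.sum_sub_distrib, hq1]
  rw [mul_div_cancel_of_imp fun h => ?_, add_sub_cancel]
  have h' : ∑ a, (r a - min (r a) (q a)) = 0 := by
    rw [Finset.sum_sub_distrib, hr1]
    linarith
  exact (Finset.sum_eq_zero_iff_of_nonneg fun a _ => sub_nonneg.2 (min_le_left _ _)).1 h' b
    (Finset.mem_univ b)

include hr1 hq1 in
theorem maxCoupling_sum_left (c : B) : ∑ b, maxCoupling r q b c = q c := by
  simp only [maxCoupling, Finset.sum_add_distrib, Finset.sum_ite_eq', Finset.mem_univ, if_true,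
    ← Finset.sum_div, ← Finset.sum_mul, Finset.sum_sub_distrib, hr1]
  rw [mul_comm, mul_div_cancel_of_imp fun h => ?_, add_sub_cancel]
  have h' : ∑ a, (q a - min (r a) (q a)) = 0 := by
    rw [Finset.sum_sub_distrib, hq1]
    linarith
  exact (Finset.sum_eq_zero_iff_of_nonneg fun a _ => sub_nonneg.2 (min_le_right _ _)).1 h' c
    (Finset.mem_univ c)

include hr1 hq1 in
theorem maxCoupling_ne_le :
    ∑ b, ∑ c, maxCoupling r q b c * (if b ≠ c then 1 else 0) ≤ ∑ b, |r b - q b| := by
  refine Finset.sum_le_sum fun b _ => ?_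
  have e : ∀ c, maxCoupling r q b c * (if b ≠ c then 1 else 0) =
      maxCoupling r q b c - if c = b then maxCoupling r q b b else 0 := fun c => by
    by_cases h : b = c
    · subst h; simp
    · simp [h, Ne.symm h]
  simp only [e, Finset.sum_sub_distrib, maxCoupling_sum_right hr1 hq1, Finset.sum_ite_eq',
    Finset.mem_univ, if_true]
  have h0 : min (r b) (q b) ≤ maxCoupling r q b b := by
    rw [maxCoupling, if_pos rfl]
    refine le_add_of_nonneg_right (div_nonneg
      (mul_nonneg (sub_nonneg.2 (min_le_left _ _)) (sub_nonneg.2 (min_le_right _ _))) ?_)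
    rw [sub_nonneg, ← hr1]
    exact Finset.sum_le_sum fun _ _ => min_le_left _ _
  rcases min_cases (r b) (q b) with ⟨h, -⟩ | ⟨h, -⟩ <;> rw [h] at h0 <;>
    linarith [le_abs_self (r b - q b), abs_nonneg (r b - q b)]

end Coupling

/-- The entropy function lies below its tangents, by at least a square. -/
theorem negMulLog_le_tangent {r m : ℝ} (hr : r ∈ Set.Icc 0 1) (hm : m ∈ Set.Icc 0 1)
    (h : m = 0 → r = 0) : negMulLog r ≤ -r * log m + m - r - (r - m) ^ 2 / 4 := by
  rcases hr.1.eq_or_lt with hr0 | hr0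
  · subst hr0
    simp only [negMulLog_zero, neg_zero, zero_mul, zero_add, zero_sub, sub_zero]
    nlinarith [hm.1, hm.2]
  have hm0 : 0 < m := hm.1.lt_of_ne fun hm' => hr0.ne' (h hm'.symm)
  have h1 := log_le_sub_one_of_pos (div_pos (sqrt_pos.2 hm0) (sqrt_pos.2 hr0))
  rw [log_div (sqrt_pos.2 hm0).ne' (sqrt_pos.2 hr0).ne', log_sqrt hm.1, log_sqrt hr.1] at h1
  have hs := mul_self_sqrt hr.1
  have ht := mul_self_sqrt hm.1
  have h2 : r * (log m / 2 - log r / 2) ≤ sqrt m * sqrt r - r := by
    refine (mul_le_mul_of_nonneg_left h1 hr.1).trans (le_of_eq ?_)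
    rw [mul_sub, mul_one, ← mul_div_assoc, mul_div_right_comm, div_sqrt, mul_comm]
  have h3 : (sqrt r + sqrt m) ^ 2 ≤ 4 := by
    nlinarith [sqrt_le_one.2 hr.2, sqrt_le_one.2 hm.2, sqrt_nonneg r, sqrt_nonneg m]
  have h4 : (r - m) ^ 2 = (sqrt r - sqrt m) ^ 2 * (sqrt r + sqrt m) ^ 2 := by
    rw [← mul_pow, mul_comm, ← sq_sub_sq, sq_sqrt hr.1, sq_sqrt hm.1]
  have h5 := mul_le_mul_of_nonneg_left h3 (sq_nonneg (sqrt r - sqrt m))
  rw [negMulLog]
  nlinarith

/-- Distributions with little divergence from given ones are near them on average. -/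
theorem sum_abs_sub_le {ι : Type*} [Fintype ι] (W : ι → ℝ) (r m : ι → B → ℝ) (hW : ∀ i, 0 ≤ W i)
    (hW1 : ∑ i, W i = 1) (hr : ∀ i b, 0 ≤ r i b) (hr1 : ∀ i, ∑ b, r i b = 1)
    (hm : ∀ i b, 0 ≤ m i b) (hm1 : ∀ i, ∑ b, m i b = 1)
    (h0 : ∀ i b, 0 < W i → m i b = 0 → r i b = 0) {s : ℝ} (hs : 0 < s) :
    ∑ i, W i * ∑ b, |r i b - m i b| ≤ Fintype.card B * s +
      (∑ i, W i * ∑ b, -r i b * log (m i b) - ∑ i, W i * ∑ b, negMulLog (r i b)) / s := by
  have h01 : ∀ (t : ι → B → ℝ), (∀ i b, 0 ≤ t i b) → (∀ i, ∑ b, t i b = 1) → ∀ i b,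
      t i b ∈ Set.Icc (0 : ℝ) 1 := fun t ht ht1 i b => ⟨ht i b, ht1 i ▸
    Finset.single_le_sum (f := t i) (fun c _ => ht i c) (Finset.mem_univ b)⟩
  have key : ∀ i, W i * ∑ b, |r i b - m i b| ≤ W i * (Fintype.card B * s +
      (∑ b, -r i b * log (m i b) - ∑ b, negMulLog (r i b)) / s) := fun i => by
    rcases (hW i).eq_or_lt with h | h
    · rw [← h, zero_mul, zero_mul]
    refine mul_le_mul_of_nonneg_left ?_ h.le
    have hsq : ∑ b, (r i b - m i b) ^ 2 / 4 ≤
        ∑ b, -r i b * log (m i b) - ∑ b, negMulLog (r i b) := by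
      have h1 := Finset.sum_le_sum fun b (_ : b ∈ Finset.univ) =>
        negMulLog_le_tangent (h01 r hr hr1 i b) (h01 m hm hm1 i b) (h0 i b h)
      simp only [Finset.sum_sub_distrib, Finset.sum_add_distrib, hr1, hm1] at h1
      linarith
    have hAM : ∀ x : ℝ, |x| ≤ s + x ^ 2 / 4 / s := fun x => by
      have hx : |x| * s ≤ s * s + x ^ 2 / 4 := by nlinarith [sq_nonneg (|x| - 2 * s), sq_abs x]
      rw [add_div' _ _ _ hs.ne', le_div_iff₀ hs]
      exact hx
    refine (Finset.sum_le_sum fun b _ => hAM (r i b - m i b)).trans ?_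
    rw [Finset.sum_add_distrib, Finset.sum_const, Finset.card_univ, nsmul_eq_mul, ← Finset.sum_div]
    gcongr
  refine (Finset.sum_le_sum fun i _ => key i).trans (le_of_eq ?_)
  simp only [mul_add, Finset.sum_add_distrib, ← Finset.sum_mul, hW1, one_mul, mul_div_assoc',
    ← Finset.sum_div, mul_sub, Finset.sum_sub_distrib]

variable [MeasurableSpace B] [MeasurableSingletonClass B] (μ : Measure (ℤ → B))
  [IsProbabilityMeasure μ] (q : Measure B) [IsProbabilityMeasure q]

/-- The law of the next letter given a block. -/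
def cnd (n : ℕ) (w : Fin n → B) (b : B) : ℝ :=
  if μ.real (blk n ⁻¹' {w}) = 0 then q.real {b}
  else μ.real (blk (n + 1) ⁻¹' {Fin.snoc w b}) / μ.real (blk n ⁻¹' {w})

theorem sum_blk_snoc (n : ℕ) (w : Fin n → B) :
    ∑ b, μ.real (blk (n + 1) ⁻¹' {Fin.snoc w b}) = μ.real (blk n ⁻¹' {w}) := by
  classical
  have hinj : ∀ b b' : B, (Fin.snoc w b : Fin (n + 1) → B) = Fin.snoc w b' → b = b' :=
    fun b b' h => by simpa using congrFun h (Fin.last n)
  rw [← Finset.sum_image (g := fun b => (Fin.snoc w b : Fin (n + 1) → B))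
    (f := fun v => μ.real (blk (n + 1) ⁻¹' {v})) fun b _ b' _ h => hinj b b' h,
    sum_measureReal_preimage_singleton _ fun v _ => measurable_blk _ (measurableSet_singleton v)]
  congr 1
  ext x
  simp only [Finset.coe_image, Finset.coe_univ, Set.image_univ, Set.mem_preimage, Set.mem_range,
    Set.mem_singleton_iff]
  refine ⟨fun ⟨b, hb⟩ => funext fun j => ?_, fun h => ⟨x n, funext fun j => ?_⟩⟩
  · simpa [blk] using (congrFun hb j.castSucc).symm
  · refine Fin.lastCases ?_ (fun i => ?_) j
    · simp [blk]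
    · simp [← h, blk]

omit [IsProbabilityMeasure q] in
theorem blk_snoc_eq (n : ℕ) (w : Fin n → B) (b : B) :
    μ.real (blk (n + 1) ⁻¹' {Fin.snoc w b}) = μ.real (blk n ⁻¹' {w}) * cnd μ q n w b := by
  unfold cnd
  split_ifs with h
  · rw [h, zero_mul]
    exact le_antisymm (h ▸ sum_blk_snoc μ n w ▸ Finset.single_le_sum
      (f := fun b => μ.real (blk (n + 1) ⁻¹' {Fin.snoc w b})) (fun _ _ => measureReal_nonneg)
      (Finset.mem_univ b)) measureReal_nonneg
  · rw [mul_div_cancel₀ _ h]

omit [IsProbabilityMeasure μ] [IsProbabilityMeasure q] [Fintype B] [MeasurableSingletonClass B] in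
theorem cnd_nonneg (n : ℕ) (w : Fin n → B) (b : B) : 0 ≤ cnd μ q n w b := by
  unfold cnd
  split_ifs
  · exact measureReal_nonneg
  · exact div_nonneg measureReal_nonneg measureReal_nonneg

theorem sum_cnd (n : ℕ) (w : Fin n → B) : ∑ b, cnd μ q n w b = 1 := by
  unfold cnd
  split_ifs with h
  · simp
  · rw [← Finset.sum_div, sum_blk_snoc, div_self h]

theorem sum_blk (n : ℕ) : ∑ w : Fin n → B, μ.real (blk n ⁻¹' {w}) = 1 :=
  FA.KolmogorovSinai.sum_preimage_eq_one (measurable_blk n)

/-- **The chain rule.** -/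
theorem entropy_blk_succ (n : ℕ) :
    entropy μ (blk (n + 1)) = entropy μ (blk n) +
      ∑ w : Fin n → B, μ.real (blk n ⁻¹' {w}) * ∑ b, negMulLog (cnd μ q n w b) := by
  have e : ∀ w b, negMulLog (μ.real (blk (n + 1) ⁻¹' {Fin.snoc w b})) =
      cnd μ q n w b * negMulLog (μ.real (blk n ⁻¹' {w})) +
        μ.real (blk n ⁻¹' {w}) * negMulLog (cnd μ q n w b) := fun w b => by
    rw [blk_snoc_eq μ q, negMulLog_mul]
  unfold entropy
  rw [← (Fin.snocEquiv fun _ => B).sum_comp, Fintype.sum_prod_type_right]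
  simp only [Fin.snocEquiv, Equiv.coe_fn_mk, e, Finset.sum_add_distrib, ← Finset.sum_mul,
    ← Finset.mul_sum, sum_cnd, one_mul]

omit [IsProbabilityMeasure q] in
theorem sum_blk_mul_cnd (hμ : MeasurePreserving (shift B) μ μ) (n : ℕ) (b : B) :
    ∑ w : Fin n → B, μ.real (blk n ⁻¹' {w}) * cnd μ q n w b = μ.real {x | x 0 = b} := by
  classical
  simp only [← blk_snoc_eq]
  have hinj : ∀ w w' : Fin n → B, (Fin.snoc w b : Fin (n + 1) → B) = Fin.snoc w' b → w = w' :=
    fun w w' h => funext fun j => by simpa using congrFun h j.castSucc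
  rw [← Finset.sum_image (g := fun w => (Fin.snoc w b : Fin (n + 1) → B))
    (f := fun v => μ.real (blk (n + 1) ⁻¹' {v})) fun w _ w' _ h => hinj w w' h,
    sum_measureReal_preimage_singleton _ fun v _ => measurable_blk _ (measurableSet_singleton v)]
  rw [measureReal_def, measureReal_def, ← (mp_tr hμ n).measure_preimage (s := {x | x 0 = b})
    (show MeasurableSet {x : ℤ → B | x 0 = b} from
      measurableSet_eq_fun (measurable_pi_apply 0) measurable_const).nullMeasurableSet]
  congr 2
  ext x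
  simp only [Finset.coe_image, Finset.coe_univ, Set.image_univ, Set.mem_preimage, Set.mem_range,
    Set.mem_ofPred_eq]
  refine ⟨fun ⟨w, hw⟩ => ?_, fun h => ⟨blk n x, funext fun j => ?_⟩⟩
  · simpa [blk, tr] using (congrFun hw (Fin.last n)).symm
  · refine Fin.lastCases ?_ (fun i => ?_) j
    · simpa [blk, tr] using h.symm
    · simp [blk]

/-- The conditional laws are near the law of one letter, as far as the entropy allows. -/
theorem sum_abs_cnd_le (hμ : MeasurePreserving (shift B) μ μ) (n : ℕ) {s : ℝ} (hs : 0 < s) :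
    ∑ w : Fin n → B, μ.real (blk n ⁻¹' {w}) * ∑ b, |cnd μ q n w b - q.real {b}| ≤
      ∑ b, |μ.real {x | x 0 = b} - q.real {b}| + Fintype.card B * s +
        (∑ b, negMulLog (μ.real {x | x 0 = b}) -
          (entropy μ (blk (n + 1)) - entropy μ (blk n))) / s := by
  set m : B → ℝ := fun b => μ.real {x | x 0 = b}
  set P : (Fin n → B) → ℝ := fun w => μ.real (blk n ⁻¹' {w})
  set r := cnd μ q n
  have hP1 : ∑ w, P w = 1 := sum_blk μ n
  have hPr : ∀ b, ∑ w, P w * r w b = m b := fun b => sum_blk_mul_cnd μ q hμ n b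
  have h1 := sum_abs_sub_le P r (fun _ => m) (fun _ => measureReal_nonneg) hP1
    (cnd_nonneg μ q n) (sum_cnd μ q n) (fun _ _ => measureReal_nonneg)
    (fun _ => FA.KolmogorovSinai.sum_preimage_eq_one (measurable_pi_apply (0 : ℤ)))
    (fun w b hw hb => by
      have h0 := (Finset.sum_eq_zero_iff_of_nonneg fun v _ =>
        mul_nonneg measureReal_nonneg (cnd_nonneg μ q n v b)).1 ((hPr b).trans hb) w
          (Finset.mem_univ w)
      exact (mul_eq_zero.1 h0).resolve_left hw.ne') hs
  have h2 : ∑ w, P w * ∑ b, -r w b * log (m b) = ∑ b, negMulLog (m b) := by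
    simp only [Finset.mul_sum, ← mul_assoc, mul_neg]
    rw [Finset.sum_comm]
    simp only [← Finset.sum_mul, Finset.sum_neg_distrib, hPr, negMulLog, neg_mul]
  rw [h2] at h1
  rw [entropy_blk_succ μ q n, add_sub_cancel_left]
  calc ∑ w, P w * ∑ b, |r w b - q.real {b}|
      ≤ ∑ w, P w * (∑ b, |m b - q.real {b}| + ∑ b, |r w b - m b|) := by
        refine Finset.sum_le_sum fun w _ => mul_le_mul_of_nonneg_left ?_ measureReal_nonneg
        rw [← Finset.sum_add_distrib]
        exact Finset.sum_le_sum fun b _ => (abs_sub_le _ (m b) _).trans_eq (add_comm _ _)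
    _ = ∑ b, |m b - q.real {b}| + ∑ w, P w * ∑ b, |r w b - m b| := by
        simp only [mul_add, Finset.sum_add_distrib, ← Finset.sum_mul, hP1, one_mul]
    _ ≤ _ := (add_le_add le_rfl h1).trans_eq (add_assoc _ _ _).symm

/-- The coupling of the blocks of `μ` with independent blocks, letter by letter. -/
def cpl [DecidableEq B] : ∀ n : ℕ, (Fin n → B) → (Fin n → B) → ℝ
  | 0, _, _ => 1
  | n + 1, w, v => cpl n (Fin.init w) (Fin.init v) *
      maxCoupling (cnd μ q n (Fin.init w)) (fun b => q.real {b}) (w (Fin.last n)) (v (Fin.last n))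

/-- The number of disagreements of two blocks. -/
def disagree [DecidableEq B] {n : ℕ} (w v : Fin n → B) : ℝ := ∑ j, if w j ≠ v j then 1 else 0

variable [DecidableEq B]

theorem cpl_nonneg : ∀ (n : ℕ) (w v : Fin n → B), 0 ≤ cpl μ q n w v
  | 0, _, _ => zero_le_one
  | n + 1, _, _ => mul_nonneg (cpl_nonneg n _ _) (maxCoupling_nonneg
      (cnd_nonneg μ q n _) (fun _ => measureReal_nonneg) (sum_cnd μ q n _) _ _)

theorem cpl_sum_right : ∀ (n : ℕ) (w : Fin n → B),
    ∑ v, cpl μ q n w v = μ.real (blk n ⁻¹' {w})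
  | 0, w => by
    simp [cpl, Set.eq_univ_of_forall (s := blk 0 ⁻¹' {w})
      fun x => show blk 0 x ∈ ({w} : Set (Fin 0 → B)) from Subsingleton.elim _ _]
  | n + 1, w => by
    rw [← (Fin.snocEquiv fun _ => B).sum_comp, Fintype.sum_prod_type_right]
    simp only [Fin.snocEquiv, Equiv.coe_fn_mk, cpl, Fin.init_snoc, Fin.snoc_last, ← Finset.mul_sum,
      maxCoupling_sum_right (sum_cnd μ q n _) (show ∑ b, q.real {b} = 1 by simp), ← Finset.sum_mul,
      cpl_sum_right n, ← blk_snoc_eq, Fin.snoc_init_self]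

theorem cpl_sum_left : ∀ (n : ℕ) (v : Fin n → B),
    ∑ w, cpl μ q n w v = ∏ j, q.real {v j}
  | 0, v => by simp [cpl]
  | n + 1, v => by
    rw [← (Fin.snocEquiv fun _ => B).sum_comp, Fintype.sum_prod_type_right]
    simp only [Fin.snocEquiv, Equiv.coe_fn_mk, cpl, Fin.init_snoc, Fin.snoc_last, ← Finset.mul_sum,
      maxCoupling_sum_left (sum_cnd μ q n _) (show ∑ b, q.real {b} = 1 by simp), ← Finset.sum_mul,
      cpl_sum_left n, Fin.prod_univ_castSucc, Fin.init]

theorem cpl_cost_le_sum : ∀ n : ℕ, ∑ w, ∑ v, cpl μ q n w v * disagree w v ≤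
    ∑ i ∈ Finset.range n,
      ∑ w : Fin i → B, μ.real (blk i ⁻¹' {w}) * ∑ b, |cnd μ q i w b - q.real {b}|
  | 0 => by simp [disagree]
  | n + 1 => by
    have hd : ∀ (w v : Fin n → B) (b c : B),
        disagree (Fin.snoc w b : Fin (n + 1) → B) (Fin.snoc v c) =
          disagree w v + if b ≠ c then 1 else 0 := fun w v b c => by
      simp [disagree, Fin.sum_univ_castSucc]
    rw [Finset.sum_range_succ]
    refine le_trans (le_of_eq ?_) (add_le_add (cpl_cost_le_sum n) (Finset.sum_le_sum fun w _ =>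
      mul_le_mul_of_nonneg_left (maxCoupling_ne_le (sum_cnd μ q n w)
        (show ∑ b, q.real {b} = 1 by simp)) measureReal_nonneg))
    simp only [← (Fin.snocEquiv fun _ => B).sum_comp, Fintype.sum_prod_type_right]
    simp only [Fin.snocEquiv, Equiv.coe_fn_mk, cpl, Fin.init_snoc, Fin.snoc_last, hd, mul_add,
      Finset.sum_add_distrib]
    congr 1
    · refine Finset.sum_congr rfl fun w _ => ?_
      rw [Finset.sum_comm]
      refine Finset.sum_congr rfl fun v _ => ?_
      simp only [← Finset.sum_mul, ← Finset.mul_sum,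
        maxCoupling_sum_right (sum_cnd μ q n _) (show ∑ b, q.real {b} = 1 by simp), sum_cnd,
        mul_one]
    · refine Finset.sum_congr rfl fun w _ => ?_
      rw [← cpl_sum_right μ q n w, Finset.mul_sum]
      refine Finset.sum_congr rfl fun b _ => ?_
      simp only [mul_assoc, ← Finset.mul_sum, ← Finset.sum_mul]

omit [DecidableEq B] in
theorem rate_le_entropy_div (hμ : MeasurePreserving (shift B) μ μ) {n : ℕ} (hn : n ≠ 0) :
    rate μ (shift B) (fun x => x 0) ≤ entropy μ (blk n) / n := by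
  have hP : Measurable fun x : ℤ → B => x 0 := measurable_pi_apply 0
  have h : ∀ k : ℕ, entropy μ (word (shift B) (fun x => x 0) (k * n)) ≤ k * entropy μ (blk n) := by
    intro k
    induction k with
    | zero =>
      rw [Nat.zero_mul]
      simpa using FA.KolmogorovSinai.entropy_word_le_mul hμ hP 0
    | succ k ih =>
      rw [Nat.succ_mul]
      refine (FA.KolmogorovSinai.entropy_word_add_le hμ hP _ _).trans ?_
      rw [word_eq_blk n]
      push_cast
      linarith
  refine le_of_tendsto ((FA.KolmogorovSinai.tendsto_rate hμ hP).comp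
    (tendsto_id.atTop_mul_const' (Nat.pos_of_ne_zero hn))) ((eventually_ge_atTop 1).mono fun k hk =>
      ?_)
  have hk0 : (0 : ℝ) < k := Nat.cast_pos.2 hk
  simp only [Function.comp_apply, id]
  push_cast
  rw [← mul_div_mul_left _ (n : ℝ) hk0.ne']
  exact div_le_div_of_nonneg_right (h k) (by positivity)

/-- **A process with nearly the letter law and nearly the entropy of a Bernoulli shift has blocks
near independent ones.** -/
theorem cpl_cost_le (hμ : MeasurePreserving (shift B) μ μ) (n : ℕ) {s : ℝ} (hs : 0 < s) :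
    ∑ w, ∑ v, cpl μ q n w v * disagree w v ≤
      n * (∑ b, |μ.real {x | x 0 = b} - q.real {b}| + Fintype.card B * s +
        (∑ b, negMulLog (μ.real {x | x 0 = b}) - rate μ (shift B) (fun x => x 0)) / s) := by
  refine (cpl_cost_le_sum μ q n).trans
    ((Finset.sum_le_sum fun i _ => sum_abs_cnd_le μ q hμ i hs).trans ?_)
  simp only [Finset.sum_add_distrib, Finset.sum_const, Finset.card_range, nsmul_eq_mul,
    ← Finset.sum_div, Finset.sum_sub_distrib, Finset.sum_range_sub fun i => entropy μ (blk i)]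
  rw [mul_add, mul_add, ← mul_div_assoc]
  gcongr
  rcases Nat.eq_zero_or_pos n with rfl | hn
  · simp
  have h0 : entropy μ (blk 0 : (ℤ → B) → _) = 0 := le_antisymm (by
    simpa [word_eq_blk] using
      FA.KolmogorovSinai.entropy_word_le_mul hμ (measurable_pi_apply (0 : ℤ)) 0)
    (FA.KolmogorovSinai.entropy_nonneg _)
  have := rate_le_entropy_div μ hμ hn.ne'
  rw [le_div_iff₀ (Nat.cast_pos.2 hn)] at this
  rw [h0]
  nlinarith

end FA.Ornstein

end
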