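import Fermat.Agent.Ornstein.FactorBlocks
import Fermat.Agent.Ornstein.Main

/-!
# Factors of finitely determined processes

An image of a finitely determined process under a code is finitely determined: a process near the
image lifts to one near the original. An image of a Bernoulli shift of entropy rate zero is a point,
as nearly independent variables of small entropy have small entropy each. Hence images of Bernoulli
shifts are Bernoulli.
-/

set_option autoImplicit false

noncomputable section

open MeasureTheory Filter Topology Real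
open FA.ShannonMcMillan (word measurable_word)
open FA.KolmogorovSinai (shift entropy rate)

namespace FA.Ornstein

variable {A C : Type*} [Fintype A] [MeasurableSpace A] [MeasurableSingletonClass A]
  [Fintype C] [MeasurableSpace C] [MeasurableSingletonClass C]

omit [Fintype C] [MeasurableSingletonClass C] in
/-- A window of the first letters has at most their rate. -/
theorem rate_win_fst_le (L : Measure (ℤ → A × C)) [IsProbabilityMeasure L]
    (hL : MeasurePreserving (shift (A × C)) L L) (r : ℕ) :
    rate L (shift (A × C)) (fun z => win r (fstS z)) ≤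
      rate L (shift (A × C)) (fun z => (z 0).1) := by
  rw [← FA.KolmogorovSinai.rate_comp_iterate (P := fun z => win r (fstS z)) hL
    ((measurable_win r).comp measurable_fstS) r]
  refine le_of_eq_of_le ?_ (FA.KolmogorovSinai.rate_window_le (P := fun z => (z 0).1) hL
    (measurable_pi_apply 0).fst (2 * r + 1) id)
  congr 1
  funext z j
  simp [word, iterate_shift, win, fstS, tr]

/-- **A factor of a finitely determined process is finitely determined.** -/
theorem FiniteDet.map_code {μ : Measure (ℤ → A)} [IsProbabilityMeasure μ]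
    (hμ : MeasurePreserving (shift A) μ μ) (h : FiniteDet μ) {φ : (ℤ → A) → C}
    (hφ : Measurable φ) : FiniteDet (μ.map (code φ)) := by
  classical
  intro ε hε
  have : Nonempty (ℤ → A) := nonempty_of_isProbabilityMeasure μ
  set c₀ : C := φ (Classical.arbitrary _)
  obtain ⟨r₁, f₁, hf₁⟩ := exists_win_approx μ hφ (show 0 < ε / 4 by positivity)
  set ε₂ := ε / (4 * (2 * r₁ + 1 : ℕ))
  have hε₂ : 0 < ε₂ := by positivity
  obtain ⟨k, η, hη, hFD⟩ := h.exists_joining (A := A × C) hμ hε₂
  obtain ⟨δ, hδ, hsmall⟩ := exists_entropy_small (α := ℤ → A × C) ((false, c₀) : Bool × C)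
    (half_pos hη)
  obtain ⟨r, f, hf⟩ := exists_win_approx μ hφ (half_pos hδ)
  set e := min η (min (δ / 2) (ε / 4)) / 2
  have he : 0 < e := by positivity
  set ν := μ.map (code φ) with hν
  have := Measure.isProbabilityMeasure_map (μ := μ) (measurable_code hφ).aemeasurable
  have hν' : MeasurePreserving (shift C) ν ν := mp_map hμ (measurable_code hφ) (code_tr φ 1)
  set G := μ.map (graphS φ) with hGdef
  have := Measure.isProbabilityMeasure_map (μ := μ) (measurable_graphS hφ).aemeasurable
  have hG : MeasurePreserving (shift (A × C)) G G :=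
    mp_map hμ (measurable_graphS hφ) fun x => graphS_tr φ 1 x
  set l₀ : ℕ := k + (2 * r + 1) + (2 * r₁ + 1)
  have h1 : ∀ᶠ n : ℕ in atTop, entropy ν (blk n) / n < rate ν (shift C) (fun y => y 0) + η / 8 := by
    have := FA.KolmogorovSinai.tendsto_rate hν' (measurable_pi_apply (0 : ℤ))
    simp only [word_eq_blk] at this
    exact this.eventually_lt_const (by linarith)
  have h2 : ∀ᶠ n : ℕ in atTop, (l₀ : ℝ) / n < e :=
    (tendsto_const_nhds.div_atTop tendsto_natCast_atTop_atTop).eventually_lt_const he
  obtain ⟨n, hn0, hnH, hnl⟩ := ((eventually_ge_atTop 1).and (h1.and h2)).exists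
  have : NeZero n := ⟨by omega⟩
  have hn : (0 : ℝ) < n := Nat.cast_pos.2 hn0
  set Hc : (Fin n → C) → ℝ := fun v => ∑ u, negMulLog ((condBlk μ φ n v).real {u})
  have hHc : ∀ v, 0 ≤ Hc v := fun v =>
    Finset.sum_nonneg fun u _ => negMulLog_nonneg measureReal_nonneg measureReal_le_one
  set M := ∑ v, Hc v
  have hM : 0 ≤ M := Finset.sum_nonneg fun v _ => hHc v
  set K : ℝ := (Fintype.card (Fin n → C) : ℝ)
  have hK : 0 ≤ K := Nat.cast_nonneg _
  refine ⟨n, min (e / (K + 1)) (η / (4 * (1 + M))), by positivity, fun ρ _ hρ hblk hr => ?_⟩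
  set η' := min (e / (K + 1)) (η / (4 * (1 + M)))
  have hη'0 : 0 ≤ η' := le_min (by positivity) (by positivity)
  have hη'1 : η' * (K + 1) ≤ e :=
    (mul_le_mul_of_nonneg_right (min_le_left _ _) (by positivity)).trans_eq
      (div_mul_cancel₀ _ (by positivity))
  have hη'2 : η' * (1 + M) ≤ η / 4 := by
    refine (mul_le_mul_of_nonneg_right (min_le_right _ _) (by positivity)).trans_eq ?_
    field_simp
  have hev : ∀ v, ν.real (blk n ⁻¹' {v}) = μ.real (evC φ n v) := fun v => by
    rw [hν, map_measureReal_apply (measurable_code hφ)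
      (measurable_blk n (measurableSet_singleton v))]
    rfl
  have hdist : blkDist μ φ ρ n ≤ e := by
    refine (Finset.sum_le_sum fun v _ => (hev v ▸ hblk v :
      |ρ.real (blk n ⁻¹' {v}) - μ.real (evC φ n v)| ≤ η')).trans ?_
    rw [Finset.sum_const, Finset.card_univ, nsmul_eq_mul, mul_comm]
    exact (mul_le_mul_of_nonneg_left (by linarith) hη'0).trans hη'1
  set L := lift μ φ ρ n with hLdef
  have hL : MeasurePreserving (shift (A × C)) L L := mp_lift μ φ ρ n hρ
  have hclose : ∀ l : ℕ, l ≤ l₀ → ∀ S : Set (Fin l → A × C),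
      |L.real (blk l ⁻¹' S) - G.real (blk l ⁻¹' S)| ≤ 2 * e := fun l hl S => by
    refine (abs_lift_sub_le μ φ ρ n hμ hφ l S).trans ?_
    have : (l : ℝ) / n ≤ (l₀ : ℝ) / n :=
      div_le_div_of_nonneg_right (Nat.cast_le.2 hl) hn.le
    linarith
  have h2e : 2 * e = min η (min (δ / 2) (ε / 4)) := by ring
  have herr : ∀ (r' : ℕ) (f' : (Fin (2 * r' + 1) → A) → C), 2 * r' + 1 ≤ l₀ →
      L.real {z | f' (win r' (fstS z)) ≠ (z 0).2} ≤ μ.real {x | φ x ≠ f' (win r' x)} + 2 * e := by
    intro r' f' hl
    set S : Set (Fin (2 * r' + 1) → A × C) :=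
      {u | f' (fun j => (u j).1) ≠ (u ⟨r', by omega⟩).2}
    have hS : {z : ℤ → A × C | f' (win r' (fstS z)) ≠ (z 0).2} =
        tr (-(r' : ℤ)) ⁻¹' (blk (2 * r' + 1) ⁻¹' S) := by
      ext z
      simp [S, win_eq_blk, blk, tr]
      rfl
    have hmS := measurable_blk (2 * r' + 1) (S.toFinite.measurableSet)
    have hGS : G.real (blk (2 * r' + 1) ⁻¹' S) = μ.real {x | φ x ≠ f' (win r' x)} := by
      rw [← measureReal_tr hG (-(r' : ℤ)) hmS, ← hS, hGdef,
        map_measureReal_apply (measurable_graphS hφ) (hS ▸ measurable_tr _ hmS)]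
      congr 1
      ext x
      simp only [Set.mem_preimage, Set.mem_ofPred_eq, graphS, zipS, code, tr_zero]
      exact ne_comm
    rw [hS, measureReal_tr hL _ hmS, ← hGS]
    linarith [(abs_le.1 (hclose _ hl S)).2]
  -- blocks of the first letters
  have hk : ∀ u, |L.real (code (fun z : ℤ → A × C => (z 0).1) ⁻¹' (blk k ⁻¹' {u})) -
      μ.real (blk k ⁻¹' {u})| ≤ η := fun u => by
    have e1 : code (fun z : ℤ → A × C => (z 0).1) ⁻¹' (blk k ⁻¹' {u}) =
        blk k ⁻¹' {w : Fin k → A × C | (fun j => (w j).1) = u} := by
      ext z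
      simp [blk, code, tr, funext_iff]
    have e2 : G.real (blk k ⁻¹' {w : Fin k → A × C | (fun j => (w j).1) = u}) =
        μ.real (blk k ⁻¹' {u}) := by
      rw [hGdef, map_measureReal_apply (measurable_graphS hφ)
        (measurable_blk k (Set.toFinite _).measurableSet)]
      rfl
    rw [e1, ← e2]
    exact (hclose k (by omega) _).trans (h2e.trans_le (min_le_left _ _))
  -- the rate of the first letters
  set D : (ℤ → A × C) → Bool × C := fun z =>
    if f (win r (fstS z)) = (z 0).2 then (false, c₀) else (true, (z 0).2)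
  have hwin : Measurable fun z : ℤ → A × C => win r (fstS z) :=
    (measurable_win r).comp measurable_fstS
  have hD : Measurable D := Measurable.ite
    (measurableSet_eq_fun ((measurable_of_finite f).comp hwin) (measurable_pi_apply 0).snd)
    measurable_const (measurable_const.prodMk (measurable_pi_apply 0).snd)
  have hDH : entropy L D ≤ η / 2 := by
    refine hsmall L inferInstance D hD (le_trans ?_
      (b := μ.real {x | φ x ≠ f (win r x)} + 2 * e) ?_)
    · refine le_trans (measureReal_mono fun z hz => ?_) (herr r f (by omega))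
      simp only [Set.mem_ofPred_eq, D] at hz ⊢
      exact fun hfz => hz (if_pos hfz)
    · linarith [hf, h2e.trans_le ((min_le_right _ _).trans (min_le_left _ _))]
  have hrate : rate μ (shift A) (fun x => x 0) - η ≤
      rate L (shift (A × C)) fun z => (z 0).1 := by
    have hup : rate L (shift (A × C)) (fun z => z 0) ≤
        rate L (shift (A × C)) (fun z => (z 0).1) + η / 2 := by
      refine le_trans (le_of_eq ?_) ((FA.KolmogorovSinai.rate_le_add hL hwin hD
        fun (w : Fin (2 * r + 1) → A) (d : Bool × C) =>
          ((w ⟨r, by omega⟩, if d.1 then d.2 else f w) : A × C)).trans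
        (add_le_add (rate_win_fst_le L hL r) hDH))
      congr 1
      funext z
      refine Prod.ext (by simp [win, fstS]) ?_
      by_cases hz : f (win r (fstS z)) = (z 0).2 <;> simp [D, hz]
    have hlow := rate_lift_ge μ φ ρ n hρ
    have hcond : ∑ v, μ.real (evC φ n v) * Hc v - η' * M ≤ condEnt μ φ ρ n := by
      rw [Finset.mul_sum, sub_le_iff_le_add, condEnt, ← Finset.sum_add_distrib]
      refine Finset.sum_le_sum fun v _ => ?_
      rw [← add_mul]
      refine mul_le_mul_of_nonneg_right ?_ (hHc v)
      linarith [(abs_le.1 (hblk v)).1, hev v]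
    have hGn : ∑ v, μ.real (evC φ n v) * Hc v = entropy G (blk n) - entropy ν (blk n) := by
      rw [entropy, entropy, ← (Equiv.arrowProdEquivProdArrow (Fin n) (fun _ => A)
        fun _ => C).symm.sum_comp, Fintype.sum_prod_type_right, ← Finset.sum_sub_distrib]
      refine Finset.sum_congr rfl fun v _ => ?_
      simp only [hGdef, graph_blk μ φ n hφ, hev]
      simp [Equiv.arrowProdEquivProdArrow, Hc, negMulLog_mul, Finset.sum_add_distrib,
        ← Finset.sum_mul, ← Finset.mul_sum]
    have hGr : rate μ (shift A) (fun x => x 0) * n ≤ entropy G (blk n) := by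
      have h3 := rate_le_entropy_div G hG (n := n) (NeZero.ne n)
      rw [le_div_iff₀ hn] at h3
      refine le_trans (mul_le_mul_of_nonneg_right ?_ hn.le) h3
      have e3 : graphS φ = code (fun x : ℤ → A => (x 0, φ x)) := by
        funext x i
        simp [graphS, zipS, code, tr]
      rw [hGdef, e3, rate_code μ ((measurable_pi_apply 0).prodMk hφ)]
      exact le_of_eq_of_le rfl (FA.KolmogorovSinai.rate_window_le
        (P := fun x : ℤ → A => (x 0, φ x)) hμ ((measurable_pi_apply 0).prodMk hφ) 1
        fun w => (w 0).1)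
    rw [div_lt_iff₀ hn] at hnH
    have h4 : (condEnt μ φ ρ n) / n ≥
        rate μ (shift A) (fun x => x 0) - rate ν (shift C) (fun y => y 0) - η / 8 - η' * M := by
      rw [ge_iff_le, le_div_iff₀ hn]
      have : η' * M ≤ η' * M * n :=
        le_mul_of_one_le_right (mul_nonneg hη'0 hM) (Nat.one_le_cast.2 hn0)
      linarith
    linarith
  obtain ⟨J, hJ, hJd⟩ := hFD L inferInstance hL (fun z => (z 0).1) (measurable_pi_apply 0).fst
    hk hrate
  have := hJ.isProb
  -- the joining of `ρ` with the factor
  have hF : Measurable fun z : ℤ → (A × C) × A => zipS (sndS (fstS z)) (code φ (sndS z)) :=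
    measurable_zipS (measurable_sndS.comp measurable_fstS)
      ((measurable_code hφ).comp measurable_sndS)
  refine ⟨J.map fun z => zipS (sndS (fstS z)) (code φ (sndS z)),
    ⟨mp_map hJ.mp hF fun z => ?_, ?_, ?_⟩, ?_⟩
  · show zipS (sndS (fstS (tr 1 z))) (code φ (sndS (tr 1 z))) = _
    rw [fstS_tr, sndS_tr, sndS_tr, code_tr]
    rfl
  · rw [Measure.map_map measurable_fstS hF]
    show J.map (sndS ∘ fstS) = ρ
    rw [← Measure.map_map measurable_sndS measurable_fstS, hJ.fst, hLdef, lift_sndS μ φ ρ n hρ]
  · rw [Measure.map_map measurable_sndS hF]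
    show J.map (code φ ∘ sndS) = μ.map (code φ)
    rw [← Measure.map_map (measurable_code hφ) measurable_sndS, hJ.snd]
  · have hne : MeasurableSet {z : ℤ → C × C | (z 0).1 ≠ (z 0).2} :=
      (measurableSet_eq_fun (measurable_pi_apply 0).fst (measurable_pi_apply 0).snd).compl
    have hd0 : MeasurableSet {z : ℤ → (A × C) × A | (fstS z 0).1 ≠ (z 0).2} :=
      (measurableSet_eq_fun ((measurable_pi_apply 0).comp measurable_fstS).fst
        (measurable_pi_apply 0).snd).compl
    have hbad : MeasurableSet {x | φ x ≠ f₁ (win r₁ x)} :=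
      (measurableSet_eq_fun hφ ((measurable_of_finite f₁).comp (measurable_win r₁))).compl
    have hw1 : MeasurableSet {z : ℤ → A × C | f₁ (win r₁ (fstS z)) ≠ (z 0).2} :=
      (measurableSet_eq_fun ((measurable_of_finite f₁).comp
        ((measurable_win r₁).comp measurable_fstS)) (measurable_pi_apply 0).snd).compl
    rw [map_measureReal_apply hF hne]
    refine (measureReal_mono (s₂ := fstS ⁻¹' {z : ℤ → A × C | f₁ (win r₁ (fstS z)) ≠ (z 0).2} ∪
      sndS ⁻¹' {x | φ x ≠ f₁ (win r₁ x)} ∪
      ⋃ i : Fin (2 * r₁ + 1), tr (((i : ℕ) : ℤ) - r₁) ⁻¹'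
        {z : ℤ → (A × C) × A | (fstS z 0).1 ≠ (z 0).2}) fun z hz => ?_).trans ?_
    · simp only [Set.mem_union, Set.mem_preimage, Set.mem_iUnion, Set.mem_ofPred_eq]
      by_contra hcon
      push Not at hcon
      obtain ⟨⟨ha, hb⟩, hc⟩ := hcon
      have hw : win r₁ (fstS (fstS z)) = win r₁ (sndS z) := funext fun i => by
        simpa [win, fstS, sndS, tr] using hc i
      refine hz ?_
      show sndS (fstS z) 0 = φ (tr 0 (sndS z))
      rw [tr_zero, hb, ← hw, ha]
      rfl
    · refine (measureReal_union_le _ _).trans ((add_le_add (measureReal_union_le _ _)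
        ((measureReal_iUnion_fintype_le _).trans (Finset.sum_le_sum fun i _ =>
          ((measureReal_tr hJ.mp _ hd0).trans_le hJd : _ ≤ ε₂)))).trans ?_)
      rw [hJ.real_fst hw1, hJ.real_snd hbad, Finset.sum_const, Finset.card_univ, Fintype.card_fin,
        nsmul_eq_mul]
      have e4 : ((2 * r₁ + 1 : ℕ) : ℝ) * ε₂ = ε / 4 := by
        simp only [ε₂]
        field_simp
      linarith [herr r₁ f₁ (by omega), hf₁,
        h2e.trans_le ((min_le_right _ _).trans (min_le_right _ _))]

/-- The law of consecutive blocks of a Bernoulli process is a product. -/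
theorem map_bk_bern (q : Measure A) [IsProbabilityMeasure q] (m n : ℕ) :
    (bern q).map (bk m n) = Measure.pi fun _ => Measure.pi fun _ => q := by
  refine Measure.ext_of_singleton fun w => ?_
  have e : bk m n ⁻¹' {w} = (blk (m * n) ⁻¹'
      {fun k => w (finProdFinEquiv.symm k).1 (finProdFinEquiv.symm k).2} : Set (ℤ → A)) := by
    ext x
    simp only [Set.mem_preimage, Set.mem_singleton_iff]
    refine ⟨fun h => funext fun k => ?_, fun h => funext fun i => funext fun j => ?_⟩
    · obtain ⟨⟨i, j⟩, rfl⟩ := finProdFinEquiv.surjective k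
      rw [Equiv.symm_apply_apply, ← h]
      simp [bk, blk, finProdFinEquiv, add_comm]
    · have := congrFun h (finProdFinEquiv (i, j))
      rw [Equiv.symm_apply_apply] at this
      rw [← this]
      simp [bk, blk, finProdFinEquiv, add_comm]
  rw [Measure.map_apply (measurable_bk m n) (measurableSet_singleton w), e,
    ← Measure.map_apply (measurable_blk _) (measurableSet_singleton _), map_blk_bern]
  simp only [Measure.pi_singleton]
  rw [← finProdFinEquiv.prod_comp, Fintype.prod_prod_type]
  simp

/-- **A letter of a factor of zero entropy rate of a Bernoulli shift has zero entropy.** -/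
theorem entropy_eq_zero_of_rate_eq_zero (q : Measure A) [IsProbabilityMeasure q]
    {φ : (ℤ → A) → C} (hφ : Measurable φ) (h0 : rate (bern q) (shift A) φ = 0) :
    entropy (bern q) φ = 0 := by
  classical
  refine le_antisymm (le_of_forall_pos_le_add fun ε hε => ?_)
    (FA.KolmogorovSinai.entropy_nonneg _)
  set μ := bern q
  have hμ : MeasurePreserving (shift A) μ μ := mp_bern q
  have : Nonempty (ℤ → A) := nonempty_of_isProbabilityMeasure μ
  set c₀ : C := φ (Classical.arbitrary _)
  obtain ⟨δ, hδ, hsmall⟩ := exists_entropy_small (α := ℤ → A) ((false, c₀) : Bool × C) (half_pos hε)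
  obtain ⟨r, f, hf⟩ := exists_win_approx μ hφ hδ
  set S : (ℤ → A) → ℤ → A := (shift A)^[(2 * r + 1)]
  have hS : MeasurePreserving S μ μ := hμ.iterate (2 * r + 1)
  set W : (ℤ → A) → C := f ∘ blk (2 * r + 1)
  have hW : Measurable W := (measurable_of_finite f).comp (measurable_blk (2 * r + 1))
  set ψ : (ℤ → A) → C := φ ∘ (shift A)^[r]
  have hψ : Measurable ψ := hφ.comp ((shift A).measurable.iterate r)
  set d : C → C → Bool × C := fun a b => if a = b then (false, c₀) else (true, a)
  have hd : ∀ (X Y : (ℤ → A) → C), Measurable X → Measurable Y →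
      μ.real {x | X x ≠ Y x} ≤ δ → entropy μ (fun x => d (X x) (Y x)) ≤ ε / 2 :=
    fun X Y hX hY hxy => hsmall μ inferInstance _
      ((measurable_of_finite fun p : C × C => d p.1 p.2).comp (hX.prodMk hY))
      ((measureReal_mono fun x (hx : d (X x) (Y x) ≠ (false, c₀)) =>
        fun hXY => hx (by simp [d, hXY])).trans hxy)
  have hg : ∀ a b : C, (if (d a b).1 then (d a b).2 else b) = a := fun a b => by
    by_cases hab : a = b <;> simp [d, hab]
  have hne : μ.real {x | ψ x ≠ W x} ≤ δ := by
    refine le_trans (le_of_eq ?_) hf.le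
    have hm : MeasurableSet {x | φ x ≠ f (win r x)} :=
      (measurableSet_eq_fun hφ ((measurable_of_finite f).comp (measurable_win r))).compl
    rw [← measureReal_tr hμ (r : ℤ) hm]
    congr 1
    ext x
    simp [ψ, W, iterate_shift, win_eq_blk, tr_tr, tr_zero]
  have hne' : μ.real {x | W x ≠ ψ x} ≤ δ := by simpa only [ne_comm] using hne
  -- independence
  have hWn : ∀ m : ℕ, entropy μ (word S W m) = m * entropy μ W := fun m => by
    have e : word S W m = (fun u i => f (u i)) ∘ bk m (2 * r + 1) := by
      funext x i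
      show f (blk (2 * r + 1) (((shift A)^[2 * r + 1])^[(i : ℕ)] x)) = _
      rw [← Function.iterate_mul, iterate_shift]
      congr 1
      funext j
      simp [blk, bk, tr, add_comm]
    have hlaw : ∀ w, μ.real (word S W m ⁻¹' {w}) =
        ∏ i, (Measure.pi fun _ : Fin (2 * r + 1) => q).real (f ⁻¹' {w i}) := fun w => by
      rw [e, Set.preimage_comp, ← map_measureReal_apply (measurable_bk m (2 * r + 1))
        (Set.toFinite _).measurableSet, map_bk_bern, show (fun u i => f (u i)) ⁻¹' {w} =
          Set.pi Set.univ fun i : Fin m => f ⁻¹' {w i} by ext u; simp [funext_iff],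
        measureReal_def, Measure.pi_pi, ENNReal.toReal_prod]
      rfl
    have hone : ∀ c, μ.real (W ⁻¹' {c}) =
        (Measure.pi fun _ : Fin (2 * r + 1) => q).real (f ⁻¹' {c}) :=
      fun c => by
        rw [show W ⁻¹' {c} = blk (2 * r + 1) ⁻¹' (f ⁻¹' {c}) from rfl, ← map_measureReal_apply
          (measurable_blk (2 * r + 1)) (Set.toFinite _).measurableSet, map_blk_bern]
    unfold entropy
    simp only [hlaw, ← hone]
    refine (Finset.sum_congr rfl fun w _ => by rw [one_mul]).trans
      ((sum_negMulLog_prod m (fun _ c => μ.real (W ⁻¹' {c}))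
        (fun _ => FA.KolmogorovSinai.sum_preimage_eq_one hW) 1).trans ?_)
    simp [Finset.mul_sum]
  have hrW : rate μ S W = entropy μ W :=
    tendsto_nhds_unique (FA.KolmogorovSinai.tendsto_rate hS hW) (tendsto_const_nhds.congr'
      ((eventually_ge_atTop 1).mono fun m hm => by
        dsimp only
        rw [hWn, mul_div_cancel_left₀ _ (Nat.cast_ne_zero.2 (by omega))]))
  -- the factor along every `(2 * r + 1)`th place
  have hrψ : rate μ S ψ ≤ 0 := by
    have hlim : Tendsto (fun m : ℕ => ((2 * r + 1) : ℝ) *
        (entropy μ (word (shift A) φ (m * (2 * r + 1))) /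
        ((m * (2 * r + 1) : ℕ) : ℝ)) + entropy μ (word (shift A) φ r) / m) atTop (𝓝 0) := by
      simpa [h0] using (((FA.KolmogorovSinai.tendsto_rate hμ hφ).comp
        (tendsto_id.atTop_mul_const' (show 0 < (2 * r + 1) by omega))).const_mul
        ((2 * r + 1) : ℝ)).add
        (tendsto_const_nhds.div_atTop tendsto_natCast_atTop_atTop)
    refine le_of_tendsto_of_tendsto (FA.KolmogorovSinai.tendsto_rate hS hψ) hlim
      ((eventually_ge_atTop 1).mono fun m hm => ?_)
    have hm0 : (0 : ℝ) < m := Nat.cast_pos.2 hm
    have hb : entropy μ (word S ψ m) ≤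
        entropy μ (word (shift A) φ (m * (2 * r + 1))) + entropy μ (word (shift A) φ r) := by
      refine le_trans ?_ (FA.KolmogorovSinai.entropy_word_add_le hμ hφ _ _)
      refine le_of_eq_of_le (congrArg (entropy μ) ?_) (FA.KolmogorovSinai.entropy_comp_le
        (measurable_word (shift A).measurable hφ (m * (2 * r + 1) + r))
        fun u (i : Fin m) => u ⟨(2 * r + 1) * i + r, by
          have : (2 * r + 1) * ((i : ℕ) + 1) ≤ (2 * r + 1) * m := Nat.mul_le_mul_left _ i.2
          rw [Nat.mul_succ] at this
          rw [Nat.mul_comm m (2 * r + 1)]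
          omega⟩)
      funext x i
      simp only [word, S, ψ, Function.comp_apply, ← Function.iterate_mul,
        ← Function.iterate_add_apply, add_comm]
    dsimp only
    push_cast
    rw [mul_div_assoc', mul_comm (m : ℝ) ((2 * r + 1) : ℝ),
      mul_div_mul_left _ _ (by positivity), ← add_div]
    exact div_le_div_of_nonneg_right hb hm0.le
  have hWle : entropy μ W ≤ ε / 2 := by
    rw [← hrW]
    refine le_trans (le_of_eq ?_) ((FA.KolmogorovSinai.rate_le_add hS hψ
      ((measurable_of_finite fun p : C × C => d p.1 p.2).comp (hW.prodMk hψ))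
      fun b (e : Bool × C) => if e.1 then e.2 else b).trans ?_)
    · congr 1
      funext x
      exact (hg _ _).symm
    · have := hd W ψ hW hψ hne'
      simp only [Function.comp_def] at this ⊢
      linarith
  have hψle : entropy μ ψ ≤ ε := by
    have hD := (measurable_of_finite fun p : C × C => d p.1 p.2).comp (hψ.prodMk hW)
    refine le_trans (le_of_eq_of_le (congrArg (entropy μ) ?_) (FA.KolmogorovSinai.entropy_comp_le
      (hW.prodMk hD) fun p : C × Bool × C => if p.2.1 then p.2.2 else p.1))
      ((FA.KolmogorovSinai.entropy_pair_le hW hD).trans ?_)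
    · funext x
      exact (hg _ _).symm
    · have := hd ψ W hψ hW hne
      simp only [Function.comp_def] at this ⊢
      linarith
  rw [zero_add, ← FA.KolmogorovSinai.entropy_map (hμ.iterate r) hφ]
  exact hψle

/-- **A factor of zero entropy rate of a Bernoulli shift is a point.** -/
theorem exists_dirac_factor (q : Measure A) [IsProbabilityMeasure q] {φ : (ℤ → A) → C}
    (hφ : Measurable φ) (h0 : rate ((bern q).map (code φ)) (shift C) (fun y => y 0) = 0) :
    ∃ c, (bern q).map (code φ) = bern (Measure.dirac c) := by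
  rw [rate_code _ hφ] at h0
  have h := entropy_eq_zero_of_rate_eq_zero q hφ h0
  have := Measure.isProbabilityMeasure_map (μ := bern q) hφ.aemeasurable
  obtain ⟨c, hc⟩ := exists_dirac (q := (bern q).map φ) (le_of_eq (by
    rw [← h]
    exact Finset.sum_congr rfl fun b _ => congrArg negMulLog
      (map_measureReal_apply hφ (measurableSet_singleton b))))
  refine ⟨c, ?_⟩
  have hae : ∀ᵐ x ∂bern q, φ x = c := by
    refine ae_of_ae_map hφ.aemeasurable (p := fun b => b = c) ?_
    rw [hc, ae_dirac_iff (p := fun y => y = c) (measurableSet_singleton c)]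
  have hcode : code φ =ᵐ[bern q] code fun _ : ℤ → A => c := by
    filter_upwards [ae_all_iff.2 fun i : ℤ => (mp_tr (mp_bern q) i).quasiMeasurePreserving.ae hae]
      with x hx
    exact funext hx
  rw [Measure.map_congr hcode, map_code_const]

variable {B : Type*} [Fintype B] [MeasurableSpace B] [MeasurableSingletonClass B]

/-- **A factor of a Bernoulli shift is isomorphic to the Bernoulli shifts of its entropy**, by
codes. -/
theorem exists_iso_factor_bern (q : Measure A) [IsProbabilityMeasure q] {φ : (ℤ → A) → C}
    (hφ : Measurable φ) (s : Measure B) [IsProbabilityMeasure s]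
    (he : ∑ b, negMulLog (s.real {b}) = rate ((bern q).map (code φ)) (shift C) fun y => y 0) :
    ∃ (α : (ℤ → C) → B) (β : (ℤ → B) → C), Measurable α ∧ Measurable β ∧
      ((bern q).map (code φ)).map (code α) = bern s ∧
      (bern s).map (code β) = (bern q).map (code φ) ∧
      (∀ᵐ y ∂(bern q).map (code φ), code β (code α y) = y) ∧
      ∀ᵐ w ∂bern s, code α (code β w) = w := by
  have := Measure.isProbabilityMeasure_map (μ := bern q) (measurable_code hφ).aemeasurable
  set ν := (bern q).map (code φ) with hν
  have hν' : MeasurePreserving (shift C) ν ν :=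
    mp_map (mp_bern q) (measurable_code hφ) (code_tr φ 1)
  rcases (FA.KolmogorovSinai.rate_nonneg hν' (measurable_pi_apply 0)).eq_or_lt with h0 | hpos
  · obtain ⟨c, hc⟩ := exists_dirac_factor q hφ h0.symm
    obtain ⟨b, rfl⟩ := exists_dirac (he.trans h0.symm).le
    rw [hν, hc]
    refine exists_iso_codes (Measure.dirac c) (Measure.dirac b) ?_
    classical
    simp [measureReal_def, Set.indicator_apply, apply_ite]
  · exact exists_iso_finiteDet (ergodic_map (ergodic_bern q) (measurable_code hφ) (code_tr φ 1))
      ((finiteDet_bern q).map_code (mp_bern q) hφ) (ergodic_bern s) (finiteDet_bern s) hpos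
      (by rw [rate_bern, he])

end FA.Ornstein

end
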