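import Fermat.Agent.Ornstein.Copy

/-!
# The code of a tower

Writing the words assigned to the names along a tower gives a code; its blocks are those of the
pairs of words, and the index of the assigned word with the letters outside the tower recovers the
process.
-/

set_option autoImplicit false

noncomputable section

open MeasureTheory Filter Topology Real
open FA.ShannonMcMillan (word measurable_word)
open FA.KolmogorovSinai (shift entropy rate)

namespace FA.Ornstein

variable {A B : Type*} [Fintype A] [MeasurableSpace A] [MeasurableSingletonClass A]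
  [Fintype B] [MeasurableSpace B] [MeasurableSingletonClass B]

open scoped Classical in
/-- The code that writes `ψ` of the name along the tower over `S`, and `b₀` elsewhere. -/
def towerCode {n : ℕ} (S : Set (ℤ → A)) (ψ : (Fin n → A) → Fin n → B) (b₀ : B) (x : ℤ → A) : B :=
  if h : ∃ i : Fin n, tr (-((i : ℕ) : ℤ)) x ∈ S
    then ψ (blk n (tr (-((h.choose : ℕ) : ℤ)) x)) h.choose else b₀

omit [MeasurableSpace A] [Fintype A] [MeasurableSingletonClass A] in
/-- The levels of a tower are disjoint. -/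
theorem tower_unique {n : ℕ} {S : Set (ℤ → A)}
    (hdis : ∀ x ∈ S, ∀ a : ℕ, 0 < a → a < n → tr (a : ℤ) x ∉ S) {x : ℤ → A} {i j : Fin n}
    (hi : tr (-((i : ℕ) : ℤ)) x ∈ S) (hj : tr (-((j : ℕ) : ℤ)) x ∈ S) : i = j := by
  have key : ∀ a b : ℕ, a < b → b < n → tr (-(b : ℤ)) x ∈ S → tr (-(a : ℤ)) x ∉ S :=
    fun a b hab hb hbS haS => hdis _ hbS (b - a) (by omega) (by omega)
      (by rwa [tr_tr, show ((b - a : ℕ) : ℤ) + -(b : ℤ) = -(a : ℤ) by omega])
  rcases lt_trichotomy (i : ℕ) j with h | h | h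
  · exact absurd hi (key _ _ h j.2 hj)
  · exact Fin.ext h
  · exact absurd hj (key _ _ h i.2 hi)

omit [Fintype B] [MeasurableSingletonClass B] in
theorem measurable_towerCode {n : ℕ} {S : Set (ℤ → A)} (hS : MeasurableSet S)
    (ψ : (Fin n → A) → Fin n → B) (b₀ : B) : Measurable (towerCode S ψ b₀) := by
  classical
  have h1 : Measurable fun x : ℤ → A =>
      ((fun i : Fin n => decide (tr (-((i : ℕ) : ℤ)) x ∈ S)),
        fun i : Fin n => blk n (tr (-((i : ℕ) : ℤ)) x)) := by
    refine (measurable_pi_iff.2 fun i => measurable_to_bool ?_).prodMk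
      (measurable_pi_iff.2 fun i => (measurable_blk n).comp (measurable_tr _))
    have e : (fun x : ℤ → A => decide (tr (-((i : ℕ) : ℤ)) x ∈ S)) ⁻¹' {true} =
        tr (-((i : ℕ) : ℤ)) ⁻¹' S := by
      ext x
      simp
    rw [e]
    exact measurable_tr _ hS
  have h2 := (measurable_of_finite fun p : (Fin n → Bool) × (Fin n → Fin n → A) =>
    if h : ∃ i, p.1 i = true then ψ (p.2 h.choose) h.choose else b₀).comp h1
  convert h2 using 1
  funext x
  simp only [Function.comp_apply, towerCode, decide_eq_true_eq]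

omit [MeasurableSpace A] [Fintype A] [MeasurableSingletonClass A] [MeasurableSpace B] [Fintype B]
  [MeasurableSingletonClass B] in
theorem towerCode_apply {n : ℕ} {S : Set (ℤ → A)}
    (hdis : ∀ x ∈ S, ∀ a : ℕ, 0 < a → a < n → tr (a : ℤ) x ∉ S)
    (ψ : (Fin n → A) → Fin n → B) (b₀ : B) {x : ℤ → A} (hx : x ∈ S) (k : Fin n) :
    towerCode S ψ b₀ (tr ((k : ℕ) : ℤ) x) = ψ (blk n x) k := by
  classical
  have hk : tr (-((k : ℕ) : ℤ)) (tr ((k : ℕ) : ℤ) x) = x := by simp [tr_tr, tr_zero]
  have h : ∃ i : Fin n, tr (-((i : ℕ) : ℤ)) (tr ((k : ℕ) : ℤ) x) ∈ S := ⟨k, by rwa [hk]⟩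
  rw [towerCode, dif_pos h]
  have e : h.choose = k := tower_unique hdis h.choose_spec (by rwa [hk])
  rw [e, hk]

theorem measureReal_inter_blk (μ : Measure (ℤ → A)) [IsProbabilityMeasure μ]
    (S : Set (ℤ → A)) {n : ℕ} (P : (Fin n → A) → Prop) [DecidablePred P] :
    μ.real (S ∩ blk n ⁻¹' {w | P w}) =
      ∑ w, if P w then μ.real (S ∩ blk n ⁻¹' {w}) else 0 := by
  have e : ({w | P w} : Set (Fin n → A)) = ↑(Finset.univ.filter P) := by
    ext w
    simp
  rw [← Finset.sum_filter, e, Set.inter_comm, ← measureReal_restrict_apply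
    (measurable_blk n (Finset.measurableSet _)), ← sum_measureReal_preimage_singleton _
    fun w _ => measurable_blk n (measurableSet_singleton w)]
  exact Finset.sum_congr rfl fun w _ => by
    rw [measureReal_restrict_apply (measurable_blk n (measurableSet_singleton w)), Set.inter_comm]

variable {μ : Measure (ℤ → A)} [IsProbabilityMeasure μ]
  (hμ : MeasurePreserving (shift A) μ μ) {n : ℕ} {S : Set (ℤ → A)} (hS : MeasurableSet S)
  (hdis : ∀ x ∈ S, ∀ a : ℕ, 0 < a → a < n → tr (a : ℤ) x ∉ S)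

include hμ hS hdis

omit [Fintype A] [MeasurableSingletonClass A] in
theorem measureReal_levels (hm : ℕ) (hle : hm ≤ n) :
    μ.real (⋃ i : Fin hm, tr (-((i : ℕ) : ℤ)) ⁻¹' S) = hm * μ.real S := by
  rw [measureReal_iUnion_fintype (f := fun i : Fin hm => tr (-((i : ℕ) : ℤ)) ⁻¹' S)
    (fun i j hij => Set.disjoint_left.2 fun x hi hj => hij (Fin.ext
      (congrArg Fin.val (tower_unique hdis (x := x) (i := i.castLE hle) (j := j.castLE hle) hi
        hj) :)))
    fun i => measurable_tr _ hS]
  have e : ∀ k : ℤ, μ.real (tr k ⁻¹' S) = μ.real S := fun k => by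
    rw [measureReal_def, (mp_tr hμ k).measure_preimage hS.nullMeasurableSet, measureReal_def]
  simp only [e, Finset.sum_const, Finset.card_univ, Fintype.card_fin, nsmul_eq_mul]

omit [Fintype A] [MeasurableSingletonClass A] in
theorem tower_mul_le_one : (n : ℝ) * μ.real S ≤ 1 := by
  rw [← measureReal_levels hμ hS hdis n le_rfl]
  exact measureReal_le_one

omit [Fintype B] in
/-- **The blocks of a tower code** are those of the pairs of words. -/
theorem towerCode_blk [DecidableEq A] [DecidableEq B] {G : Finset (Fin n → A)}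
    (hSG : S ⊆ blk n ⁻¹' (G : Set (Fin n → A))) (ψ : (Fin n → A) → Fin n → B) (b₀ : B) {m : ℕ}
    (hm : 0 < m) (hmn : m ≤ n) (u : Fin m → A × B) {c a θ : ℝ} (hθ : 1 - n * μ.real S ≤ θ)
    (hc : c ∈ Set.Icc 0 1) (ha : 0 ≤ a)
    (hG : ∀ w ∈ G, |(occ (zipW w (ψ w)) u : ℝ) / n - c| ≤ a) :
    |μ.real (graphS (towerCode S ψ b₀) ⁻¹' (blk m ⁻¹' {u})) - c| ≤ a + θ + m / n := by
  set φ := towerCode S ψ b₀
  have hφ : Measurable φ := measurable_towerCode hS ψ b₀
  have hn : (0 : ℝ) < n := Nat.cast_pos.2 (by omega)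
  set U := graphS φ ⁻¹' (blk m ⁻¹' {u})
  have hU : MeasurableSet U :=
    measurable_graphS hφ (measurable_blk m (measurableSet_singleton u))
  have hle : n + 1 - m ≤ n := by omega
  set C : Fin (n + 1 - m) → Set (ℤ → A) := fun i => tr (-((i : ℕ) : ℤ)) ⁻¹' S with hCdef
  have hCm : MeasurableSet (⋃ i, C i) := .iUnion fun i => measurable_tr _ hS
  let pat : Fin (n + 1 - m) → (Fin n → A) → Prop := fun i w =>
    (fun j : Fin m => zipW w (ψ w) ⟨(i : ℕ) + (j : ℕ), by omega⟩) = u
  have hlevel : ∀ i, μ.real (U ∩ C i) = μ.real (S ∩ blk n ⁻¹' {w | pat i w}) := fun i => by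
    have e : U ∩ C i = tr (-((i : ℕ) : ℤ)) ⁻¹' (S ∩ blk n ⁻¹' {w | pat i w}) := by
      have key : ∀ y ∈ S, blk m (graphS φ (tr ((i : ℕ) : ℤ) y)) =
          fun j : Fin m => zipW (blk n y) (ψ (blk n y)) ⟨(i : ℕ) + (j : ℕ), by omega⟩ := by
        intro y hy
        funext j
        have := towerCode_apply hdis ψ b₀ hy ⟨(i : ℕ) + (j : ℕ), by omega⟩
        simp only [blk, graphS, zipS, code, zipW, tr_tr] at this ⊢
        refine Prod.ext ?_ ?_
        · show y _ = y _
          congr 1
          push_cast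
          ring
        · rw [← this]
          refine congrArg φ (congrArg (fun k => tr k y) ?_)
          push_cast
          ring
      ext x
      have hx : tr ((i : ℕ) : ℤ) (tr (-((i : ℕ) : ℤ)) x) = x := by simp [tr_tr, tr_zero]
      simp only [U, C, Set.mem_inter_iff, Set.mem_preimage, Set.mem_singleton_iff,
        Set.mem_ofPred_eq]
      constructor
      · rintro ⟨h1, h2⟩
        exact ⟨h2, show _ = u by rw [← key _ h2, hx]; exact h1⟩
      · rintro ⟨h2, h1⟩
        exact ⟨by rw [← hx, key _ h2]; exact h1, h2⟩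
    rw [e, measureReal_def, (mp_tr hμ _).measure_preimage
      (hS.inter (measurable_blk n (Set.toFinite _).measurableSet)).nullMeasurableSet,
      measureReal_def]
  have hdisj : Pairwise (Function.onFun Disjoint C) := fun i j hij =>
    Set.disjoint_left.2 fun x hi hj => hij (Fin.ext (congrArg Fin.val
      (tower_unique hdis (x := x) (i := i.castLE hle) (j := j.castLE hle) hi hj) :))
  have hin : μ.real (U ∩ ⋃ i, C i) =
      ∑ w, μ.real (S ∩ blk n ⁻¹' {w}) * (occ (zipW w (ψ w)) u : ℝ) := by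
    rw [Set.inter_iUnion, measureReal_iUnion_fintype
      (fun i j hij => (hdisj hij).mono Set.inter_subset_right Set.inter_subset_right)
      fun i => hU.inter (measurable_tr _ hS)]
    simp only [hlevel, measureReal_inter_blk μ S]
    rw [Finset.sum_comm]
    refine Finset.sum_congr rfl fun w _ => ?_
    rw [← Finset.sum_filter, Finset.sum_const, nsmul_eq_mul, mul_comm]
    rfl
  have hsum : ∑ w, μ.real (S ∩ blk n ⁻¹' {w}) = μ.real S := by
    have h := measureReal_inter_blk μ S (fun _ : Fin n → A => True)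
    simp only [if_true] at h
    rw [← h]
    simp
  have hoff : ∀ w ∉ G, μ.real (S ∩ blk n ⁻¹' {w}) = 0 := fun w hw => by
    rw [Set.eq_empty_of_forall_notMem (s := S ∩ blk n ⁻¹' {w}) fun x hx => hw (by
      have h2 : blk n x = w := hx.2
      exact h2 ▸ hSG hx.1), measureReal_empty]
  have hb : ∀ w, μ.real (S ∩ blk n ⁻¹' {w}) * (n * (c - a)) ≤
      μ.real (S ∩ blk n ⁻¹' {w}) * (occ (zipW w (ψ w)) u : ℝ) ∧
      μ.real (S ∩ blk n ⁻¹' {w}) * (occ (zipW w (ψ w)) u : ℝ) ≤
        μ.real (S ∩ blk n ⁻¹' {w}) * (n * (c + a)) := fun w => by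
    by_cases hw : w ∈ G
    · obtain ⟨h1, h2⟩ := abs_le.1 (hG w hw)
      have e := div_mul_cancel₀ (occ (zipW w (ψ w)) u : ℝ) hn.ne'
      constructor <;> refine mul_le_mul_of_nonneg_left ?_ measureReal_nonneg <;> nlinarith
    · simp [hoff w hw]
  have hlow := Finset.sum_le_sum fun w (_ : w ∈ Finset.univ) => (hb w).1
  have hupp := Finset.sum_le_sum fun w (_ : w ∈ Finset.univ) => (hb w).2
  rw [← Finset.sum_mul, hsum, ← hin] at hlow hupp
  have hsplit := measureReal_inter_add_sdiff (μ := μ) (s := U) hCm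
  have hrest : μ.real (U \ ⋃ i, C i) ≤ 1 - ((n + 1 - m : ℕ) : ℝ) * μ.real S := by
    refine (measureReal_mono (s₂ := (⋃ i, C i)ᶜ) fun x hx => hx.2).trans_eq ?_
    rw [probReal_compl_eq_one_sub hCm, hCdef, measureReal_levels hμ hS hdis _ hle]
  rw [Nat.cast_sub (by omega)] at hrest
  push_cast at hrest
  have h1 := tower_mul_le_one hμ hS hdis
  have h2 : (m : ℝ) * μ.real S ≤ m / n := by
    rw [le_div_iff₀ hn]
    nlinarith [Nat.cast_nonneg (α := ℝ) m]
  have h0 : 0 ≤ μ.real S := measureReal_nonneg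
  have h3 : (0 : ℝ) ≤ m / n := div_nonneg m.cast_nonneg n.cast_nonneg
  rw [abs_le]
  constructor
  · nlinarith [measureReal_nonneg (μ := μ) (s := U \ ⋃ i, C i), hc.1, hc.2]
  · nlinarith [hc.1, hc.2]

/-- **A tower code keeps the entropy** up to that of the index and of the outside. -/
theorem rate_le_towerCode {G : Finset (Fin n → A)}
    (hpos : 0 < n) (hSG : S ⊆ blk n ⁻¹' (G : Set (Fin n → A))) {K : ℕ} (f : G → (Fin n → B) × Fin K)
    (hf : Function.Injective f) (ψ : (Fin n → A) → Fin n → B) (hψ : ∀ w : G, ψ w = (f w).1)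
    (b₀ : B) :
    rate μ (shift A) (fun x => x 0) ≤ rate μ (shift A) (towerCode S ψ b₀) +
      (negMulLog (1 - μ.real S) + negMulLog (μ.real S) + μ.real S * log K) +
      (negMulLog (1 - (1 - n * μ.real S)) + negMulLog (1 - n * μ.real S) +
        (1 - n * μ.real S) * log (Fintype.card A)) := by
  classical
  set φ := towerCode S ψ b₀
  have hφ : Measurable φ := measurable_towerCode hS ψ b₀
  let : MeasurableSpace (Option (Fin K)) := ⊤
  have : MeasurableSingletonClass (Option (Fin K)) := ⟨fun _ => trivial⟩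
  let : MeasurableSpace (Option A) := ⊤
  have : MeasurableSingletonClass (Option A) := ⟨fun _ => trivial⟩
  let cov : Set (ℤ → A) := ⋃ i : Fin n, tr (-((i : ℕ) : ℤ)) ⁻¹' S
  have hcov : MeasurableSet cov := .iUnion fun i => measurable_tr _ hS
  let idx : (Fin n → A) → Option (Fin K) :=
    fun w => if hw : w ∈ G then some (f ⟨w, hw⟩).2 else none
  let D₁ : (ℤ → A) → Option (Fin K) := fun x => if x ∈ S then idx (blk n x) else none
  let D₂ : (ℤ → A) → Option A := fun x => if x ∈ cov then none else some (x 0)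
  have hD₁ : Measurable D₁ := Measurable.ite hS
    ((measurable_of_finite idx).comp (measurable_blk n)) measurable_const
  have hD₂ : Measurable D₂ := Measurable.ite hcov measurable_const
    ((measurable_of_finite some).comp (measurable_pi_apply 0))
  let P : (ℤ → A) → B × (Option (Fin K) × Option A) := fun x => (φ x, (D₁ x, D₂ x))
  have hP : Measurable P := hφ.prodMk (hD₁.prodMk hD₂)
  have hsome : ∀ x ∈ S, ∀ hw : blk n x ∈ G, D₁ x = some (f ⟨blk n x, hw⟩).2 := fun x hx hw => by
    simp [D₁, idx, hx, hw]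
  have hfac : Function.FactorsThrough (fun x : ℤ → A => x n)
      (word (shift A) P (2 * n)) := by
    intro x y hxy
    have hW : ∀ j : ℕ, j < 2 * n → P (tr (j : ℤ) x) = P (tr (j : ℤ) y) := fun j hj => by
      simpa [word, iterate_shift] using congrFun hxy ⟨j, hj⟩
    have hn2 := congrArg (fun p => p.2.2) (hW n (by omega))
    simp only [P, D₂] at hn2
    by_cases hx : tr (n : ℤ) x ∈ cov
    · obtain ⟨i, hi⟩ := Set.mem_iUnion.1 hx
      rw [Set.mem_preimage, tr_tr, show -((i : ℕ) : ℤ) + n = ((n - i : ℕ) : ℤ) by omega] at hi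
      have hwx := hSG hi
      have h1 : D₁ (tr ((n - i : ℕ) : ℤ) x) = D₁ (tr ((n - i : ℕ) : ℤ) y) :=
        congrArg (fun p => p.2.1) (hW (n - i) (by omega))
      rw [hsome _ hi hwx] at h1
      have hyS : tr ((n - i : ℕ) : ℤ) y ∈ S := by
        by_contra hy
        rw [show D₁ (tr ((n - i : ℕ) : ℤ) y) = none from if_neg hy] at h1
        simp at h1
      have hwy := hSG hyS
      rw [hsome _ hyS hwy] at h1
      have h2 : (f ⟨_, hwx⟩).1 = (f ⟨_, hwy⟩).1 := by
        rw [← hψ, ← hψ]
        funext k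
        rw [← towerCode_apply hdis ψ b₀ hi k, ← towerCode_apply hdis ψ b₀ hyS k, tr_tr, tr_tr]
        have := congrArg Prod.fst (hW ((k : ℕ) + (n - i)) (by omega))
        push_cast at this
        exact this
      have h3 := congrFun (Subtype.ext_iff.1 (hf (Prod.ext h2 (Option.some_injective _ h1)))) i
      simpa [blk, tr, Nat.cast_sub i.2.le] using h3
    · by_cases hy : tr (n : ℤ) y ∈ cov
      · simp [hx, hy] at hn2
      · simpa [hx, hy, tr] using hn2
  have hA : Nonempty A := by
    obtain ⟨x⟩ := nonempty_of_isProbabilityMeasure μ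
    exact ⟨x 0⟩
  set g := Function.extend (word (shift A) P (2 * n)) (fun x : ℤ → A => x n)
    fun _ => Classical.arbitrary A
  have hg : g ∘ word (shift A) P (2 * n) = (fun x : ℤ → A => x 0) ∘ (shift A)^[n] := by
    funext x
    simp only [Function.comp_apply, g, hfac.extend_apply, iterate_shift, tr, zero_add]
  have h1 : rate μ (shift A) (fun x => x 0) ≤ rate μ (shift A) P := by
    rw [← FA.KolmogorovSinai.rate_comp_iterate hμ (measurable_pi_apply 0) n, ← hg]
    exact FA.KolmogorovSinai.rate_window_le hμ hP (2 * n) g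
  have h2 : rate μ (shift A) P ≤ rate μ (shift A) φ + entropy μ fun x => (D₁ x, D₂ x) :=
    FA.KolmogorovSinai.rate_le_add hμ hφ (hD₁.prodMk hD₂) fun b d => (b, d)
  have h3 := FA.KolmogorovSinai.entropy_pair_le (μ := μ) hD₁ hD₂
  have h4 := entropy_option_le (μ := μ) hD₁ (p := μ.real S) (by
    congr 1
    ext x
    simp only [D₁, Set.mem_ofPred_eq]
    by_cases hx : x ∈ S
    · simp [hx, idx, show blk n x ∈ G from hSG hx]
    · simp [hx])
  have h5 := entropy_option_le (μ := μ) hD₂ (p := 1 - n * μ.real S) (by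
    rw [← measureReal_levels hμ hS hdis n le_rfl, ← probReal_compl_eq_one_sub hcov]
    congr 1
    ext x
    by_cases hx : x ∈ cov <;> simp [D₂, hx])
  rw [Fintype.card_fin] at h4
  linarith

end FA.Ornstein

end
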